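import Mathlib
import Fermat.Agent.S24.JExp

/-!
# S28: explicit `q^{1/N}`-expansions of `f ((A z + B) / D)`
-/

set_option autoImplicit false

namespace Fermat.Agent.S28

open UpperHalfPlane ModularForm EisensteinSeries ModularCurve HahnSeries
open Fermat.Agent.X0 Fermat.Agent.S24
open scoped MatrixGroups Manifold Real

lemma expAff_qParam (A : ℕ) (B : ℤ) (D N : ℕ) [NeZero A] [NeZero D] [NeZero N] (hD : D ∣ N)
    (z : ℍ) :
    Function.Periodic.qParam 1 (affH A B D z) =
      Complex.exp (2 * π * Complex.I * B / D) *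
        Function.Periodic.qParam (N : ℝ) z ^ (A * (N / D)) := by
  obtain ⟨e, rfl⟩ := hD
  have hD0 : (D : ℂ) ≠ 0 := by exact_mod_cast NeZero.ne D
  have he0 : (e : ℂ) ≠ 0 := by
    have : D * e ≠ 0 := NeZero.ne (D * e)
    exact_mod_cast (Nat.mul_ne_zero_iff.1 this).2
  rw [Nat.mul_div_cancel_left e (Nat.pos_of_ne_zero (NeZero.ne D))]
  simp only [Function.Periodic.qParam, coe_affH]
  rw [← Complex.exp_nat_mul, ← Complex.exp_add]
  congr 1
  push_cast
  field_simp
  ring

/-- the `q^{1/N}`-expansion of `f ((A z + B) / D)`, `D ∣ N`. -/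
theorem expAff_coeff (f : ℍ → ℂ) (hf : IsNiceH 1 f) (A : ℕ) (B : ℤ) (D N : ℕ) [NeZero A]
    [NeZero D] [NeZero N] (hD : D ∣ N) (n : ℕ) :
    (qExpansion (N : ℝ) (fun z => f (affH A B D z))).coeff n =
      if A * (N / D) ∣ n then
        Complex.exp (2 * π * Complex.I * B / D) ^ (n / (A * (N / D))) *
          (qExpansion 1 f).coeff (n / (A * (N / D)))
      else 0 := by
  have hN : (0 : ℝ) < N := by exact_mod_cast Nat.pos_of_ne_zero (NeZero.ne N)
  have hd : 0 < A * (N / D) :=
    Nat.mul_pos (Nat.pos_of_ne_zero (NeZero.ne A))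
      (Nat.div_pos (Nat.le_of_dvd (Nat.pos_of_ne_zero (NeZero.ne N)) hD)
        (Nat.pos_of_ne_zero (NeZero.ne D)))
  set d := A * (N / D) with hdd
  have hg : IsNiceH (N : ℝ) (fun z => f (affH A B D z)) := jexp_nice_affH f hf A B D N hD
  have hper : Function.Periodic (f ∘ ofComplex) ((1 : ℝ) : ℂ) := hf.1
  symm
  refine jexp_coeff_unique (h := (N : ℝ)) (f := fun z => f (affH A B D z))
    (c := fun n => if d ∣ n then Complex.exp (2 * π * Complex.I * B / D) ^ (n / d) *
      (qExpansion 1 f).coeff (n / d) else 0) hN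
    (analyticAt_cuspFunction_zero hN hg.1 hg.2.1 hg.2.2) ?_ n
  intro τ
  have h1 := hasSum_qExpansion one_pos hper hf.2.1 hf.2.2 (affH A B D τ)
  rw [expAff_qParam A B D N hD] at h1
  have hinj : Function.Injective (fun m : ℕ => d * m) := fun a b h =>
    Nat.eq_of_mul_eq_mul_left hd h
  rw [← hinj.hasSum_iff]
  · convert h1 using 2 with m
    simp only [Function.comp, dvd_mul_right, if_true, Nat.mul_div_cancel_left _ hd, smul_eq_mul,
      mul_pow, pow_mul]
    ring
  · intro x hx
    rw [if_neg, zero_smul]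
    rintro ⟨m, rfl⟩
    exact hx ⟨m, rfl⟩

end Fermat.Agent.S28
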