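import Mathlib
import Fermat.Prelude.Def_ModularCurve_IgusaScheme
import Fermat.Prelude.Def_ModularCurve_X0ModL
import Fermat.Agent.S24.AnDefs

/-!
# S28 (Igusa): common definitions
-/

set_option autoImplicit false

namespace Fermat.Agent.S28

open UpperHalfPlane ModularForm ModularCurve HahnSeries CongruenceSubgroup
open Fermat.Agent.X0 Fermat.Agent.S24
open scoped MatrixGroups Manifold Real

/-- `ℤ_(ℓ)` -/
abbrev Zl (ℓ : ℕ) : Type := ↥(GaloisRep.ratLocalizedAt ℓ)

/-- the algebraic integers in `ℂ` -/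
abbrev Zb : Type := ↥(integralClosure ℤ ℂ)

/-- Laurent series with algebraic integer coefficients, seen as complex Laurent series -/
noncomputable def iotaZ : LaurentSeries Zb →+* LaurentSeries ℂ := coeffMap (algebraMap Zb ℂ)

section Scale

variable {R : Type*} [CommRing R]

/-- `∑ c_n q^n ↦ ∑ c_n u^n q^n` -/
noncomputable def scaleFn (u : Rˣ) (f : LaurentSeries R) : LaurentSeries R where
  coeff n := ((u ^ n : Rˣ) : R) * f.coeff n
  isPWO_support' := f.isPWO_support.mono fun n hn => by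
    simp only [Function.mem_support, ne_eq] at hn ⊢
    intro h
    exact hn (by rw [h, mul_zero])

@[simp] lemma scaleFn_coeff (u : Rˣ) (f : LaurentSeries R) (n : ℤ) :
    (scaleFn u f).coeff n = ((u ^ n : Rˣ) : R) * f.coeff n := rfl

lemma scaleFn_support (u : Rˣ) (f : LaurentSeries R) : (scaleFn u f).support = f.support := by
  ext n
  simp only [HahnSeries.mem_support, scaleFn_coeff, ne_eq]
  rw [Units.mul_right_eq_zero]

lemma scaleFn_mul (u : Rˣ) (f g : LaurentSeries R) :
    scaleFn u (f * g) = scaleFn u f * scaleFn u g := by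
  ext n
  have hset : Finset.antidiagonal (scaleFn u f).isPWO_support (scaleFn u g).isPWO_support n =
      Finset.antidiagonal f.isPWO_support g.isPWO_support n := by
    ext ij
    simp only [Finset.mem_antidiagonal, scaleFn_support u]
  rw [scaleFn_coeff, HahnSeries.coeff_mul, HahnSeries.coeff_mul, hset, Finset.mul_sum]
  refine Finset.sum_congr rfl fun ij hij => ?_
  have h1 : ij.1 + ij.2 = n := (Finset.mem_antidiagonal.1 hij).2.2
  rw [scaleFn_coeff, scaleFn_coeff, ← h1, zpow_add, Units.val_mul]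
  ring

/-- `∑ c_n q^n ↦ ∑ c_n u^n q^n` as a ring homomorphism -/
noncomputable def scaleHom (u : Rˣ) : LaurentSeries R →+* LaurentSeries R where
  toFun := scaleFn u
  map_one' := by
    ext n
    rw [scaleFn_coeff, HahnSeries.coeff_one]
    split_ifs with h
    · subst h; simp
    · simp
  map_mul' := scaleFn_mul u
  map_zero' := by ext n; simp
  map_add' f g := by ext n; simp [mul_add]

@[simp] lemma scaleHom_coeff (u : Rˣ) (f : LaurentSeries R) (n : ℤ) :
    (scaleHom u f).coeff n = ((u ^ n : Rˣ) : R) * f.coeff n := rfl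

/-- `∑ c_n q^n ↦ ∑ c_n u^n t^(m n)` -/
noncomputable def tw (u : Rˣ) (m : ℕ) [NeZero m] : LaurentSeries R →+* LaurentSeries R :=
  (qExpand R m).comp (scaleHom u)

variable (R)

/-- the `q`-expansion of `Δ` -/
noncomputable def dq : LaurentSeries R :=
  HahnSeries.single (1 : ℤ) 1 *
    HahnSeries.ofPowerSeries ℤ R (dedekindEtaUnit.map (Int.castRingHom R))

/-- the `q`-expansion of `1 / Δ` -/
noncomputable def dqInv : LaurentSeries R :=
  HahnSeries.single (-1 : ℤ) 1 *
    HahnSeries.ofPowerSeries ℤ R (dedekindEtaUnitInv.map (Int.castRingHom R))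

end Scale

/-- `e(B / D)` -/
noncomputable def zetaV (D : ℕ) (B : ℤ) : ℂ := Complex.exp (2 * π * Complex.I * B / D)

lemma zetaV_isIntegral (D : ℕ) (B : ℤ) : IsIntegral ℤ (zetaV D B) := by
  rcases Nat.eq_zero_or_pos D with rfl | hD
  · simp [zetaV, isIntegral_one]
  · refine IsIntegral.of_pow hD ?_
    have : zetaV D B ^ D = 1 := by
      rw [zetaV, ← Complex.exp_nat_mul]
      have hD' : (D : ℂ) ≠ 0 := by exact_mod_cast hD.ne'
      rw [show (D : ℂ) * (2 * π * Complex.I * B / D) = B * (2 * π * Complex.I) by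
        field_simp]
      exact Complex.exp_int_mul_two_pi_mul_I B
    rw [this]
    exact isIntegral_one

lemma zetaV_mul_neg (D : ℕ) (B : ℤ) : zetaV D B * zetaV D (-B) = 1 := by
  rw [zetaV, zetaV, ← Complex.exp_add]
  have : 2 * π * Complex.I * (B : ℂ) / D + 2 * π * Complex.I * ((-B : ℤ) : ℂ) / D = 0 := by
    push_cast; ring
  rw [this, Complex.exp_zero]

/-- `e(B / D)` as a unit of the ring of algebraic integers -/
noncomputable def zetaZ (D : ℕ) (B : ℤ) : Zbˣ where
  val := ⟨zetaV D B, zetaV_isIntegral D B⟩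
  inv := ⟨zetaV D (-B), zetaV_isIntegral D (-B)⟩
  val_inv := Subtype.ext (zetaV_mul_neg D B)
  inv_val := Subtype.ext (by rw [MulMemClass.coe_mul, mul_comm]; exact zetaV_mul_neg D B)

/-- `e(B / D)` as a unit of `ℂ` -/
noncomputable def zetaC (D : ℕ) (B : ℤ) : ℂˣ := Units.map (algebraMap Zb ℂ).toMonoidHom (zetaZ D B)

@[simp] lemma zetaC_val (D : ℕ) (B : ℤ) : ((zetaC D B : ℂˣ) : ℂ) = zetaV D B := rfl

/-- `j(t^N)`, `t = q^(1/N)` -/
noncomputable def JJ (R : Type*) [CommRing R] (N : ℕ) [NeZero N] : LaurentSeries R :=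
  qExpand R N (jqModC R)

/-- `d^12 Δ(d z) / Δ(z)` -/
noncomputable def vP (d : ℕ) [NeZero d] (z : ℍ) : ℂ :=
  (d : ℂ) ^ 12 * discriminant (affH d 0 1 z) / discriminant z

/-- `Δ(z) / Δ(d z)` -/
noncomputable def vM (d : ℕ) [NeZero d] (z : ℍ) : ℂ :=
  discriminant z / discriminant (affH d 0 1 z)

noncomputable instance instFintypeDv (N : ℕ) [NeZero N] : Fintype (Dv N) :=
  Fintype.ofInjective
    (fun d : Dv N => (⟨d.1, Nat.lt_succ_of_le
      (Nat.le_of_dvd (Nat.pos_of_ne_zero (NeZero.ne N)) d.2)⟩ : Fin (N + 1)))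
    (fun a b h => Subtype.ext (by simpa using congrArg Fin.val h))

/-- the modular unit `∏_{d ∣ N} (Δ(d z) / Δ(z)) ^ (- μ(N / d) d)` (up to a constant): it vanishes at
all cusps of `X₀(N)` except `∞`. -/
noncomputable def gFun (N : ℕ) [NeZero N] (z : ℍ) : ℂ :=
  ∏ d : Dv N, (if ArithmeticFunction.moebius (N / d.1) = -1 then vP d.1 z ^ d.1
    else if ArithmeticFunction.moebius (N / d.1) = 1 then vM d.1 z ^ d.1 else 1)

/-- `j(q^N)` as an element of the function field over `ℚ` -/
noncomputable def jNFull (N : ℕ) [NeZero N] : ↥(modularFunctionFieldFull N) :=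
  ⟨jqN N, jqd_mem_full N dvd_rfl⟩

end Fermat.Agent.S28
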