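import Mathlib
import Fermat.Agent.S28.Defs
import Fermat.Agent.S28.ExpAff
import Fermat.Agent.S24.RelInf

/-!
# S28 (W4): analysis: the expansion of `f ((A z + B) / D)`
-/

set_option autoImplicit false
set_option maxHeartbeats 1000000

namespace Fermat.Agent.S28

open UpperHalfPlane ModularForm ModularCurve HahnSeries CongruenceSubgroup
open Fermat.Agent.X0 Fermat.Agent.S24
open scoped MatrixGroups Manifold Real

theorem qL_comp_affH (f : ℍ → ℂ) (hf : IsNiceH 1 f) (A : ℕ) (B : ℤ) (D N m : ℕ) [NeZero A]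
    [NeZero D] [NeZero N] [NeZero m] (hD : D ∣ N) (hm : m = A * (N / D)) :
    qL (N : ℝ) (fun z => f (affH A B D z)) = tw (zetaC D B) m (qL 1 f) := by
  have hd : 0 < m := Nat.pos_of_ne_zero (NeZero.ne _)
  have hdZ : (0 : ℤ) < (m : ℤ) := by exact_mod_cast hd
  have key : ∀ n : ℕ, (qExpansion (N : ℝ) (fun z => f (affH A B D z))).coeff n =
      if m ∣ n then zetaV D B ^ (n / m) * (qExpansion 1 f).coeff (n / m) else 0 := by
    intro n
    rw [expAff_coeff f hf A B D N hD n, ← hm]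
    rfl
  ext k
  change _ = (qExpand ℂ m (scaleHom (zetaC D B) (qL 1 f))).coeff k
  by_cases hk : (m : ℤ) ∣ k
  · obtain ⟨l, rfl⟩ := hk
    rw [qExpand_coeff_mul, scaleHom_coeff]
    rcases lt_or_ge l 0 with hl | hl
    · rw [coeff_qL_neg _ _ hl, coeff_qL_neg, mul_zero]
      exact mul_neg_of_pos_of_neg hdZ hl
    · obtain ⟨n, rfl⟩ := Int.eq_ofNat_of_zero_le hl
      have e : (m : ℤ) * (n : ℤ) = ((m * n : ℕ) : ℤ) := by push_cast; ring
      rw [e, coeff_qL_nat, coeff_qL_nat, key, if_pos (dvd_mul_right _ n),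
        Nat.mul_div_cancel_left n hd, zpow_natCast, Units.val_pow_eq_pow_val, zetaC_val]
  · rw [qExpand_coeff_of_not_dvd _ _ hk]
    rcases lt_or_ge k 0 with hl | hl
    · exact coeff_qL_neg _ _ hl
    · obtain ⟨n, rfl⟩ := Int.eq_ofNat_of_zero_le hl
      rw [coeff_qL_nat, key, if_neg]
      intro h
      exact hk (by exact_mod_cast h)

theorem relInf_comp_affH {φ : ℍ → ℂ} {s : LaurentSeries ℂ} (h : RelInf 1 φ s) (A : ℕ) (B : ℤ)
    (D N m : ℕ) [NeZero A] [NeZero D] [NeZero N] [NeZero m] (hD : D ∣ N) (hm : m = A * (N / D)) :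
    RelInf (N : ℝ) (fun z => φ (affH A B D z)) (tw (zetaC D B) m s) := by
  obtain ⟨a, c, ha, hc, hc0, hφ, hs⟩ := h
  refine ⟨fun z => a (affH A B D z), fun z => c (affH A B D z),
    jexp_nice_affH a ha A B D N hD, jexp_nice_affH c hc A B D N hD, fun z => hc0 _,
    fun z => hφ _, ?_⟩
  change s * qL 1 c = qL 1 a at hs
  change _ * qL (N : ℝ) _ = qL (N : ℝ) _
  rw [qL_comp_affH a ha A B D N m hD hm, qL_comp_affH c hc A B D N m hD hm, ← map_mul, hs]

theorem isMod_of_relInf (N : ℕ) [NeZero N] {φ : ℍ → ℂ} {s : LaurentSeries ℂ}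
    (h : RelInf (N : ℝ) φ s) : IsMod φ := by
  obtain ⟨a, c, ha, hc, hc0, hφ, -⟩ := h
  have hN1 : 1 ≤ N := Nat.pos_of_ne_zero (NeZero.ne N)
  have hN : (0 : ℝ) < N := by exact_mod_cast hN1
  have hCan : AnalyticAt ℂ (cuspFunction (N : ℝ) c) 0 := hc.analyticAt hN
  have hCeq : ∀ z : ℍ, cuspFunction (N : ℝ) c (Function.Periodic.qParam (N : ℝ) z) = c z :=
    fun z => eq_cuspFunction z hN.ne' hc.1
  have htend := qParam_tendsto_atImInfty hN
  have hne : ¬ ∀ᶠ t in nhds (0 : ℂ), cuspFunction (N : ℝ) c t = 0 := by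
    intro h0
    obtain ⟨z, hz⟩ := (htend.eventually h0).exists
    rw [hCeq] at hz
    exact hc0 z hz
  obtain ⟨n, g, hgan, hg0, hgeq⟩ := hCan.exists_eventuallyEq_pow_smul_nonzero_iff.2 hne
  refine ⟨n, ?_⟩
  have hδ : 0 < ‖g 0‖ / 2 := by positivity
  have hg1 : ∀ᶠ t in nhds (0 : ℂ), ‖g 0‖ / 2 < ‖g t‖ :=
    hgan.continuousAt.norm.eventually (lt_mem_nhds (by linarith))
  obtain ⟨M, hM⟩ := ha.2.2.bound
  have hP := (tendsto_atImInfty_tprod_one_sub_eta_q_pow.norm).eventually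
    (gt_mem_nhds (show ‖(1 : ℂ)‖ < 2 by rw [norm_one]; norm_num))
  refine Asymptotics.IsBigO.of_bound (|M| * 2 ^ n / (‖g 0‖ / 2)) ?_
  filter_upwards [htend.eventually hgeq, htend.eventually hg1, hM, hP] with z h1 h2 h3 h4
  simp only [Pi.one_apply, norm_one, mul_one] at h3 ⊢
  set t := Function.Periodic.qParam (N : ℝ) (z : ℂ) with ht
  have ht0 : t ≠ 0 := Complex.exp_ne_zero _
  have htpos : 0 < ‖t‖ := norm_pos_iff.2 ht0
  have htle : ‖t‖ ≤ 1 := by
    rw [ht, Function.Periodic.norm_qParam, Real.exp_le_one_iff]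
    have := Real.pi_pos
    have h5 : 0 < (z : ℂ).im := z.im_pos
    apply div_nonpos_of_nonpos_of_nonneg _ hN.le
    nlinarith
  have hq : Function.Periodic.qParam 1 (z : ℂ) = t ^ N := by
    rw [ht]
    simp only [Function.Periodic.qParam]
    rw [← Complex.exp_nat_mul]
    congr 1
    have : (N : ℂ) ≠ 0 := by exact_mod_cast NeZero.ne N
    push_cast
    field_simp
  have hΔ : ‖discriminant z‖ ≤ 2 * ‖t‖ := by
    rw [discriminant_eq_q_prod, norm_mul, hq, norm_pow, mul_comm]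
    have h5 : ‖t‖ ^ N ≤ ‖t‖ := by
      calc ‖t‖ ^ N ≤ ‖t‖ ^ 1 := pow_le_pow_of_le_one htpos.le htle hN1
        _ = ‖t‖ := pow_one _
    exact mul_le_mul h4.le h5 (by positivity) (by norm_num)
  have hcz : c z = t ^ n * g t := by
    rw [← hCeq z, h1]
    simp
  have hφz : φ z = a z / c z := by
    rw [← hφ z, mul_div_cancel_right₀ _ (hc0 z)]
  rw [hφz, hcz, norm_mul, norm_div, norm_mul, norm_pow, norm_pow]
  have hgt : 0 < ‖g t‖ := lt_trans hδ h2
  rw [div_mul_eq_mul_div, div_le_div_iff₀ (by positivity) hδ]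
  have h6 : ‖discriminant z‖ ^ n ≤ 2 ^ n * ‖t‖ ^ n := by
    rw [← mul_pow]
    exact pow_le_pow_left₀ (norm_nonneg _) hΔ n
  have h7 : ‖a z‖ ≤ |M| := le_trans h3 (le_abs_self M)
  calc ‖a z‖ * ‖discriminant z‖ ^ n * (‖g 0‖ / 2)
      ≤ |M| * (2 ^ n * ‖t‖ ^ n) * ‖g t‖ := by gcongr
    _ = |M| * 2 ^ n * (‖t‖ ^ n * ‖g t‖) := by ring

end Fermat.Agent.S28
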