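import Mathlib

/-!
# S28 (W6): two Möbius sums
-/

set_option autoImplicit false

namespace Fermat.Agent.S28

open ArithmeticFunction Finset
open scoped ArithmeticFunction.Moebius

/-- `d ↦ gcd(d, m)^2` as an arithmetic function -/
def moebiusF (m : ℕ) : ArithmeticFunction ℤ :=
  ⟨fun d => if d = 0 then 0 else (Nat.gcd d m : ℤ) ^ 2, by simp⟩

theorem moebiusF_apply (m d : ℕ) (hd : d ≠ 0) : moebiusF m d = (Nat.gcd d m : ℤ) ^ 2 := by
  simp [moebiusF, hd]

theorem moebiusF_isMultiplicative (m : ℕ) : (moebiusF m).IsMultiplicative := by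
  rw [IsMultiplicative.iff_ne_zero]
  refine ⟨by simp [moebiusF], fun {a b} ha hb hab => ?_⟩
  rw [moebiusF_apply m _ (mul_ne_zero ha hb), moebiusF_apply m _ ha, moebiusF_apply m _ hb,
    Nat.gcd_comm (a * b), Nat.Coprime.gcd_mul m hab, Nat.gcd_comm m a, Nat.gcd_comm m b]
  push_cast
  ring

theorem moebius_gcd_prime_pow {p m a : ℕ} (hp : p.Prime) (hm : m ≠ 0)
    (ha : m.factorization p ≤ a) : Nat.gcd (p ^ a) m = p ^ m.factorization p := by
  apply Nat.dvd_antisymm
  · obtain ⟨j, _, hj⟩ := (Nat.dvd_prime_pow hp).1 (Nat.gcd_dvd_left (p ^ a) m)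
    rw [hj]
    apply pow_dvd_pow
    rw [← hp.pow_dvd_iff_le_factorization hm, ← hj]
    exact Nat.gcd_dvd_right _ _
  · exact Nat.dvd_gcd (pow_dvd_pow p ha) (Nat.ordProj_dvd m p)

theorem moebius_conv_prime_pow {p m e : ℕ} (hp : p.Prime) (hm : m ≠ 0)
    (he : m.factorization p < e) : ((μ : ArithmeticFunction ℤ) * moebiusF m) (p ^ e) = 0 := by
  obtain ⟨e', rfl⟩ : ∃ e', e = e' + 1 := ⟨e - 1, by omega⟩
  rw [mul_apply, Nat.sum_divisorsAntidiagonal (fun a b => μ a * moebiusF m b),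
    Nat.sum_divisors_prime_pow hp, Finset.sum_range_succ', Finset.sum_range_succ']
  have h0 : ∑ i ∈ range e', μ (p ^ (i + 1 + 1)) * moebiusF m (p ^ (e' + 1) / p ^ (i + 1 + 1)) = 0 := by
    refine Finset.sum_eq_zero fun i _ => ?_
    rw [moebius_apply_prime_pow hp (by omega), if_neg (by omega), zero_mul]
  rw [h0, zero_add, zero_add, pow_one, pow_zero, moebius_apply_prime hp, moebius_apply_one,
    Nat.div_one, pow_succ, Nat.mul_div_cancel _ hp.pos, ← pow_succ,
    moebiusF_apply m _ (pow_ne_zero _ hp.ne_zero), moebiusF_apply m _ (pow_ne_zero _ hp.ne_zero),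
    moebius_gcd_prime_pow hp hm (by omega), moebius_gcd_prime_pow hp hm (by omega)]
  ring

theorem moebius_gcd_sq (N m : ℕ) (hN : 0 < N) (hm : ¬ N ∣ m) :
    ∑ d ∈ N.divisors, (ArithmeticFunction.moebius (N / d) : ℤ) * (Nat.gcd d m : ℤ) ^ 2 = 0 := by
  have hm0 : m ≠ 0 := by
    rintro rfl
    exact hm (dvd_zero N)
  have h1 : ∑ d ∈ N.divisors, (μ (N / d) : ℤ) * (Nat.gcd d m : ℤ) ^ 2 =
      ((μ : ArithmeticFunction ℤ) * moebiusF m) N := by
    rw [mul_apply, Nat.sum_divisorsAntidiagonal' (fun a b => μ a * moebiusF m b)]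
    refine Finset.sum_congr rfl fun d hd => ?_
    rw [moebiusF_apply m d (Nat.pos_of_mem_divisors hd).ne']
  rw [h1, (isMultiplicative_moebius.mul (moebiusF_isMultiplicative m)).multiplicative_factorization
    _ hN.ne']
  have h2 : ¬ N.factorization ≤ m.factorization := by
    rwa [Nat.factorization_le_iff_dvd hN.ne' hm0]
  rw [Finsupp.le_def, not_forall] at h2
  obtain ⟨p, hp⟩ := h2
  rw [not_le] at hp
  have hps : p ∈ N.factorization.support := by
    rw [Finsupp.mem_support_iff]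
    omega
  have hpp : p.Prime := Nat.prime_of_mem_primeFactors (by simpa using hps)
  exact Finset.prod_eq_zero hps (moebius_conv_prime_pow hpp hm0 hp)

theorem moebius_id (N : ℕ) (hN : 0 < N) :
    ∑ d ∈ N.divisors, (ArithmeticFunction.moebius (N / d) : ℤ) * (d : ℤ) = Nat.totient N := by
  have h := (sum_eq_iff_sum_mul_moebius_eq (R := ℤ) (f := fun n => (Nat.totient n : ℤ))
    (g := fun n => (n : ℤ))).1 (fun n _ => by
      rw [← Nat.cast_sum, Nat.sum_totient]) N hN
  simp only [Int.cast_id] at h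
  rw [← h, Nat.sum_divisorsAntidiagonal' (fun a b => (μ a : ℤ) * (b : ℤ))]

end Fermat.Agent.S28
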