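import Mathlib
import Fermat.Agent.S28.Defs

/-!
# S28 (W3): algebra of the twisting homomorphisms
-/

set_option autoImplicit false

namespace Fermat.Agent.S28

open ModularCurve HahnSeries

section Tw

variable {R S : Type*} [CommRing R] [CommRing S]

theorem coeffMap_scaleHom (f : R →+* S) (u : Rˣ) (s : LaurentSeries R) :
    coeffMap f (scaleHom u s) = scaleHom (Units.map f.toMonoidHom u) (coeffMap f s) := by
  ext n
  rw [coeffMap_coeff, scaleHom_coeff, scaleHom_coeff, coeffMap_coeff, map_mul, ← map_zpow]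
  rfl

theorem coeffMap_tw (f : R →+* S) (u : Rˣ) (m : ℕ) [NeZero m] (s : LaurentSeries R) :
    coeffMap f (tw u m s) = tw (Units.map f.toMonoidHom u) m (coeffMap f s) := by
  rw [tw, tw, RingHom.comp_apply, RingHom.comp_apply, coeffMap_qExpand, coeffMap_scaleHom]

theorem tw_map_intCast (f : R →+* S) (p : PowerSeries ℤ) :
    (p.map (Int.castRingHom R)).map f = p.map (Int.castRingHom S) := by
  rw [← RingHom.comp_apply (PowerSeries.map f) (PowerSeries.map (Int.castRingHom R)),
    ← PowerSeries.map_comp, RingHom.ext_int (f.comp (Int.castRingHom R)) (Int.castRingHom S)]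

theorem coeffMap_dq (f : R →+* S) : coeffMap f (dq R) = dq S := by
  rw [dq, map_mul, coeffMap_single, map_one, coeffMap_ofPowerSeries, tw_map_intCast]
  rfl

theorem coeffMap_dqInv (f : R →+* S) : coeffMap f (dqInv R) = dqInv S := by
  rw [dqInv, map_mul, coeffMap_single, map_one, coeffMap_ofPowerSeries, tw_map_intCast]
  rfl

theorem coeffMap_JJ (f : R →+* S) (N : ℕ) [NeZero N] : coeffMap f (JJ R N) = JJ S N := by
  rw [JJ, coeffMap_qExpand, coeffMap_jqModC, JJ]

theorem dq_mul_dqInv : dq R * dqInv R = 1 := by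
  rw [dq, dqInv, mul_mul_mul_comm, HahnSeries.single_mul_single, ← map_mul, ← map_mul,
    dedekindEtaUnit_mul_inv, map_one, map_one, mul_one, mul_one]
  rfl

theorem tw_one (m : ℕ) [NeZero m] (s : LaurentSeries R) : tw (1 : Rˣ) m s = qExpand R m s := by
  rw [tw, RingHom.comp_apply]
  congr 1
  ext n
  simp

variable {k : Type*} [Field k]

theorem tw_order_eq {x : LaurentSeries k} {n : ℤ} (h1 : x.coeff n ≠ 0)
    (h2 : ∀ i < n, x.coeff i = 0) : x.order = n := by
  have h0 : x ≠ 0 := fun h0 => h1 (by rw [h0]; rfl)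
  refine le_antisymm (HahnSeries.order_le_of_coeff_ne_zero h1) ?_
  rw [HahnSeries.le_order_iff_forall h0]
  intro i hi
  exact h2 i hi

theorem order_qExpand (m : ℕ) [NeZero m] (s : LaurentSeries k) :
    (qExpand k m s).order = m * s.order := by
  by_cases hs : s = 0
  · simp [hs]
  have hm : (0 : ℤ) < m := by exact_mod_cast Nat.pos_of_ne_zero (NeZero.ne m)
  refine tw_order_eq ?_ fun i hi => ?_
  · rw [qExpand_coeff_mul]
    exact HahnSeries.coeff_order_eq_zero.not.mpr hs
  · by_cases hd : (m : ℤ) ∣ i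
    · obtain ⟨j, rfl⟩ := hd
      rw [qExpand_coeff_mul]
      exact HahnSeries.coeff_eq_zero_of_lt_order (lt_of_mul_lt_mul_left hi hm.le)
    · exact qExpand_coeff_of_not_dvd m s hd

theorem order_scaleHom (u : kˣ) (s : LaurentSeries k) : (scaleHom u s).order = s.order := by
  by_cases hs : s = 0
  · simp [hs]
  refine tw_order_eq ?_ fun i hi => ?_
  · rw [scaleHom_coeff]
    exact mul_ne_zero (Units.ne_zero _) (HahnSeries.coeff_order_eq_zero.not.mpr hs)
  · rw [scaleHom_coeff, HahnSeries.coeff_eq_zero_of_lt_order hi, mul_zero]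

theorem order_tw (u : kˣ) (m : ℕ) [NeZero m] (s : LaurentSeries k) :
    (tw u m s).order = m * s.order := by
  rw [tw, RingHom.comp_apply, order_qExpand, order_scaleHom]

theorem leadingCoeff_tw (u : kˣ) (m : ℕ) [NeZero m] (s : LaurentSeries k) :
    (tw u m s).leadingCoeff = ((u ^ s.order : kˣ) : k) * s.leadingCoeff := by
  rw [HahnSeries.leadingCoeff_eq, HahnSeries.leadingCoeff_eq, order_tw, tw, RingHom.comp_apply,
    qExpand_coeff_mul, scaleHom_coeff]

theorem tw_constantCoeff_map (p : PowerSeries ℤ) (hp : PowerSeries.constantCoeff p = 1) :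
    (PowerSeries.coeff 0) (p.map (Int.castRingHom k)) = 1 := by
  rw [PowerSeries.coeff_map, PowerSeries.coeff_zero_eq_constantCoeff, hp]
  simp

theorem tw_order_single_mul (a : ℤ) (p : PowerSeries ℤ) (hp : PowerSeries.constantCoeff p = 1) :
    (HahnSeries.single a (1 : k) *
      HahnSeries.ofPowerSeries ℤ k (p.map (Int.castRingHom k))).order = a := by
  refine tw_order_eq ?_ fun i hi => ?_
  · rw [HahnSeries.coeff_single_mul, one_mul, sub_self, show (0 : ℤ) = ((0 : ℕ) : ℤ) from rfl,
      HahnSeries.ofPowerSeries_apply_coeff, tw_constantCoeff_map p hp]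
    exact one_ne_zero
  · rw [HahnSeries.coeff_single_mul, one_mul]
    exact ofPowerSeries_coeff_of_neg _ (by omega)

theorem order_dq : (dq k).order = 1 :=
  tw_order_single_mul 1 _ constantCoeff_dedekindEtaUnit

theorem order_dqInv : (dqInv k).order = -1 :=
  tw_order_single_mul (-1) _ constantCoeff_dedekindEtaUnitInv

theorem order_jqModC : (jqModC k).order = -1 :=
  tw_order_single_mul (-1) _ constantCoeff_jNum

theorem leadingCoeff_jqModC : (jqModC k).leadingCoeff = 1 := by
  rw [HahnSeries.leadingCoeff_eq, order_jqModC, coeff_jqModC_neg_one]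

theorem order_JJ (N : ℕ) [NeZero N] : (JJ k N).order = -(N : ℤ) := by
  rw [JJ, order_qExpand, order_jqModC]
  ring

end Tw

end Fermat.Agent.S28
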