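import Mathlib
import Fermat.Agent.S28.Defs
import Fermat.Agent.S24.Mat
import Fermat.Agent.S24.RelInf

/-!
# S28 (W5): the modular unit
-/

set_option autoImplicit false

namespace Fermat.Agent.S28

open UpperHalfPlane ModularForm ModularCurve HahnSeries CongruenceSubgroup
open Fermat.Agent.X0 Fermat.Agent.S24
open scoped MatrixGroups Manifold Real

lemma unit_disc_smul (γ : SL(2, ℤ)) (z : ℍ) :
    discriminant (γ • z) = ((γ 1 0 : ℂ) * z + (γ 1 1 : ℂ)) ^ 12 * discriminant z := by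
  have h2 : discriminant (γ • z) = (denom γ z) ^ (12 : ℤ) * discriminant z :=
    jf_smul_eq CuspForm.discriminant γ z
  rw [h2, ModularGroup.denom_apply, zpow_ofNat]

/-- the transformation of `Δ (d z)` -/
lemma unit_disc_aff (d A D : ℕ) (B : ℤ) [NeZero d] [NeZero A] [NeZero D] (g γ : SL(2, ℤ))
    (h1 : γ 0 0 * A = d * g 0 0) (h2 : γ 1 0 * A = g 1 0)
    (h3 : γ 0 0 * B + γ 0 1 * D = d * g 0 1) (h4 : γ 1 0 * B + γ 1 1 * D = g 1 1) (z : ℍ) :
    discriminant (affH d 0 1 (g • z)) =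
      (((g 1 0 : ℂ) * z + g 1 1) / D) ^ 12 * discriminant (affH A B D z) := by
  rw [affH_smul_eq d A D B g γ h1 h2 h3 h4 z, unit_disc_smul, coe_affH]
  have hD : (D : ℂ) ≠ 0 := Nat.cast_ne_zero.mpr (NeZero.ne D)
  have h2' : (γ 1 0 : ℂ) * A = g 1 0 := by exact_mod_cast congrArg (Int.cast : ℤ → ℂ) h2
  have h4' : (γ 1 0 : ℂ) * B + γ 1 1 * D = g 1 1 := by
    exact_mod_cast congrArg (Int.cast : ℤ → ℂ) h4
  have e1 : (γ 1 0 : ℂ) * (((A : ℂ) * z + B) / D) + γ 1 1 = ((g 1 0 : ℂ) * z + g 1 1) / D := by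
    field_simp
    linear_combination (z : ℂ) * h2' + h4'
  rw [e1]

theorem unit_decomp (d : ℕ) [NeZero d] (g : SL(2, ℤ)) :
    ∃ (A D : ℕ) (B : ℤ) (_ : NeZero A) (_ : NeZero D), A * D = d ∧
      A = Nat.gcd d (g 1 0).natAbs ∧ (∀ z : ℍ, jdFun d (g • z) = jFun (affH A B D z)) ∧
      (∀ z : ℍ, vP d (g • z) =
        (A : ℂ) ^ 12 * discriminant (affH A B D z) / discriminant z) ∧
      (∀ z : ℍ, vM d (g • z) =
        (D : ℂ) ^ 12 * discriminant z / discriminant (affH A B D z)) := by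
  have hd0 : 0 < d := Nat.pos_of_ne_zero (NeZero.ne d)
  set A : ℕ := Nat.gcd d (g 1 0).natAbs with hA
  have hApos : 0 < A := Nat.gcd_pos_of_pos_left _ hd0
  obtain ⟨D, hD⟩ : A ∣ d := Nat.gcd_dvd_left _ _
  have hDpos : 0 < D := by
    rcases Nat.eq_zero_or_pos D with h | h
    · rw [h, mul_zero] at hD; omega
    · exact h
  obtain ⟨c', hc'⟩ : (A : ℤ) ∣ g 1 0 := by
    exact Int.natCast_dvd.mpr (Nat.gcd_dvd_right _ _)
  have hdet := mat_det g
  -- `D` and `c'` are coprime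
  have hcop1 : IsCoprime (D : ℤ) c' := by
    have h1 : Int.gcd (d : ℤ) (g 1 0) = A := by
      rw [hA, Int.gcd_def]; simp
    obtain ⟨u, v, huv⟩ : ∃ u v : ℤ, (A : ℤ) = d * u + g 1 0 * v := by
      refine ⟨Int.gcdA d (g 1 0), Int.gcdB d (g 1 0), ?_⟩
      rw [← h1]
      exact Int.gcd_eq_gcd_ab _ _
    refine ⟨u, v, ?_⟩
    have hA0 : (A : ℤ) ≠ 0 := by exact_mod_cast hApos.ne'
    apply mul_left_cancel₀ hA0
    have hD' : (d : ℤ) = A * D := by exact_mod_cast hD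
    rw [hD', hc'] at huv
    linear_combination -huv
  have hcop2 : IsCoprime (g 0 0) c' := by
    refine ⟨g 1 1, -(g 0 1) * A, ?_⟩
    rw [hc'] at hdet
    linear_combination hdet
  obtain ⟨y, x', hxy⟩ : IsCoprime ((D : ℤ) * g 0 0) c' := hcop1.mul_left hcop2
  let γ : SL(2, ℤ) := ⟨!![(D : ℤ) * g 0 0, -x'; c', y], by
    rw [Matrix.det_fin_two_of]; linear_combination hxy⟩
  have g00 : γ 0 0 = (D : ℤ) * g 0 0 := rfl
  have g01 : γ 0 1 = -x' := rfl
  have g10 : γ 1 0 = c' := rfl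
  have g11 : γ 1 1 = y := rfl
  have hD' : (d : ℤ) = A * D := by exact_mod_cast hD
  have iA : NeZero A := ⟨hApos.ne'⟩
  have iD : NeZero D := ⟨hDpos.ne'⟩
  have k1 : γ 0 0 * A = d * g 0 0 := by rw [g00, hD']; ring
  have k2 : γ 1 0 * A = g 1 0 := by rw [g10, hc']; ring
  have k3 : γ 0 0 * (y * d * g 0 1 + x' * g 1 1) + γ 0 1 * D = d * g 0 1 := by
    rw [g00, g01, hD']
    rw [hc'] at hdet
    linear_combination (A : ℤ) * D * g 0 1 * hxy + x' * D * hdet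
  have k4 : γ 1 0 * (y * d * g 0 1 + x' * g 1 1) + γ 1 1 * D = g 1 1 := by
    rw [g10, g11, hD']
    rw [hc'] at hdet
    linear_combination g 1 1 * hxy - y * D * hdet
  have hDC : (D : ℂ) ≠ 0 := Nat.cast_ne_zero.mpr hDpos.ne'
  have hdC : (d : ℂ) = A * D := by exact_mod_cast hD
  refine ⟨A, D, y * d * g 0 1 + x' * g 1 1, iA, iD, hD.symm, rfl, ?_, ?_, ?_⟩
  · intro z
    rw [jdFun, affH_smul_eq d A D (y * d * g 0 1 + x' * g 1 1) g γ k1 k2 k3 k4 z, jFun_smul]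
  · intro z
    have hg := mat_denom_ne g z
    have hΔ := discriminant_ne_zero z
    rw [vP, unit_disc_aff d A D (y * d * g 0 1 + x' * g 1 1) g γ k1 k2 k3 k4 z,
      unit_disc_smul, hdC]
    field_simp
  · intro z
    have hg := mat_denom_ne g z
    have hΔ := discriminant_ne_zero (affH A (y * d * g 0 1 + x' * g 1 1) D z)
    rw [vM, unit_disc_aff d A D (y * d * g 0 1 + x' * g 1 1) g γ k1 k2 k3 k4 z,
      unit_disc_smul]
    field_simp

lemma unit_disc_Gamma0 (N d : ℕ) [NeZero d] (hd : d ∣ N) (γ : SL(2, ℤ))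
    (hγ : γ ∈ Gamma0 N) (z : ℍ) :
    discriminant (affH d 0 1 (γ • z)) =
      ((γ 1 0 : ℂ) * z + γ 1 1) ^ 12 * discriminant (affH d 0 1 z) := by
  rw [Gamma0_mem, ZMod.intCast_zmod_eq_zero_iff_dvd] at hγ
  obtain ⟨c', hc'⟩ : (d : ℤ) ∣ γ 1 0 := (Int.natCast_dvd_natCast.mpr hd).trans hγ
  have hdet := mat_det γ
  let γ' : SL(2, ℤ) := ⟨!![γ 0 0, (d : ℤ) * γ 0 1; c', γ 1 1], by
    rw [Matrix.det_fin_two_of]; rw [hc'] at hdet; linear_combination hdet⟩
  have g00 : γ' 0 0 = γ 0 0 := rfl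
  have g01 : γ' 0 1 = (d : ℤ) * γ 0 1 := rfl
  have g10 : γ' 1 0 = c' := rfl
  have g11 : γ' 1 1 = γ 1 1 := rfl
  rw [unit_disc_aff d d 1 0 γ γ' ?_ ?_ ?_ ?_ z]
  · simp
  · rw [g00]; ring
  · rw [g10, hc']; ring
  · rw [g00, g01]; simp
  · rw [g10, g11]; simp

lemma unit_vP_smul (N d : ℕ) [NeZero d] (hd : d ∣ N) (γ : SL(2, ℤ))
    (hγ : γ ∈ Gamma0 N) (z : ℍ) : vP d (γ • z) = vP d z := by
  have hg := mat_denom_ne γ z
  have hΔ := discriminant_ne_zero z
  rw [vP, vP, unit_disc_Gamma0 N d hd γ hγ z, unit_disc_smul]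
  field_simp

lemma unit_vM_smul (N d : ℕ) [NeZero d] (hd : d ∣ N) (γ : SL(2, ℤ))
    (hγ : γ ∈ Gamma0 N) (z : ℍ) : vM d (γ • z) = vM d z := by
  have hg := mat_denom_ne γ z
  have hΔ := discriminant_ne_zero (affH d 0 1 z)
  rw [vM, vM, unit_disc_Gamma0 N d hd γ hγ z, unit_disc_smul]
  field_simp

theorem gFun_smul (N : ℕ) [NeZero N] (γ : SL(2, ℤ)) (hγ : γ ∈ Gamma0 N) (z : ℍ) :
    gFun N (γ • z) = gFun N z := by
  rw [gFun, gFun]
  refine Finset.prod_congr rfl fun d _ => ?_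
  rw [unit_vP_smul N d.1 d.2 γ hγ z, unit_vM_smul N d.1 d.2 γ hγ z]

lemma unit_vP_mdiff (d : ℕ) [NeZero d] : MDiff (vP d) := by
  have h1 : MDiff (fun z => discriminant (affH d 0 1 z)) := mdiff_affH d 0 1 jf_disc_mdiff
  have h2 : MDiff (fun _ : ℍ => (d : ℂ) ^ 12) := mdifferentiable_const
  exact (h2.mul h1).div jf_disc_mdiff discriminant_ne_zero

lemma unit_vM_mdiff (d : ℕ) [NeZero d] : MDiff (vM d) := by
  have h1 : MDiff (fun z => discriminant (affH d 0 1 z)) := mdiff_affH d 0 1 jf_disc_mdiff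
  exact jf_disc_mdiff.div h1 fun z => discriminant_ne_zero _

lemma unit_prod_mdiff {ι : Type*} (s : Finset ι) (f : ι → ℍ → ℂ) (hf : ∀ i ∈ s, MDiff (f i)) :
    MDiff (fun z => ∏ i ∈ s, f i z) := by
  classical
  induction s using Finset.induction_on with
  | empty => simpa using (mdifferentiable_const : MDiff (fun _ : ℍ => (1 : ℂ)))
  | insert a s ha ih =>
    have h1 := (hf a (Finset.mem_insert_self a s)).mul
      (ih fun i hi => hf i (Finset.mem_insert_of_mem hi))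
    have e : (fun z => ∏ i ∈ insert a s, f i z) = f a * fun z => ∏ i ∈ s, f i z := by
      ext z
      rw [Finset.prod_insert ha]
      rfl
    rw [e]
    exact h1

theorem gFun_mdiff (N : ℕ) [NeZero N] : MDiff (gFun N) := by
  have e : gFun N = fun z => ∏ d : Dv N,
      (if ArithmeticFunction.moebius (N / d.1) = -1 then vP d.1 z ^ d.1
        else if ArithmeticFunction.moebius (N / d.1) = 1 then vM d.1 z ^ d.1 else 1) := by
    ext z
    rfl
  rw [e]
  refine unit_prod_mdiff _ _ fun d _ => ?_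
  split_ifs with h1 h2
  · exact (unit_vP_mdiff d.1).pow d.1
  · exact (unit_vM_mdiff d.1).pow d.1
  · exact mdifferentiable_const

end Fermat.Agent.S28
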