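import Mathlib
import Fermat.Agent.S28.Defs
import Fermat.Agent.S28.AnExp
import Fermat.Agent.S28.Tw
import Fermat.Agent.S28.Moebius
import Fermat.Agent.S28.Unit
import Fermat.Agent.S24.RelInf
import Fermat.Agent.S24.JExp
import Fermat.Agent.S24.Ev

/-!
# S28 (W8a): the explicit expansions
-/

set_option autoImplicit false

namespace Fermat.Agent.S28

open UpperHalfPlane ModularForm ModularCurve HahnSeries CongruenceSubgroup
open Fermat.Agent.X0 Fermat.Agent.S24
open scoped MatrixGroups Manifold Real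

theorem exp_relInf_nice {h : ℝ} (hh : 0 < h) {f : ℍ → ℂ} (hf : IsNiceH h f) :
    RelInf h f (qL h f) := by
  refine ⟨f, fun _ => 1, hf, isNiceH_const 1, fun _ => one_ne_zero, fun z => mul_one _, ?_⟩
  change qL h f * qL h (fun _ => 1) = qL h f
  rw [qL_const hh, map_one, mul_one]

theorem exp_qL_disc : qL 1 discriminant = dq ℂ := by
  rw [qL, jexp_disc, map_mul, dq]
  congr 1
  rw [HahnSeries.ofPowerSeries_X]

theorem exp_relInf_disc : RelInf 1 discriminant (dq ℂ) := by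
  have := exp_relInf_nice one_pos isNiceH_disc
  rwa [exp_qL_disc] at this

theorem exp_relInf_disc_inv : RelInf 1 (fun z => (discriminant z)⁻¹) (dqInv ℂ) := by
  refine ⟨fun _ => 1, discriminant, isNiceH_const 1, isNiceH_disc,
    fun z => discriminant_ne_zero z, fun z => inv_mul_cancel₀ (discriminant_ne_zero z), ?_⟩
  change dqInv ℂ * qL 1 discriminant = qL 1 (fun _ => 1)
  rw [exp_qL_disc, qL_const one_pos, map_one, mul_comm, dq_mul_dqInv]

theorem exp_relInf_jFun : RelInf 1 jFun (jqModC ℂ) := by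
  have h := relInf_jdFun 1
  rw [jdFun_one, qExpand_one_apply, coeffEmb, ← jqModC_rat, coeffMap_jqModC, coeffMap_jqModC] at h
  exact h

theorem exp_iotaZ_tw (D : ℕ) (B : ℤ) (m : ℕ) [NeZero m] (s : LaurentSeries Zb) :
    iotaZ (tw (zetaZ D B) m s) = tw (zetaC D B) m (iotaZ s) := by
  rw [iotaZ, coeffMap_tw]
  rfl

theorem exp_iotaZ_C (a : Zb) : iotaZ (HahnSeries.C a) = HahnSeries.C (a : ℂ) := by
  rw [iotaZ]
  exact coeffMap_single _ _ _

theorem relInf_j_aff (A : ℕ) (B : ℤ) (D N m : ℕ) [NeZero A] [NeZero D] [NeZero N] [NeZero m]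
    (hD : D ∣ N) (hm : m = A * (N / D)) :
    RelInf (N : ℝ) (fun z => jFun (affH A B D z)) (iotaZ (tw (zetaZ D B) m (jqModC Zb))) := by
  rw [exp_iotaZ_tw, iotaZ, coeffMap_jqModC]
  exact relInf_comp_affH exp_relInf_jFun A B D N m hD hm

theorem relInf_vP_aff (A : ℕ) (B : ℤ) (D N m : ℕ) [NeZero A] [NeZero D] [NeZero N] [NeZero m]
    (hD : D ∣ N) (hm : m = A * (N / D)) :
    RelInf (N : ℝ) (fun z => (A : ℂ) ^ 12 * discriminant (affH A B D z) / discriminant z)
      (iotaZ (HahnSeries.C ((A : Zb) ^ 12) * tw (zetaZ D B) m (dq Zb) *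
        qExpand Zb N (dqInv Zb))) := by
  have hN : (0 : ℝ) < N := by exact_mod_cast Nat.pos_of_ne_zero (NeZero.ne N)
  have E := expRel_relInf (N : ℝ) hN
  rw [map_mul, map_mul, exp_iotaZ_tw, exp_iotaZ_C]
  have e1 : iotaZ (dq Zb) = dq ℂ := coeffMap_dq _
  have e2 : iotaZ (qExpand Zb N (dqInv Zb)) = qExpand ℂ N (dqInv ℂ) := by
    rw [iotaZ, coeffMap_qExpand, coeffMap_dqInv]
  rw [e1, e2]
  have h1 := E.mul (E.mul (E.const (((A : Zb) ^ 12 : Zb) : ℂ))
    (relInf_comp_affH exp_relInf_disc A B D N m hD hm)) (relInf_period N exp_relInf_disc_inv)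
  convert h1 using 1
  ext z
  simp [div_eq_mul_inv]

theorem relInf_vM_aff (A : ℕ) (B : ℤ) (D N m : ℕ) [NeZero A] [NeZero D] [NeZero N] [NeZero m]
    (hD : D ∣ N) (hm : m = A * (N / D)) :
    RelInf (N : ℝ) (fun z => (D : ℂ) ^ 12 * discriminant z / discriminant (affH A B D z))
      (iotaZ (HahnSeries.C ((D : Zb) ^ 12) * qExpand Zb N (dq Zb) *
        tw (zetaZ D B) m (dqInv Zb))) := by
  have hN : (0 : ℝ) < N := by exact_mod_cast Nat.pos_of_ne_zero (NeZero.ne N)
  have E := expRel_relInf (N : ℝ) hN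
  rw [map_mul, map_mul, exp_iotaZ_tw, exp_iotaZ_C]
  have e1 : iotaZ (dqInv Zb) = dqInv ℂ := coeffMap_dqInv _
  have e2 : iotaZ (qExpand Zb N (dq Zb)) = qExpand ℂ N (dq ℂ) := by
    rw [iotaZ, coeffMap_qExpand, coeffMap_dq]
  rw [e1, e2]
  have h1 := E.mul (E.mul (E.const (((D : Zb) ^ 12 : Zb) : ℂ))
    (relInf_period N exp_relInf_disc)) (relInf_comp_affH exp_relInf_disc_inv A B D N m hD hm)
  convert h1 using 1
  ext z
  simp [div_eq_mul_inv]

end Fermat.Agent.S28
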