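import Mathlib
import Fermat.Agent.S28.Defs
import Fermat.Agent.S28.AnExp
import Fermat.Agent.S28.Tw
import Fermat.Agent.S28.Moebius
import Fermat.Agent.S28.Unit
import Fermat.Agent.S28.Exp
import Fermat.Agent.S24.RelInf

/-!
# S28 (W8b): expansions of the conjugates of `j(Nz)` and of the modular unit
-/

set_option autoImplicit false

namespace Fermat.Agent.S28

open UpperHalfPlane ModularForm ModularCurve HahnSeries CongruenceSubgroup
open Fermat.Agent.X0 Fermat.Agent.S24
open scoped MatrixGroups Manifold Real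

theorem hd_iotaZ_injective : Function.Injective iotaZ := by
  intro a b h
  ext n
  have := congrArg (fun s : LaurentSeries ℂ => s.coeff n) h
  simpa [iotaZ] using this

theorem hd_expRel_pow {R : (ℍ → ℂ) → LaurentSeries ℂ → Prop} (hR : ExpRel R) {φ : ℍ → ℂ}
    {s : LaurentSeries ℂ} (h : R φ s) (n : ℕ) : R (φ ^ n) (s ^ n) := by
  induction n with
  | zero =>
    have := hR.const 1
    rw [map_one] at this
    rw [pow_zero, pow_zero]
    exact this
  | succ n ih => rw [pow_succ, pow_succ]; exact hR.mul ih h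

theorem hd_expRel_prod {R : (ℍ → ℂ) → LaurentSeries ℂ → Prop} (hR : ExpRel R) {ι : Type*}
    (t : Finset ι) (φ : ι → ℍ → ℂ) (s : ι → LaurentSeries ℂ) (h : ∀ i ∈ t, R (φ i) (s i)) :
    R (∏ i ∈ t, φ i) (∏ i ∈ t, s i) := by
  classical
  induction t using Finset.induction_on with
  | empty =>
    have := hR.const 1
    rw [map_one] at this
    rw [Finset.prod_empty, Finset.prod_empty]
    exact this
  | insert a t ha ih =>
    rw [Finset.prod_insert ha, Finset.prod_insert ha]
    exact hR.mul (h a (Finset.mem_insert_self a t))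
      (ih fun i hi => h i (Finset.mem_insert_of_mem hi))

theorem hd_order_prod {k : Type*} [Field k] {ι : Type*} (t : Finset ι) (s : ι → LaurentSeries k)
    (h : ∀ i ∈ t, s i ≠ 0) : (∏ i ∈ t, s i) ≠ 0 ∧ (∏ i ∈ t, s i).order = ∑ i ∈ t, (s i).order := by
  classical
  induction t using Finset.induction_on with
  | empty => simp
  | insert a t ha ih =>
    obtain ⟨h1, h2⟩ := ih fun i hi => h i (Finset.mem_insert_of_mem hi)
    have h0 := h a (Finset.mem_insert_self a t)
    rw [Finset.prod_insert ha, Finset.sum_insert ha]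
    exact ⟨mul_ne_zero h0 h1, by rw [HahnSeries.order_mul h0 h1, h2]⟩

theorem hd_order_pow {k : Type*} [Field k] (s : LaurentSeries k) (n : ℕ) :
    (s ^ n).order = n * s.order := by
  rw [HahnSeries.order_pow]
  simp

/-! ### the conjugates of `j(Nz)` -/

theorem hd_x_explicit (N : ℕ) [NeZero N] (g : SL(2, ℤ)) :
    ∃ (A D : ℕ) (B : ℤ) (_ : NeZero A) (_ : NeZero D) (_ : NeZero (A * A)), A * D = N ∧
      (∀ z : ℍ, jdFun N (g • z) = jFun (affH A B D z)) ∧
      RelInf (N : ℝ) (fun z => jdFun N (g • z)) (iotaZ (tw (zetaZ D B) (A * A) (jqModC Zb))) := by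
  obtain ⟨A, D, B, hA, hD, hAD, -, hj, -, -⟩ := unit_decomp N g
  have hAA : NeZero (A * A) := ⟨mul_ne_zero hA.out hA.out⟩
  refine ⟨A, D, B, hA, hD, hAA, hAD, hj, ?_⟩
  have hm : A * A = A * (N / D) := by
    rw [← hAD, Nat.mul_div_cancel _ (Nat.pos_of_ne_zero hD.out)]
  have := relInf_j_aff A B D N (A * A) (Dvd.intro_left A hAD) hm
  convert this using 2
  exact hj _

theorem exists_x (N : ℕ) [NeZero N] (g : SL(2, ℤ)) :
    ∃ x : LaurentSeries Zb, RelInf (N : ℝ) (fun z => jdFun N (g • z)) (iotaZ x) := by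
  obtain ⟨A, D, B, _, _, _, -, -, h⟩ := hd_x_explicit N g
  exact ⟨_, h⟩

theorem hd_zetaV_add (D : ℕ) (B B' : ℤ) : zetaV D (B + B') = zetaV D B * zetaV D B' := by
  rw [zetaV, zetaV, zetaV, ← Complex.exp_add]
  congr 1
  push_cast
  ring

theorem hd_zetaV_pow (D : ℕ) [NeZero D] (B : ℤ) : zetaV D B ^ D = 1 := by
  rw [zetaV, ← Complex.exp_nat_mul]
  have hD' : (D : ℂ) ≠ 0 := by exact_mod_cast NeZero.ne D
  rw [show (D : ℂ) * (2 * π * Complex.I * B / D) = B * (2 * π * Complex.I) by field_simp]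
  exact Complex.exp_int_mul_two_pi_mul_I B

/-- a `D`-th root of unity which is `1` modulo a prime not dividing `D` is `1` -/
theorem hd_root_eq_one {k : Type*} [Field k] (f : Zb →+* k) (D : ℕ) (hD : (D : k) ≠ 0) (ζ : Zb)
    (h1 : ζ ^ D = 1) (h2 : f ζ = 1) : ζ = 1 := by
  by_contra hne
  have hgeom : (∑ i ∈ Finset.range D, ζ ^ i) * (ζ - 1) = ζ ^ D - 1 := geom_sum_mul ζ D
  rw [h1, sub_self] at hgeom
  have h0 : ∑ i ∈ Finset.range D, ζ ^ i = 0 :=
    (mul_eq_zero.1 hgeom).resolve_right (sub_ne_zero.2 hne)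
  have := congrArg f h0
  rw [map_sum, map_zero] at this
  simp only [map_pow, h2, one_pow, Finset.sum_const, Finset.card_range, nsmul_eq_mul,
    mul_one] at this
  exact hD this

theorem hd_jFun_affH_congr (A D : ℕ) (B B' : ℤ) [NeZero A] [NeZero D]
    (h : zetaV D (B - B') = 1) (z : ℍ) : jFun (affH A B D z) = jFun (affH A B' D z) := by
  rw [zetaV, Complex.exp_eq_one_iff] at h
  obtain ⟨n, hn⟩ := h
  have hD' : (D : ℂ) ≠ 0 := by exact_mod_cast NeZero.ne D
  have hpi : (2 * π * Complex.I : ℂ) ≠ 0 := Complex.two_pi_I_ne_zero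
  have hB : ((B - B' : ℤ) : ℂ) = n * D := by
    field_simp at hn
    rw [hn]; ring
  have e : affH A B D z = (ModularGroup.T ^ n) • affH A B' D z := by
    apply UpperHalfPlane.ext
    rw [ModularGroup.coe_T_zpow_smul_eq, coe_affH, coe_affH]
    push_cast at hB
    field_simp
    linear_combination hB
  rw [e, jFun_smul]

theorem x_inj (N : ℕ) [NeZero N] (g g' : SL(2, ℤ)) (x x' : LaurentSeries Zb)
    (hx : RelInf (N : ℝ) (fun z => jdFun N (g • z)) (iotaZ x))
    (hx' : RelInf (N : ℝ) (fun z => jdFun N (g' • z)) (iotaZ x'))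
    (k : Type) [Field k] (f : Zb →+* k) (hN : (N : k) ≠ 0) (h : coeffMap f x = coeffMap f x') :
    ∀ z, jdFun N (g • z) = jdFun N (g' • z) := by
  have hN0 : (0 : ℝ) < N := by exact_mod_cast Nat.pos_of_ne_zero (NeZero.ne N)
  have E := expRel_relInf (N : ℝ) hN0
  obtain ⟨A, D, B, _, _, _, hAD, hj, he⟩ := hd_x_explicit N g
  obtain ⟨A', D', B', _, _, _, hAD', hj', he'⟩ := hd_x_explicit N g'
  have e1 : x = tw (zetaZ D B) (A * A) (jqModC Zb) := hd_iotaZ_injective (E.unique_right hx he)
  have e2 : x' = tw (zetaZ D' B') (A' * A') (jqModC Zb) :=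
    hd_iotaZ_injective (E.unique_right hx' he')
  rw [e1, e2, coeffMap_tw, coeffMap_tw, coeffMap_jqModC] at h
  have ho := congrArg HahnSeries.order h
  rw [order_tw, order_tw, order_jqModC] at ho
  have hAA : A = A' := by
    have : A * A = A' * A' := by
      have : ((A * A : ℕ) : ℤ) = ((A' * A' : ℕ) : ℤ) := by linarith
      exact_mod_cast this
    exact Nat.mul_self_inj.1 this
  subst hAA
  have hDD : D = D' := by
    have : A * D = A * D' := by rw [hAD, hAD']
    exact Nat.eq_of_mul_eq_mul_left (Nat.pos_of_ne_zero (NeZero.ne A)) this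
  subst hDD
  have hl := congrArg HahnSeries.leadingCoeff h
  rw [leadingCoeff_tw, leadingCoeff_tw, order_jqModC, leadingCoeff_jqModC, mul_one, mul_one] at hl
  have hu : Units.map f.toMonoidHom (zetaZ D B) = Units.map f.toMonoidHom (zetaZ D B') := by
    have := Units.ext hl
    simpa using this
  have hu' : f (zetaZ D B : Zb) = f (zetaZ D B' : Zb) := congrArg Units.val hu
  have hDk : (D : k) ≠ 0 := by
    intro h0
    apply hN
    rw [← hAD]
    push_cast
    rw [h0, mul_zero]
  have hmul : ((zetaZ D (B - B') : Zbˣ) : Zb) * (zetaZ D B' : Zb) = (zetaZ D B : Zb) := by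
    apply Subtype.ext
    change zetaV D (B - B') * zetaV D B' = zetaV D B
    rw [← hd_zetaV_add, sub_add_cancel]
  have h1 : f (zetaZ D (B - B') : Zb) = 1 := by
    have h3 := congrArg f hmul
    rw [map_mul, hu'] at h3
    have hne : f (zetaZ D B' : Zb) ≠ 0 := ((zetaZ D B').isUnit.map f).ne_zero
    exact mul_right_cancel₀ hne (by rw [h3, one_mul])
  have h2 : ((zetaZ D (B - B') : Zbˣ) : Zb) = 1 := by
    refine hd_root_eq_one f D hDk _ ?_ h1
    apply Subtype.ext
    change zetaV D (B - B') ^ D = 1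
    exact hd_zetaV_pow D _
  have h3 : zetaV D (B - B') = 1 := congrArg Subtype.val h2
  intro z
  rw [hj, hj', hd_jFun_affH_congr A D B B' h3]

/-! ### the conjugates of the modular unit -/

theorem hd_ne_zero_of_order {k : Type*} [Field k] {s : LaurentSeries k} (h : s.order ≠ 0) :
    s ≠ 0 := by
  rintro rfl
  exact h HahnSeries.order_zero

theorem hd_coeffMap_C {R S : Type*} [CommRing R] [CommRing S] (f : R →+* S) (a : R) :
    coeffMap f (HahnSeries.C a) = HahnSeries.C (f a) := coeffMap_single _ _ _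

/-- one factor of the modular unit -/
noncomputable def hdFac (N : ℕ) [NeZero N] (d : Dv N) (z : ℍ) : ℂ :=
  if ArithmeticFunction.moebius (N / d.1) = -1 then vP d.1 z ^ d.1
    else if ArithmeticFunction.moebius (N / d.1) = 1 then vM d.1 z ^ d.1 else 1

theorem hd_factor (N : ℕ) [NeZero N] (g : SL(2, ℤ)) (d : Dv N) :
    ∃ F : LaurentSeries Zb, RelInf (N : ℝ) (fun z => hdFac N d (g • z)) (iotaZ F) ∧
      ∀ (k : Type) [Field k] (f : Zb →+* k), (N : k) ≠ 0 →
        coeffMap f F ≠ 0 ∧ (coeffMap f F).order =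
          -(ArithmeticFunction.moebius (N / d.1) : ℤ) *
            (((Nat.gcd d.1 (g 1 0).natAbs : ℕ) : ℤ) ^ 2 - (d.1 : ℤ)) * N := by
  have hN0 : (0 : ℝ) < N := by exact_mod_cast Nat.pos_of_ne_zero (NeZero.ne N)
  have E := expRel_relInf (N : ℝ) hN0
  obtain ⟨A, D, B, hA, hD, hAD, hgcd, -, hP, hM⟩ := unit_decomp d.1 g
  have hDN : D ∣ N := (Dvd.intro_left A hAD).trans d.2
  have hAN : A ∣ N := (Dvd.intro D hAD).trans d.2
  obtain ⟨e, he⟩ := hDN
  have he0 : e ≠ 0 := by
    rintro rfl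
    exact NeZero.ne N (by rw [he, mul_zero])
  have hND : N / D = e := by rw [he, Nat.mul_div_cancel_left _ (Nat.pos_of_ne_zero hD.out)]
  have hm0 : NeZero (A * (N / D)) := ⟨by rw [hND]; exact mul_ne_zero hA.out he0⟩
  have hDN : D ∣ N := ⟨e, he⟩
  -- `d * m = A ^ 2 * N`
  have hdm : (d.1 : ℤ) * ((A * (N / D) : ℕ) : ℤ) = (A : ℤ) ^ 2 * N := by
    rw [hND, ← hAD, he]
    push_cast
    ring
  have hk : ∀ (k : Type) [Field k], (N : k) ≠ 0 → (A : k) ≠ 0 ∧ (D : k) ≠ 0 := by
    intro k _ hN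
    constructor
    · intro h0
      obtain ⟨c, hc⟩ := hAN
      apply hN
      rw [hc]; push_cast; rw [h0, zero_mul]
    · intro h0
      apply hN
      rw [he]; push_cast; rw [h0, zero_mul]
  rw [← hgcd]
  by_cases h1 : ArithmeticFunction.moebius (N / d.1) = -1
  · refine ⟨(HahnSeries.C ((A : Zb) ^ 12) * tw (zetaZ D B) (A * (N / D)) (dq Zb) *
      qExpand Zb N (dqInv Zb)) ^ d.1, ?_, ?_⟩
    · rw [map_pow]
      have := hd_expRel_pow E (relInf_vP_aff A B D N (A * (N / D)) hDN rfl) d.1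
      convert this using 1
      ext z
      simp only [hdFac, if_pos h1, hP, Pi.pow_apply]
    · intro k _ f hN
      obtain ⟨hAk, -⟩ := hk k hN
      rw [map_pow, map_mul, map_mul, hd_coeffMap_C, coeffMap_tw, coeffMap_dq, coeffMap_qExpand,
        coeffMap_dqInv]
      have c1 : (HahnSeries.C (f ((A : Zb) ^ 12)) : LaurentSeries k) ≠ 0 := by
        refine HahnSeries.C_ne_zero ?_
        simpa using hAk
      have o2 : (tw (Units.map f.toMonoidHom (zetaZ D B)) (A * (N / D)) (dq k)).order =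
          ((A * (N / D) : ℕ) : ℤ) := by rw [order_tw, order_dq, mul_one]
      have c2 : tw (Units.map f.toMonoidHom (zetaZ D B)) (A * (N / D)) (dq k) ≠ 0 :=
        hd_ne_zero_of_order (by rw [o2]; exact_mod_cast hm0.out)
      have o3 : (qExpand k N (dqInv k)).order = -(N : ℤ) := by
        rw [order_qExpand, order_dqInv, mul_neg, mul_one]
      have c3 : qExpand k N (dqInv k) ≠ 0 :=
        hd_ne_zero_of_order (by rw [o3, neg_ne_zero]; exact_mod_cast NeZero.ne N)
      refine ⟨pow_ne_zero _ (mul_ne_zero (mul_ne_zero c1 c2) c3), ?_⟩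
      rw [hd_order_pow, HahnSeries.order_mul (mul_ne_zero c1 c2) c3, HahnSeries.order_mul c1 c2,
        HahnSeries.order_C, o2, o3, h1]
      linear_combination hdm
  · by_cases h2 : ArithmeticFunction.moebius (N / d.1) = 1
    · refine ⟨(HahnSeries.C ((D : Zb) ^ 12) * qExpand Zb N (dq Zb) *
        tw (zetaZ D B) (A * (N / D)) (dqInv Zb)) ^ d.1, ?_, ?_⟩
      · rw [map_pow]
        have := hd_expRel_pow E (relInf_vM_aff A B D N (A * (N / D)) hDN rfl) d.1
        convert this using 1
        ext z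
        simp only [hdFac, if_neg h1, if_pos h2, hM, Pi.pow_apply]
      · intro k _ f hN
        obtain ⟨-, hDk⟩ := hk k hN
        rw [map_pow, map_mul, map_mul, hd_coeffMap_C, coeffMap_tw, coeffMap_dqInv,
          coeffMap_qExpand, coeffMap_dq]
        have c1 : (HahnSeries.C (f ((D : Zb) ^ 12)) : LaurentSeries k) ≠ 0 := by
          refine HahnSeries.C_ne_zero ?_
          simpa using hDk
        have o2 : (tw (Units.map f.toMonoidHom (zetaZ D B)) (A * (N / D)) (dqInv k)).order =
            -((A * (N / D) : ℕ) : ℤ) := by rw [order_tw, order_dqInv, mul_neg, mul_one]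
        have c2 : tw (Units.map f.toMonoidHom (zetaZ D B)) (A * (N / D)) (dqInv k) ≠ 0 :=
          hd_ne_zero_of_order (by rw [o2, neg_ne_zero]; exact_mod_cast hm0.out)
        have o3 : (qExpand k N (dq k)).order = (N : ℤ) := by
          rw [order_qExpand, order_dq, mul_one]
        have c3 : qExpand k N (dq k) ≠ 0 :=
          hd_ne_zero_of_order (by rw [o3]; exact_mod_cast NeZero.ne N)
        refine ⟨pow_ne_zero _ (mul_ne_zero (mul_ne_zero c1 c3) c2), ?_⟩
        rw [hd_order_pow, HahnSeries.order_mul (mul_ne_zero c1 c3) c2, HahnSeries.order_mul c1 c3,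
          HahnSeries.order_C, o2, o3, h2]
        linear_combination -hdm
    · have h3 : ArithmeticFunction.moebius (N / d.1) = 0 := by
        rcases ArithmeticFunction.moebius_eq_or (N / d.1) with h | h | h
        · exact h
        · exact absurd h h2
        · exact absurd h h1
      refine ⟨1, ?_, ?_⟩
      · rw [map_one]
        have := E.const 1
        rw [map_one] at this
        convert this using 1
        ext z
        simp only [hdFac, if_neg h1, if_neg h2]
      · intro k _ f hN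
        rw [map_one, h3]
        simp

theorem hd_sum_Dv (N : ℕ) [NeZero N] (F : ℕ → ℤ) :
    ∑ d : Dv N, F d.1 = ∑ d ∈ N.divisors, F d := by
  symm
  apply Finset.sum_subtype
  intro x
  rw [Nat.mem_divisors]
  exact ⟨fun h => h.1, fun h => ⟨h, NeZero.ne N⟩⟩

theorem exists_h (N : ℕ) [NeZero N] (g : SL(2, ℤ)) :
    ∃ h : LaurentSeries Zb, RelInf (N : ℝ) (fun z => gFun N (g • z)) (iotaZ h) ∧
      ∀ (k : Type) [Field k] (f : Zb →+* k), (N : k) ≠ 0 →
        coeffMap f h ≠ 0 ∧ (¬ (N : ℤ) ∣ g 1 0 → 0 < (coeffMap f h).order) := by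
  have hN0 : (0 : ℝ) < N := by exact_mod_cast Nat.pos_of_ne_zero (NeZero.ne N)
  have hNpos : 0 < N := Nat.pos_of_ne_zero (NeZero.ne N)
  have E := expRel_relInf (N : ℝ) hN0
  choose F hF1 hF2 using hd_factor N g
  refine ⟨∏ d, F d, ?_, ?_⟩
  · rw [map_prod]
    have := hd_expRel_prod E Finset.univ (fun d z => hdFac N d (g • z)) (fun d => iotaZ (F d))
      fun d _ => hF1 d
    convert this using 1
    ext z
    rw [Finset.prod_apply]
    rfl
  · intro k _ f hN
    rw [map_prod]
    obtain ⟨h1, h2⟩ := hd_order_prod Finset.univ (fun d => coeffMap f (F d))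
      fun d _ => (hF2 d k f hN).1
    refine ⟨h1, fun hg => ?_⟩
    rw [h2]
    have e : ∀ d : Dv N, (coeffMap f (F d)).order =
        (fun d : ℕ => -(ArithmeticFunction.moebius (N / d) : ℤ) *
            (((Nat.gcd d (g 1 0).natAbs : ℕ) : ℤ) ^ 2 - (d : ℤ)) * N) d.1 :=
      fun d => (hF2 d k f hN).2
    have e3 := hd_sum_Dv N (fun d : ℕ => -(ArithmeticFunction.moebius (N / d) : ℤ) *
            (((Nat.gcd d (g 1 0).natAbs : ℕ) : ℤ) ^ 2 - (d : ℤ)) * N)
    rw [Finset.sum_congr rfl fun d _ => e d]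
    refine lt_of_lt_of_eq ?_ e3.symm
    have hg' : ¬ N ∣ (g 1 0).natAbs := fun h => hg (Int.natCast_dvd.2 h)
    have m1 := moebius_gcd_sq N (g 1 0).natAbs hNpos hg'
    have m2 := moebius_id N hNpos
    have e2 : ∑ d ∈ N.divisors, -(ArithmeticFunction.moebius (N / d) : ℤ) *
        (((Nat.gcd d (g 1 0).natAbs : ℕ) : ℤ) ^ 2 - (d : ℤ)) * N = (Nat.totient N : ℤ) * N := by
      rw [← m2, Finset.sum_mul, ← sub_eq_zero, ← Finset.sum_sub_distrib]
      have : ∀ d ∈ N.divisors, -(ArithmeticFunction.moebius (N / d) : ℤ) *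
          (((Nat.gcd d (g 1 0).natAbs : ℕ) : ℤ) ^ 2 - (d : ℤ)) * N -
            (ArithmeticFunction.moebius (N / d) : ℤ) * (d : ℤ) * N =
          -(N : ℤ) * ((ArithmeticFunction.moebius (N / d) : ℤ) *
            ((Nat.gcd d (g 1 0).natAbs : ℕ) : ℤ) ^ 2) := fun d _ => by ring
      rw [Finset.sum_congr rfl this, ← Finset.mul_sum, m1, mul_zero]
    rw [e2]
    have := Nat.totient_pos.2 hNpos
    positivity

end Fermat.Agent.S28
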