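import Mathlib
import Fermat.Agent.S28.Defs
import Fermat.Agent.S28.Tw
import Fermat.Agent.S28.AnExp
import Fermat.Agent.S24.KL
import Fermat.Agent.S24.Sym0
import Fermat.Agent.S24.Degree

/-!
# S28 (W7): symmetric functions of the conjugates are polynomials in `j` with integral coefficients
-/

set_option autoImplicit false
set_option maxHeartbeats 1000000

namespace Fermat.Agent.S28

open UpperHalfPlane ModularForm ModularCurve HahnSeries CongruenceSubgroup
open Fermat.Agent.X0 Fermat.Agent.S23 Fermat.Agent.S24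
open scoped MatrixGroups Manifold Real

/-! ### the `q`-expansion principle for polynomials in `j` -/

section Principle

variable {R S : Type*} [CommRing R] [CommRing S]

lemma symInt_algebraMap (c : S) :
    algebraMap S (LaurentSeries S) c = HahnSeries.single 0 c := by
  have h1 : algebraMap S (PowerSeries S) c = PowerSeries.C c := by
    simp
  rw [HahnSeries.algebraMap_apply', h1, HahnSeries.ofPowerSeries_C]
  rfl

lemma symInt_coeffMap_comp (f : R →+* S) :
    (coeffMap f).comp (algebraMap R (LaurentSeries R)) =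
      (algebraMap S (LaurentSeries S)).comp f := by
  ext r : 1
  simp only [RingHom.comp_apply]
  rw [symInt_algebraMap, symInt_algebraMap]
  exact coeffMap_single f 0 r

lemma symInt_coeffMap_aeval (f : R →+* S) (N : ℕ) [NeZero N] (p : Polynomial R) :
    coeffMap f (Polynomial.aeval (JJ R N) p) = Polynomial.aeval (JJ S N) (p.map f) := by
  rw [Polynomial.aeval_def, Polynomial.aeval_def, Polynomial.hom_eval₂, Polynomial.eval₂_map,
    symInt_coeffMap_comp, coeffMap_JJ]

lemma symInt_coeff_C_mul (c : S) (x : LaurentSeries S) (n : ℤ) :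
    (algebraMap S (LaurentSeries S) c * x).coeff n = c * x.coeff n := by
  rw [symInt_algebraMap, HahnSeries.coeff_single_mul, sub_zero]

lemma symInt_coeff_JJ_pow (N : ℕ) [NeZero N] (i d : ℕ) (hi : i ≤ d) :
    (JJ S N ^ i).coeff ((N : ℤ) * (-(d : ℤ))) = if i = d then 1 else 0 := by
  rw [JJ, ← map_pow, qExpand_coeff_mul]
  split_ifs with h
  · subst h
    exact coeff_jqModC_pow_self S i
  · apply coeff_jqModC_pow_of_lt
    have : i < d := lt_of_le_of_ne hi h
    omega

lemma symInt_coeff_aeval (N : ℕ) [NeZero N] (d : ℕ) (P : Polynomial S) (hP : P.natDegree < d + 1) :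
    (Polynomial.aeval (JJ S N) P).coeff ((N : ℤ) * (-(d : ℤ))) = P.coeff d := by
  rw [Polynomial.aeval_def, Polynomial.eval₂_eq_sum_range' _ hP, HahnSeries.coeff_sum]
  rw [Finset.sum_eq_single d]
  · rw [symInt_coeff_C_mul, symInt_coeff_JJ_pow N d d le_rfl, if_pos rfl, mul_one]
  · intro i hi hid
    rw [symInt_coeff_C_mul, symInt_coeff_JJ_pow N i d (by
      have := Finset.mem_range.1 hi
      omega), if_neg hid, mul_zero]
  · intro h
    exact absurd (Finset.mem_range.2 (Nat.lt_succ_self d)) h

/-- the `q`-expansion principle -/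
theorem symInt_principle (f : R →+* S) (hf : Function.Injective f) (N : ℕ) [NeZero N] (d : ℕ) :
    ∀ (P : Polynomial S) (s : LaurentSeries R), P.natDegree < d →
      coeffMap f s = Polynomial.aeval (JJ S N) P → ∃ p : Polynomial R,
        s = Polynomial.aeval (JJ R N) p := by
  have hinj : Function.Injective (coeffMap f) := by
    intro x y hxy
    ext n
    apply hf
    rw [← coeffMap_coeff, ← coeffMap_coeff, hxy]
  induction d with
  | zero => intro P s hP; exact absurd hP (Nat.not_lt_zero _)
  | succ d ih =>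
    intro P s hP hs
    set r : R := s.coeff ((N : ℤ) * (-(d : ℤ))) with hr
    have hfr : f r = P.coeff d := by
      rw [hr, ← coeffMap_coeff, hs, symInt_coeff_aeval N d P hP]
    rcases Nat.eq_zero_or_pos d with hd0 | hdpos
    · -- constant polynomial
      subst hd0
      have hPc : P = Polynomial.C (P.coeff 0) :=
        Polynomial.eq_C_of_natDegree_eq_zero (by omega)
      refine ⟨Polynomial.C r, hinj ?_⟩
      rw [symInt_coeffMap_aeval, hs, Polynomial.map_C, hfr, ← hPc]
    · set P' : Polynomial S := P - Polynomial.C (P.coeff d) * Polynomial.X ^ d with hP'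
      have hdeg : P'.natDegree < d := by
        rw [Nat.lt_iff_le_pred hdpos, Polynomial.natDegree_le_iff_coeff_eq_zero]
        intro m hm
        rw [hP', Polynomial.coeff_sub, Polynomial.coeff_C_mul_X_pow]
        split_ifs with h
        · rw [h, sub_self]
        · rw [sub_zero]
          apply Polynomial.coeff_eq_zero_of_natDegree_lt
          omega
      obtain ⟨p', hp'⟩ := ih P' (s - Polynomial.aeval (JJ R N)
        (Polynomial.C r * Polynomial.X ^ d)) hdeg (by
          rw [map_sub, symInt_coeffMap_aeval, hs, hP', map_sub, Polynomial.map_mul,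
            Polynomial.map_C, Polynomial.map_pow, Polynomial.map_X, hfr])
      refine ⟨p' + Polynomial.C r * Polynomial.X ^ d, ?_⟩
      rw [map_add, ← hp']
      ring

end Principle

/-! ### the expansion of `j` -/

lemma symInt_relInf_jFun_one : RelInf 1 jFun (jqModC ℂ) := by
  have h := relInf_jdFun 1
  rw [jdFun_one, qExpand_one_apply] at h
  have e : coeffMap iotaC (coeffEmb Kb jq) = jqModC ℂ := by
    have h1 : jq = jqModC ℚ := rfl
    rw [h1]
    change coeffMap iotaC (coeffMap (algebraMap ℚ Kb) (jqModC ℚ)) = _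
    rw [coeffMap_jqModC, coeffMap_jqModC]
  rwa [e] at h

lemma symInt_relInf_jFun (N : ℕ) [NeZero N] : RelInf (N : ℝ) jFun (JJ ℂ N) :=
  relInf_period N symInt_relInf_jFun_one

theorem sym_int (N : ℕ) [NeZero N] (φ : ℍ → ℂ) (hφ : MDiff φ)
    (hinv : ∀ (γ : SL(2, ℤ)) (z : ℍ), φ (γ • z) = φ z)
    (s : LaurentSeries Zb) (hs : RelInf (N : ℝ) φ (iotaZ s)) :
    ∃ p : Polynomial Zb, s = Polynomial.aeval (JJ Zb N) p := by
  have hN : (0 : ℝ) < N := by exact_mod_cast Nat.pos_of_ne_zero (NeZero.ne N)
  have hR := expRel_relInf (N : ℝ) hN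
  obtain ⟨P, hP⟩ := kl_poly φ hφ hinv (isMod_of_relInf N hs)
  have h1 := deg_expRel_poly hR (symInt_relInf_jFun N) P
  have e : (fun z => P.eval (jFun z)) = φ := by
    funext z
    exact (hP z).symm
  rw [e] at h1
  have h2 : iotaZ s = Polynomial.aeval (JJ ℂ N) P := hR.unique_right hs h1
  exact symInt_principle (algebraMap Zb ℂ) Subtype.val_injective N (P.natDegree + 1) P s
    (Nat.lt_succ_self _) h2

/-! ### symmetric functions of the conjugates -/

lemma symInt_expRel_prod {R : (ℍ → ℂ) → LaurentSeries ℂ → Prop} (hR : ExpRel R) {ι : Type*}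
    (t : Finset ι) (φ : ι → ℍ → ℂ) (s : ι → LaurentSeries ℂ)
    (h : ∀ i ∈ t, R (φ i) (s i)) : R (∏ i ∈ t, φ i) (∏ i ∈ t, s i) := by
  classical
  induction t using Finset.induction_on with
  | empty =>
    have := hR.const 1
    rw [map_one] at this
    exact this
  | insert a t ha ih =>
    rw [Finset.prod_insert ha, Finset.prod_insert ha]
    exact hR.mul (h a (Finset.mem_insert_self _ _))
      (ih fun i hi => h i (Finset.mem_insert_of_mem hi))

lemma symInt_coeff {A : Type*} [CommRing A] {ι : Type*} [Fintype ι] (r : ι → A) {n : ℕ}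
    (hn : n ≤ Fintype.card ι) :
    (∏ i, (Polynomial.X - Polynomial.C (r i))).coeff n = (-1) ^ (Fintype.card ι - n) *
      ∑ S ∈ Finset.powersetCard (Fintype.card ι - n) Finset.univ, ∏ i ∈ S, r i := by
  have h := Multiset.prod_X_sub_C_coeff ((Finset.univ : Finset ι).val.map r) (k := n)
    (by simpa using hn)
  rw [Multiset.map_map] at h
  simp only [Multiset.card_map, Finset.card_val, Finset.card_univ, Finset.esymm_map_val] at h
  rw [← h]
  rfl

lemma symInt_sum_powersetCard_perm {ι M : Type*} [Fintype ι] [CommRing M] (e : Equiv.Perm ι)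
    (Φ : ι → M) (j : ℕ) :
    ∑ S ∈ Finset.powersetCard j (Finset.univ : Finset ι), ∏ q ∈ S, Φ (e q) =
      ∑ S ∈ Finset.powersetCard j (Finset.univ : Finset ι), ∏ q ∈ S, Φ q := by
  have h1 : Finset.powersetCard j (Finset.univ : Finset ι) =
      (Finset.powersetCard j Finset.univ).map
        (Finset.mapEmbedding e.toEmbedding).toEmbedding := by
    rw [← Finset.powersetCard_map, Finset.map_univ_equiv]
  conv_rhs => rw [h1, Finset.sum_map]
  refine Finset.sum_congr rfl fun S _ => ?_
  simp [Finset.mapEmbedding_apply, Finset.prod_map]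

section Conj

variable (N : ℕ) [NeZero N] (θ : ℍ → ℂ) (hθ : ∀ γ ∈ Gamma0 N, ∀ z, θ (γ • z) = θ z)
  (hθd : MDiff θ)

include hθd in
omit [NeZero N] in
lemma symInt_conjF_mdiff (c : Cos N) : MDiff (conjF N θ c) :=
  mdiff_comp_smul hθd _

include hθ in
omit [NeZero N] in
lemma symInt_conjF_perm (γ : SL(2, ℤ)) (c : Cos N) (z : ℍ) :
    conjF N θ c (γ • z) = conjF N θ ((MulAction.toPerm γ⁻¹ : Equiv.Perm (Cos N)) c) z := by
  have := conjF_smul N θ hθ γ⁻¹ c z
  rw [inv_inv] at this
  rw [this]
  rfl

end Conj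

theorem sym_S1 (N : ℕ) [NeZero N] (θ : ℍ → ℂ) (hθ : ∀ γ ∈ Gamma0 N, ∀ z, θ (γ • z) = θ z)
    (hθd : MDiff θ) (x : Cos N → LaurentSeries Zb)
    (hx : ∀ c, RelInf (N : ℝ) (conjF N θ c) (iotaZ (x c))) (i : ℕ) :
    ∃ p : Polynomial Zb, (∏ c, (Polynomial.X - Polynomial.C (x c))).coeff i =
      Polynomial.aeval (JJ Zb N) p := by
  have hN : (0 : ℝ) < N := by exact_mod_cast Nat.pos_of_ne_zero (NeZero.ne N)
  have hR := expRel_relInf (N : ℝ) hN
  by_cases hi : i ≤ Fintype.card (Cos N)
  · rw [symInt_coeff x hi]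
    set k := Fintype.card (Cos N) - i with hk
    apply sym_int N ((fun _ => (-1 : ℂ) ^ k) *
      ∑ S ∈ Finset.powersetCard k Finset.univ, ∏ c ∈ S, conjF N θ c)
    · exact mdifferentiable_const.mul (MDifferentiable.sum fun S _ =>
        MDifferentiable.prod fun c _ => symInt_conjF_mdiff N θ hθd c)
    · intro γ z
      simp only [Pi.mul_apply, Finset.sum_apply, Finset.prod_apply]
      congr 1
      simp only [symInt_conjF_perm N θ hθ γ]
      exact symInt_sum_powersetCard_perm (MulAction.toPerm γ⁻¹ : Equiv.Perm (Cos N))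
        (fun c => conjF N θ c z) k
    · rw [map_mul, map_pow, map_neg, map_one, map_sum]
      have h1 := hR.const ((-1 : ℂ) ^ k)
      rw [map_pow, map_neg, map_one] at h1
      refine hR.mul h1 (deg_expRel_sum hR _ _ _ fun S _ => ?_)
      rw [map_prod]
      exact symInt_expRel_prod hR _ _ _ fun c _ => hx c
  · refine ⟨0, ?_⟩
    rw [map_zero]
    apply Polynomial.coeff_eq_zero_of_natDegree_lt
    rw [Polynomial.natDegree_prod_of_monic _ _ fun c _ => Polynomial.monic_X_sub_C (x c)]
    simp only [Polynomial.natDegree_X_sub_C, Finset.sum_const, Finset.card_univ, smul_eq_mul,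
      mul_one]
    omega

theorem sym_trace (N : ℕ) [NeZero N] (θ : ℍ → ℂ) (hθ : ∀ γ ∈ Gamma0 N, ∀ z, θ (γ • z) = θ z)
    (hθd : MDiff θ) (s : Cos N → LaurentSeries Zb)
    (hs : ∀ c, RelInf (N : ℝ) (conjF N θ c) (iotaZ (s c))) :
    ∃ p : Polynomial Zb, ∑ c, s c = Polynomial.aeval (JJ Zb N) p := by
  have hN : (0 : ℝ) < N := by exact_mod_cast Nat.pos_of_ne_zero (NeZero.ne N)
  have hR := expRel_relInf (N : ℝ) hN
  apply sym_int N (∑ c, conjF N θ c)
  · exact MDifferentiable.sum fun c _ => symInt_conjF_mdiff N θ hθd c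
  · intro γ z
    simp only [Finset.sum_apply]
    simp only [symInt_conjF_perm N θ hθ γ]
    exact Equiv.sum_comp (MulAction.toPerm γ⁻¹ : Equiv.Perm (Cos N)) fun c => conjF N θ c z
  · rw [map_sum]
    exact deg_expRel_sum hR _ _ _ fun c _ => hs c

end Fermat.Agent.S28
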