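import Mathlib
import Fermat.Prelude.Def_FLTPrelim_ModularRep
import Fermat.Agent.S28.Defs
import Fermat.Agent.S28.SymInt
import Fermat.Agent.S28.HData
import Fermat.Agent.S24.Mat
import Fermat.Agent.S24.Ev

/-!
# S28 (W8): the data in characteristic `ℓ`
-/

set_option autoImplicit false

namespace Fermat.Agent.S28

open UpperHalfPlane ModularForm ModularCurve HahnSeries CongruenceSubgroup
open Fermat.Agent.X0 Fermat.Agent.S24
open scoped MatrixGroups Manifold Real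

theorem data_algebraMap {R : Type*} [CommRing R] (r : R) :
    algebraMap R (LaurentSeries R) r = HahnSeries.C r := by
  have h1 : algebraMap R (PowerSeries R) r = PowerSeries.C r := by simp
  rw [HahnSeries.algebraMap_apply', h1, HahnSeries.ofPowerSeries_C]

theorem data_coeffMap_aeval {R S : Type*} [CommRing R] [CommRing S] (f : R →+* S)
    (s : LaurentSeries R) (p : Polynomial R) :
    coeffMap f (Polynomial.aeval s p) = Polynomial.aeval (coeffMap f s) (p.map f) := by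
  rw [Polynomial.aeval_def, Polynomial.aeval_def, Polynomial.hom_eval₂, Polynomial.eval₂_map]
  congr 1
  apply RingHom.ext
  intro r
  rw [RingHom.comp_apply, RingHom.comp_apply]
  rw [data_algebraMap, data_algebraMap]
  exact hd_coeffMap_C f r

theorem data_relInf_jdFun (N : ℕ) [NeZero N] :
    RelInf (N : ℝ) (jdFun N) (iotaZ (qExpand Zb N (JJ Zb N))) := by
  have h := relInf_period N (relInf_jdFun N)
  rw [coeffEmb, ← jqModC_rat, coeffMap_qExpand, coeffMap_qExpand, coeffMap_jqModC,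
    coeffMap_jqModC] at h
  rw [iotaZ, coeffMap_qExpand, coeffMap_JJ]
  exact h

theorem data_cos_eq (N : ℕ) [NeZero N] (c c' : Cos N)
    (h : ∀ z, jdFun N ((Quotient.out c : SL(2, ℤ))⁻¹ • z) =
      jdFun N ((Quotient.out c' : SL(2, ℤ))⁻¹ • z)) : c = c' := by
  have h1 : (Quotient.out c : SL(2, ℤ))⁻¹ * (Quotient.out c' : SL(2, ℤ)) ∈ Gamma0 N := by
    apply mem_Gamma0_of_jdFun_smul
    intro z
    rw [mul_smul, h, inv_smul_smul]
  have h2 : (QuotientGroup.mk (Quotient.out c : SL(2, ℤ)) : Cos N) =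
      QuotientGroup.mk (Quotient.out c' : SL(2, ℤ)) := QuotientGroup.eq.2 h1
  have e1 : (QuotientGroup.mk (Quotient.out c : SL(2, ℤ)) : Cos N) = c := Quotient.out_eq c
  have e2 : (QuotientGroup.mk (Quotient.out c' : SL(2, ℤ)) : Cos N) = c' := Quotient.out_eq c'
  rw [← e1, ← e2, h2]

theorem data_out_mem (N : ℕ) [NeZero N] (c : Cos N)
    (h : (Quotient.out c : SL(2, ℤ))⁻¹ ∈ Gamma0 N) : c = QuotientGroup.mk 1 := by
  have e1 : (QuotientGroup.mk (Quotient.out c : SL(2, ℤ)) : Cos N) = c := Quotient.out_eq c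
  rw [← e1]
  apply QuotientGroup.eq.2
  rwa [mul_one]

theorem data_one_mem (N : ℕ) [NeZero N] :
    (Quotient.out (QuotientGroup.mk 1 : Cos N) : SL(2, ℤ))⁻¹ ∈ Gamma0 N := by
  have e1 : (QuotientGroup.mk (Quotient.out (QuotientGroup.mk 1 : Cos N) : SL(2, ℤ)) : Cos N) =
      QuotientGroup.mk 1 := Quotient.out_eq _
  have := QuotientGroup.eq.1 e1
  rwa [mul_one] at this

theorem exists_data (N ℓ : ℕ) [NeZero N] [Fact ℓ.Prime] (hℓN : ¬ ℓ ∣ N) :
    ∃ (k : Type) (_ : Field k) (_ : CharP k ℓ) (x h : Cos N → LaurentSeries k),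
      Function.Injective x ∧ (∀ c, h c ≠ 0) ∧
      (∀ c, c ≠ (QuotientGroup.mk 1 : Cos N) → 0 < (h c).order) ∧
      x (QuotientGroup.mk 1) = qExpand k N (JJ k N) ∧
      (∀ M m : ℕ, ∃ p : Polynomial k, ∑ c, h c ^ M * x c ^ m = Polynomial.aeval (JJ k N) p) := by
  have hN0 : (0 : ℝ) < N := by exact_mod_cast Nat.pos_of_ne_zero (NeZero.ne N)
  have E := expRel_relInf (N : ℝ) hN0
  obtain ⟨𝔪, hmax, hmem⟩ := FLTPrelim.exists_maximalIdeal_natCast_prime_mem (Fact.out : ℓ.Prime)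
  letI : Field (Zb ⧸ 𝔪) := Ideal.Quotient.field 𝔪
  let f : Zb →+* (Zb ⧸ 𝔪) := Ideal.Quotient.mk 𝔪
  have hℓ0 : ((ℓ : ℕ) : Zb ⧸ 𝔪) = 0 := by
    have : f (ℓ : Zb) = 0 := Ideal.Quotient.eq_zero_iff_mem.2 hmem
    simpa using this
  have hchar : CharP (Zb ⧸ 𝔪) ℓ := by
    have h1 : ringChar (Zb ⧸ 𝔪) ∣ ℓ := ringChar.dvd hℓ0
    have h2 : ringChar (Zb ⧸ 𝔪) = ℓ :=
      ((Nat.dvd_prime (Fact.out : ℓ.Prime)).1 h1).resolve_left (CharP.ringChar_ne_one)
    exact ringChar.of_eq h2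
  have hNk : ((N : ℕ) : Zb ⧸ 𝔪) ≠ 0 := fun h0 => hℓN ((CharP.cast_eq_zero_iff (Zb ⧸ 𝔪) ℓ N).1 h0)
  choose x hx using fun c : Cos N => exists_x N (Quotient.out c : SL(2, ℤ))⁻¹
  choose h hh1 hh2 using fun c : Cos N => exists_h N (Quotient.out c : SL(2, ℤ))⁻¹
  refine ⟨Zb ⧸ 𝔪, inferInstance, hchar, fun c => coeffMap f (x c), fun c => coeffMap f (h c),
    ?_, ?_, ?_, ?_, ?_⟩
  · intro c c' hcc
    exact data_cos_eq N c c' (x_inj N _ _ _ _ (hx c) (hx c') (Zb ⧸ 𝔪) f hNk hcc)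
  · intro c
    exact (hh2 c (Zb ⧸ 𝔪) f hNk).1
  · intro c hc
    refine (hh2 c (Zb ⧸ 𝔪) f hNk).2 fun hdvd => hc (data_out_mem N c ?_)
    rw [Gamma0_mem, ZMod.intCast_zmod_eq_zero_iff_dvd]
    exact hdvd
  · have h1 := hx (QuotientGroup.mk 1)
    have h2 : (fun z => jdFun N ((Quotient.out (QuotientGroup.mk 1 : Cos N) : SL(2, ℤ))⁻¹ • z)) =
        jdFun N := by
      ext z
      exact jdFun_smul_of_mem_Gamma0 N N dvd_rfl _ (data_one_mem N) z
    rw [h2] at h1
    have h3 : x (QuotientGroup.mk 1) = qExpand Zb N (JJ Zb N) :=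
      hd_iotaZ_injective (E.unique_right h1 (data_relInf_jdFun N))
    change coeffMap f (x (QuotientGroup.mk 1)) = _
    rw [h3, coeffMap_qExpand, coeffMap_JJ]
  · intro M m
    obtain ⟨p, hp⟩ := sym_trace N (gFun N ^ M * jdFun N ^ m)
      (fun γ hγ z => by
        simp only [Pi.mul_apply, Pi.pow_apply, gFun_smul N γ hγ z,
          jdFun_smul_of_mem_Gamma0 N N dvd_rfl γ hγ z])
      (((gFun_mdiff N).pow M).mul ((jdFun_mdiff N).pow m))
      (fun c => h c ^ M * x c ^ m)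
      (fun c => by
        rw [map_mul, map_pow, map_pow]
        exact E.mul (hd_expRel_pow E (hh1 c) M) (hd_expRel_pow E (hx c) m))
    refine ⟨p.map f, ?_⟩
    rw [← coeffMap_JJ f, ← data_coeffMap_aeval, ← hp, map_sum]
    refine Finset.sum_congr rfl fun c _ => ?_
    rw [map_mul, map_pow, map_pow]

end Fermat.Agent.S28
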