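import Mathlib

/-!
# S28: the algebraic heart of the irreducibility of `X₀(N)` modulo `ℓ`

`L` is a valued field containing `k` (think of `k((u))`), `J ∈ L` has a pole, `η x`, `γ x`
(`x ∈ I`) are the expansions of the conjugates of a generator and of a modular unit which vanishes
at all conjugates except `x0`.  If all the "traces" `∑ x, γ x ^ M * η x ^ m` are polynomials in
`J`, then `η x0` has degree `≥ card I` over `k(J)`.
-/

set_option autoImplicit false

namespace Fermat.Agent.S28

open Polynomial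

variable {k L : Type*} [Field k] [Field L] [Algebra k L] (v : AddValuation L (WithTop ℤ))

/-- the value of a monomial -/
theorem heart_val_monomial (hvk : ∀ c : k, c ≠ 0 → v (algebraMap k L c) = 0) (J : L)
    (c : k) (hc : c ≠ 0) (i : ℕ) : v (algebraMap k L c * J ^ i) = i • v J := by
  rw [v.map_mul, hvk c hc, zero_add, v.map_pow]

theorem heart_nsmul_lt {a : WithTop ℤ} (ha : a < 0) {i j : ℕ} (hij : i < j) : j • a < i • a := by
  obtain ⟨z, rfl⟩ := WithTop.ne_top_iff_exists.mp (ne_top_of_lt ha)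
  have hz : z < 0 := by exact_mod_cast ha
  have e : ∀ n : ℕ, n • (z : WithTop ℤ) = ((n * z : ℤ) : WithTop ℤ) := by
    intro n
    rw [← WithTop.coe_nsmul, nsmul_eq_mul]
  rw [e, e]
  have : (j : ℤ) * z < i * z := by
    have : (i : ℤ) < j := by exact_mod_cast hij
    nlinarith
  exact_mod_cast this

/-- a nonzero polynomial in `J` has value `natDegree • v J`. -/
theorem heart_val_aeval (hvk : ∀ c : k, c ≠ 0 → v (algebraMap k L c) = 0) (J : L) (hJ : v J < 0)
    (p : k[X]) (hp : p ≠ 0) : v (aeval J p) = p.natDegree • v J := by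
  have h1 : aeval J p = algebraMap k L p.leadingCoeff * J ^ p.natDegree +
      ∑ i ∈ Finset.range p.natDegree, algebraMap k L (p.coeff i) * J ^ i := by
    rw [aeval_eq_sum_range, Finset.sum_range_succ, add_comm]
    simp [Algebra.smul_def]
  have h2 : v (algebraMap k L p.leadingCoeff * J ^ p.natDegree) = p.natDegree • v J :=
    heart_val_monomial v hvk J _ (leadingCoeff_ne_zero.mpr hp) _
  have hne : p.natDegree • v J ≠ ⊤ := by
    obtain ⟨z, hz⟩ := WithTop.ne_top_iff_exists.mp (ne_top_of_lt hJ)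
    rw [← hz, ← WithTop.coe_nsmul]
    exact WithTop.coe_ne_top
  have h3 : p.natDegree • v J <
      v (∑ i ∈ Finset.range p.natDegree, algebraMap k L (p.coeff i) * J ^ i) := by
    refine v.map_lt_sum hne fun i hi => ?_
    by_cases hc : p.coeff i = 0
    · rw [hc, map_zero, zero_mul, v.map_zero]
      exact lt_top_iff_ne_top.mpr hne
    · rw [heart_val_monomial v hvk J _ hc]
      exact heart_nsmul_lt hJ (Finset.mem_range.mp hi)
  rw [h1, v.map_add_eq_of_lt_left (by rw [h2]; exact h3), h2]

theorem heart_nsmul_nonpos {a : WithTop ℤ} (ha : a < 0) (n : ℕ) : n • a ≤ 0 := by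
  rcases Nat.eq_zero_or_pos n with rfl | hn
  · simp
  · have := heart_nsmul_lt ha hn
    simpa using this.le

/-- a polynomial in `J` of positive value vanishes. -/
theorem heart_eq_zero_of_pos (hvk : ∀ c : k, c ≠ 0 → v (algebraMap k L c) = 0) (J : L)
    (hJ : v J < 0) (p : k[X]) (hp : 0 < v (aeval J p)) : p = 0 := by
  by_contra h
  rw [heart_val_aeval v hvk J hJ p h] at hp
  exact absurd hp (not_lt.mpr (heart_nsmul_nonpos hJ _))

theorem heart_aeval_injective (hvk : ∀ c : k, c ≠ 0 → v (algebraMap k L c) = 0) (J : L)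
    (hJ : v J < 0) : Function.Injective (aeval J : k[X] →ₐ[k] L) := by
  rw [injective_iff_map_eq_zero]
  intro p hp
  apply heart_eq_zero_of_pos v hvk J hJ p
  rw [hp, v.map_zero]
  exact WithTop.coe_lt_top 0

/-- large powers of an element of positive value kill any pole. -/
theorem heart_exists_pow (g t : L) (hg : 0 < v g) : ∃ M₀ : ℕ, ∀ M, M₀ ≤ M → 0 < v (g ^ M * t) := by
  by_cases ht : t = 0
  · refine ⟨0, fun M _ => ?_⟩
    rw [ht, mul_zero, v.map_zero]
    exact WithTop.coe_lt_top 0
  by_cases hg0 : g = 0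
  · refine ⟨1, fun M hM => ?_⟩
    rw [hg0, zero_pow (by omega), zero_mul, v.map_zero]
    exact WithTop.coe_lt_top 0
  obtain ⟨z, hz⟩ := WithTop.ne_top_iff_exists.mp ((v.ne_top_iff).mpr ht)
  obtain ⟨y, hy⟩ := WithTop.ne_top_iff_exists.mp ((v.ne_top_iff).mpr hg0)
  have hy0 : 0 < y := by rw [← hy] at hg; exact_mod_cast hg
  refine ⟨(1 - z).toNat, fun M hM => ?_⟩
  rw [v.map_mul, v.map_pow, ← hz, ← hy, ← WithTop.coe_nsmul, ← WithTop.coe_add, nsmul_eq_mul]
  have h1 : 1 - z ≤ M := by
    have := Int.self_le_toNat (1 - z)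
    have h2 : ((1 - z).toNat : ℤ) ≤ M := by exact_mod_cast hM
    omega
  have h3 : (M : ℤ) ≤ M * y := by nlinarith [Int.natCast_nonneg M]
  have : 0 < (M : ℤ) * y + z := by omega
  exact_mod_cast this

/-- Vandermonde: distinct nodes, all moments zero, then the weights are zero. -/
theorem heart_vandermonde {I : Type*} [Fintype I] (η w : I → L) (hη : Function.Injective η)
    (h : ∀ m, m < Fintype.card I → ∑ x, w x * η x ^ m = 0) : w = 0 := by
  classical
  let e := Fintype.equivFin I
  have hdet : (Matrix.vandermonde (fun i => η (e.symm i))).det ≠ 0 :=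
    Matrix.det_vandermonde_ne_zero_iff.mpr (hη.comp e.symm.injective)
  have h0 : Matrix.vecMul (fun i => w (e.symm i)) (Matrix.vandermonde (fun i => η (e.symm i))) = 0 := by
    funext m
    have := h m m.2
    rw [← Equiv.sum_comp e.symm] at this
    simpa [Matrix.vecMul, dotProduct, Matrix.vandermonde_apply] using this
  have h1 := Matrix.eq_zero_of_vecMul_eq_zero hdet h0
  funext x
  have := congrFun h1 (e x)
  simpa using this

/-- **The heart.** -/
theorem heart (hvk : ∀ c : k, c ≠ 0 → v (algebraMap k L c) = 0) {I : Type*} [Fintype I] (x0 : I)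
    (J : L) (hJ : v J < 0) (η γ : I → L) (hη : Function.Injective η) (hγ0 : ∀ x, γ x ≠ 0)
    (hγ : ∀ x, x ≠ x0 → 0 < v (γ x))
    (htr : ∀ M m : ℕ, ∃ p : k[X], ∑ x, γ x ^ M * η x ^ m = aeval J p)
    (C : k[X][X]) (hdeg : C.natDegree < Fintype.card I)
    (h0 : C.eval₂ ((aeval J : k[X] →ₐ[k] L) : k[X] →+* L) (η x0) = 0) : C = 0 := by
  classical
  set ev : k[X] →+* L := ((aeval J : k[X] →ₐ[k] L) : k[X] →+* L) with hev
  set a : I → L := fun x => C.eval₂ ev (η x) with ha
  -- the twisted traces are polynomials in `J`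
  have htr2 : ∀ M m : ℕ, ∃ p : k[X], ∑ x, γ x ^ M * a x * η x ^ m = aeval J p := by
    intro M m
    choose P hP using htr M
    refine ⟨∑ i ∈ Finset.range (C.natDegree + 1), C.coeff i * P (i + m), ?_⟩
    rw [map_sum]
    have e1 : ∀ x, γ x ^ M * a x * η x ^ m =
        ∑ i ∈ Finset.range (C.natDegree + 1), ev (C.coeff i) * (γ x ^ M * η x ^ (i + m)) := by
      intro x
      rw [ha]
      simp only
      rw [eval₂_eq_sum_range, Finset.mul_sum, Finset.sum_mul]
      refine Finset.sum_congr rfl fun i _ => ?_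
      rw [pow_add]
      ring
    simp_rw [e1]
    rw [Finset.sum_comm]
    refine Finset.sum_congr rfl fun i _ => ?_
    rw [← Finset.mul_sum, hP, map_mul]
    rfl
  -- choose `M` large
  have hM : ∃ M : ℕ, ∀ x, x ≠ x0 → ∀ m, m < Fintype.card I → 0 < v (γ x ^ M * (a x * η x ^ m)) := by
    have h1 : ∀ (x : I) (m : ℕ), ∃ M₀ : ℕ, x ≠ x0 → ∀ M, M₀ ≤ M →
        0 < v (γ x ^ M * (a x * η x ^ m)) := by
      intro x m
      by_cases hx : x = x0
      · exact ⟨0, fun h => absurd hx h⟩
      · obtain ⟨M₀, hM₀⟩ := heart_exists_pow v (γ x) (a x * η x ^ m) (hγ x hx)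
        exact ⟨M₀, fun _ => hM₀⟩
    choose M₀ hM₀ using h1
    refine ⟨Finset.univ.sup fun x => (Finset.range (Fintype.card I)).sup fun m => M₀ x m,
      fun x hx m hm => hM₀ x m hx _ ?_⟩
    refine le_trans ?_ (Finset.le_sup (f := fun x => (Finset.range (Fintype.card I)).sup
      fun m => M₀ x m) (Finset.mem_univ x))
    exact Finset.le_sup (f := fun m => M₀ x m) (Finset.mem_range.mpr hm)
  obtain ⟨M, hM⟩ := hM
  have hzero : ∀ m, m < Fintype.card I → ∑ x, (γ x ^ M * a x) * η x ^ m = 0 := by
    intro m hm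
    obtain ⟨p, hp⟩ := htr2 M m
    have hpos : 0 < v (∑ x, γ x ^ M * a x * η x ^ m) := by
      refine v.map_lt_sum WithTop.coe_ne_top fun x _ => ?_
      by_cases hx : x = x0
      · have : a x = 0 := by rw [hx]; exact h0
        rw [this, mul_zero, zero_mul, v.map_zero]
        exact WithTop.coe_lt_top 0
      · rw [mul_assoc]
        exact hM x hx m hm
    rw [hp] at hpos
    rw [hp, heart_eq_zero_of_pos v hvk J hJ p hpos, map_zero]
  have hw := heart_vandermonde η (fun x => γ x ^ M * a x) hη hzero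
  have ha0 : ∀ x, a x = 0 := by
    intro x
    have := congrFun hw x
    simp only [Pi.zero_apply, mul_eq_zero] at this
    rcases this with h | h
    · exact absurd (eq_zero_of_pow_eq_zero h) (hγ0 x)
    · exact h
  have hmap : C.map ev = 0 := by
    refine eq_zero_of_natDegree_lt_card_of_eval_eq_zero (C.map ev) hη (fun x => ?_)
      (lt_of_le_of_lt natDegree_map_le hdeg)
    rw [eval_map]
    exact ha0 x
  exact (Polynomial.map_eq_zero_iff (heart_aeval_injective v hvk J hJ)).mp hmap

end Fermat.Agent.S28
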