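import Mathlib
import Fermat.Agent.S28.Defs
import Fermat.Agent.S28.Tw
import Fermat.Agent.S28.Heart

/-!
# S28 (W2), core: `Φ_N` is irreducible mod `ℓ`, from the data in characteristic `ℓ`
-/

set_option autoImplicit false

namespace Fermat.Agent.S28

open ModularCurve HahnSeries CongruenceSubgroup Polynomial
open Fermat.Agent.X0 Fermat.Agent.S24
open scoped MatrixGroups

theorem irrCore_algebraMap {k₀ k : Type*} [Field k₀] [Field k] (φ : k₀ →+* k) (N : ℕ) [NeZero N]
    (a : k₀) : qExpand k N (coeffMap φ (algebraMap k₀ (LaurentSeries k₀) a)) =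
      algebraMap k (LaurentSeries k) (φ a) := by
  rw [algebraMap_laurentSeries_eq_single, algebraMap_laurentSeries_eq_single, coeffMap_single,
    qExpand_single, mul_zero]

theorem irrCore_comp {k₀ k : Type*} [Field k₀] [Field k] (φ : k₀ →+* k) (N : ℕ) [NeZero N] :
    ((qExpand k N).comp (coeffMap φ)).comp
        ((aeval (jqModC k₀) : k₀[X] →ₐ[k₀] LaurentSeries k₀) : k₀[X] →+* LaurentSeries k₀) =
      ((aeval (JJ k N) : k[X] →ₐ[k] LaurentSeries k) : k[X] →+* LaurentSeries k).comp
        (mapRingHom φ) := by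
  refine Polynomial.ringHom_ext (fun a => ?_) ?_
  · simp only [RingHom.comp_apply, RingHom.coe_coe, aeval_C, coe_mapRingHom, Polynomial.map_C]
    exact irrCore_algebraMap φ N a
  · simp only [RingHom.comp_apply, RingHom.coe_coe, aeval_X, coe_mapRingHom, Polynomial.map_X]
    rw [coeffMap_jqModC, JJ]

/-- the independence statement over any field `k₀` mapping to a field `k` carrying the data. -/
theorem irrCore {k₀ k : Type*} [Field k₀] [Field k] (φ : k₀ →+* k) (N : ℕ) [NeZero N]
    (x h : Cos N → LaurentSeries k) (hx : Function.Injective x) (hh0 : ∀ c, h c ≠ 0)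
    (hh : ∀ c, c ≠ (QuotientGroup.mk 1 : Cos N) → 0 < (h c).order)
    (hx1 : x (QuotientGroup.mk 1) = qExpand k N (JJ k N))
    (htr : ∀ M m : ℕ, ∃ p : k[X], ∑ c, h c ^ M * x c ^ m = aeval (JJ k N) p)
    (P : k₀[X][X]) (hP : P ≠ 0) (hdeg : P.natDegree < Nat.card (Cos N)) :
    (P.map (aeval (jqModC k₀) : k₀[X] →ₐ[k₀] LaurentSeries k₀).toRingHom).eval
      (jqNModC k₀ N) ≠ 0 := by
  intro h0
  apply hP
  have hN : (0 : ℤ) < N := by exact_mod_cast Nat.pos_of_ne_zero (NeZero.ne N)
  have hJ0 : JJ k N ≠ 0 := by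
    intro h1
    have := order_JJ (k := k) N
    rw [h1, HahnSeries.order_zero] at this
    omega
  have hC : P.map (mapRingHom φ) = 0 := by
    refine heart (HahnSeries.addVal ℤ k) (fun c hc => ?_) (QuotientGroup.mk 1 : Cos N) (JJ k N) ?_
      x h hx hh0 (fun c hc => ?_) htr (P.map (mapRingHom φ)) ?_ ?_
    · rw [HahnSeries.addVal_apply, algebraMap_laurentSeries_eq_single,
        HahnSeries.orderTop_single hc]
      rfl
    · rw [HahnSeries.addVal_apply, ← HahnSeries.order_eq_orderTop_of_ne_zero hJ0, order_JJ]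
      exact_mod_cast (by omega : -(N : ℤ) < 0)
    · rw [HahnSeries.addVal_apply]
      exact HahnSeries.zero_lt_orderTop_of_order (hh c hc)
    · rw [← Nat.card_eq_fintype_card]
      exact lt_of_le_of_lt natDegree_map_le hdeg
    · rw [eval₂_map, ← irrCore_comp φ N, hx1]
      have e : qExpand k N (JJ k N) = ((qExpand k N).comp (coeffMap φ)) (jqNModC k₀ N) := by
        rw [RingHom.comp_apply, coeffMap_jqNModC, JJ, jqNModC]
      rw [e, ← hom_eval₂, ← eval_map]
      exact (congrArg _ h0).trans (map_zero _)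
  exact (Polynomial.map_eq_zero_iff (Polynomial.map_injective φ φ.injective)).mp hC

end Fermat.Agent.S28
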