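import Mathlib
import Fermat.Agent.S28.Defs

/-!
# S28 (Igusa): basic facts on `ℤ_(ℓ)`

* `zlRed ℓ : Zl ℓ →+* ZMod ℓ`, surjective with kernel `(ℓ)`
* `zl_prime : Prime (ℓ : Zl ℓ)`
* `Zl ℓ` is a discrete valuation ring
-/

set_option autoImplicit false

namespace Fermat.Agent.S28

open ModularCurve HahnSeries

variable (ℓ : ℕ)

lemma zl_mem_iff (q : ℚ) : q ∈ GaloisRep.ratLocalizedAt ℓ ↔ q.den.Coprime ℓ := Iff.rfl

lemma zl_div_mem (a : ℤ) (b : ℕ) (hb : b.Coprime ℓ) : (a / b : ℚ) ∈ GaloisRep.ratLocalizedAt ℓ := by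
  rw [zl_mem_iff]
  have h : ((a / b : ℚ).den : ℤ) ∣ (b : ℤ) := by
    have := Rat.den_dvd a (b : ℤ)
    rwa [Rat.divInt_eq_div, Int.cast_natCast] at this
  exact Nat.Coprime.coprime_dvd_left (Int.natCast_dvd_natCast.1 h) hb

variable [Fact ℓ.Prime]

lemma zl_den_ne (x : Zl ℓ) : (((x : ℚ).den : ℕ) : ZMod ℓ) ≠ 0 := by
  intro h
  rw [ZMod.natCast_eq_zero_iff] at h
  have h1 : (x : ℚ).den.Coprime ℓ := x.2
  have h2 : ℓ ∣ Nat.gcd (x : ℚ).den ℓ := Nat.dvd_gcd h dvd_rfl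
  rw [h1] at h2
  exact (Fact.out : ℓ.Prime).one_lt.ne' (Nat.dvd_one.1 h2)

/-- reduction mod `ℓ` -/
noncomputable def zlRed : Zl ℓ →+* ZMod ℓ where
  toFun x := ((x : ℚ) : ZMod ℓ)
  map_one' := by simp
  map_zero' := by simp
  map_add' x y := by
    rw [Subring.coe_add]
    exact Rat.cast_add_of_ne_zero (zl_den_ne ℓ x) (zl_den_ne ℓ y)
  map_mul' x y := by
    rw [Subring.coe_mul]
    exact Rat.cast_mul_of_ne_zero (zl_den_ne ℓ x) (zl_den_ne ℓ y)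

lemma zlRed_apply (x : Zl ℓ) : zlRed ℓ x = ((x : ℚ) : ZMod ℓ) := rfl

lemma zlRed_surjective : Function.Surjective (zlRed ℓ) := by
  intro a
  refine ⟨(a.val : Zl ℓ), ?_⟩
  rw [map_natCast, ZMod.natCast_zmod_val]

lemma zlRed_eq_zero_iff (x : Zl ℓ) : zlRed ℓ x = 0 ↔ (ℓ : Zl ℓ) ∣ x := by
  constructor
  · intro h
    rw [zlRed_apply, Rat.cast_def, div_eq_zero_iff, or_iff_left (zl_den_ne ℓ x),
      ZMod.intCast_zmod_eq_zero_iff_dvd] at h
    obtain ⟨c, hc⟩ := h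
    refine ⟨⟨(c / (x : ℚ).den : ℚ), zl_div_mem ℓ c _ x.2⟩, Subtype.ext ?_⟩
    rw [Subring.coe_mul, Subring.coe_natCast]
    have h1 : (x : ℚ) = ((x : ℚ).num : ℚ) / ((x : ℚ).den : ℚ) := (Rat.num_div_den _).symm
    conv_lhs => rw [h1, hc]
    push_cast
    ring
  · rintro ⟨c, rfl⟩
    rw [map_mul, map_natCast, ZMod.natCast_self, zero_mul]

lemma zl_natCast_ne_zero : (ℓ : Zl ℓ) ≠ 0 := by
  intro h
  have := congrArg (Subtype.val) h
  rw [Subring.coe_natCast, Subring.coe_zero, Nat.cast_eq_zero] at this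
  exact (Fact.out : ℓ.Prime).ne_zero this

lemma zl_prime : Prime (ℓ : Zl ℓ) := by
  refine ⟨zl_natCast_ne_zero ℓ, ?_, ?_⟩
  · intro h
    have h1 := h.map (zlRed ℓ)
    rw [map_natCast, ZMod.natCast_self] at h1
    exact not_isUnit_zero h1
  · intro a b h
    rw [← zlRed_eq_zero_iff, map_mul, mul_eq_zero, zlRed_eq_zero_iff, zlRed_eq_zero_iff] at h
    exact h

lemma zl_isUnit_of_not_dvd (x : Zl ℓ) (h : ¬ (ℓ : Zl ℓ) ∣ x) : IsUnit x := by
  have hnum : ¬ (ℓ : ℤ) ∣ (x : ℚ).num := by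
    intro h1
    apply h
    rw [← zlRed_eq_zero_iff, zlRed_apply, Rat.cast_def, div_eq_zero_iff]
    left
    rwa [ZMod.intCast_zmod_eq_zero_iff_dvd]
  have hx0 : (x : ℚ) ≠ 0 := by
    intro h0
    apply hnum
    rw [h0]
    simp
  have hcop : (x : ℚ).num.natAbs.Coprime ℓ := by
    rw [Nat.coprime_comm, (Fact.out : ℓ.Prime).coprime_iff_not_dvd]
    intro h1
    exact hnum (Int.natCast_dvd.2 h1)
  have hmem : (x : ℚ)⁻¹ ∈ GaloisRep.ratLocalizedAt ℓ := by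
    rw [zl_mem_iff, Rat.den_inv_of_ne_zero hx0]
    exact hcop
  exact IsUnit.of_mul_eq_one ⟨(x : ℚ)⁻¹, hmem⟩ (Subtype.ext (by
    rw [Subring.coe_mul, Subring.coe_one]; exact mul_inv_cancel₀ hx0))

lemma zl_exists_pow_mul (x : Zl ℓ) (hx : x ≠ 0) :
    ∃ n : ℕ, Associated ((ℓ : Zl ℓ) ^ n) x := by
  have hnum : (x : ℚ).num ≠ 0 := by
    intro h
    exact hx (Subtype.ext (by rw [Subring.coe_zero]; exact Rat.num_eq_zero.1 h))
  have hirr : Irreducible (ℓ : ℤ) := (Nat.prime_iff_prime_int.1 (Fact.out : ℓ.Prime)).irreducible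
  obtain ⟨n, a, ha, hna⟩ := WfDvdMonoid.max_power_factor hnum hirr
  set u : Zl ℓ := ⟨(a / (x : ℚ).den : ℚ), zl_div_mem ℓ a _ x.2⟩ with hu
  have hxu : x = (ℓ : Zl ℓ) ^ n * u := by
    refine Subtype.ext ?_
    rw [Subring.coe_mul, Subring.coe_pow, Subring.coe_natCast]
    have h1 : (x : ℚ) = ((x : ℚ).num : ℚ) / ((x : ℚ).den : ℚ) := (Rat.num_div_den _).symm
    conv_lhs => rw [h1, hna]
    push_cast
    ring
  have hunit : IsUnit u := by
    refine zl_isUnit_of_not_dvd ℓ u ?_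
    intro h
    rw [← zlRed_eq_zero_iff] at h
    have h2 : zlRed ℓ u * zlRed ℓ ((x : ℚ).den : Zl ℓ) = zlRed ℓ (a : Zl ℓ) := by
      rw [← map_mul]
      congr 1
      refine Subtype.ext ?_
      rw [Subring.coe_mul, Subring.coe_natCast, Subring.coe_intCast]
      have : ((x : ℚ).den : ℚ) ≠ 0 := by exact_mod_cast (x : ℚ).den_nz
      show (a / (x : ℚ).den : ℚ) * ((x : ℚ).den : ℚ) = a
      field_simp
    rw [h, zero_mul, map_intCast] at h2
    exact ha ((ZMod.intCast_zmod_eq_zero_iff_dvd a ℓ).1 h2.symm)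
  obtain ⟨v, hv⟩ := hunit
  exact ⟨n, v, by rw [hv, hxu]⟩

instance zl_isDVR : IsDiscreteValuationRing (Zl ℓ) :=
  IsDiscreteValuationRing.ofHasUnitMulPowIrreducibleFactorization
    ⟨(ℓ : Zl ℓ), (zl_prime ℓ).irreducible, fun {x} hx => zl_exists_pow_mul ℓ x hx⟩

omit [Fact ℓ.Prime] in
lemma coeffMap_zl_injective :
    Function.Injective (coeffMap (GaloisRep.ratLocalizedAt ℓ).subtype) := by
  intro a b h
  ext n
  have := congrArg (fun s => HahnSeries.coeff s n) h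
  simpa using this

lemma coeffMap_zlRed_eq_zero_iff (y : LaurentSeries (Zl ℓ)) :
    coeffMap (zlRed ℓ) y = 0 ↔ ∀ n, (ℓ : Zl ℓ) ∣ y.coeff n := by
  constructor
  · intro h n
    rw [← zlRed_eq_zero_iff, ← coeffMap_coeff, h, HahnSeries.coeff_zero]
  · intro h
    ext n
    rw [coeffMap_coeff, HahnSeries.coeff_zero, zlRed_eq_zero_iff]
    exact h n

end Fermat.Agent.S28
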