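import Mathlib
import Fermat.Agent.S28.Defs
import Fermat.Agent.S28.ZlBasic
import Fermat.Prelude.Thm_ModularCurve_coeffMap_qExpand
import Fermat.Prelude.Thm_ModularCurve_coeff_jqModC_neg_one

/-!
# S28 (Igusa): the key divisibility lemma, with the two inputs as hypotheses
-/

set_option autoImplicit false
set_option linter.unusedSectionVars false
set_option linter.style.haveILetI false

namespace Fermat.Agent.S28

open UpperHalfPlane ModularForm ModularCurve ModularCurve.IgusaScheme HahnSeries CongruenceSubgroup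
open Fermat.Agent.X0 Fermat.Agent.S24 IntermediateField
open AlgebraicGeometry CategoryTheory CategoryTheory.Limits
open scoped MatrixGroups Manifold Real TensorProduct

section Eval

variable (R : Type*) {S : Type*} [CommRing R] [CommRing S]

/-- evaluation of a polynomial in two variables at `(j(q), j(q^N))` -/
noncomputable def ev2 (N : ℕ) [NeZero N] : Polynomial (Polynomial R) →+* LaurentSeries R :=
  Polynomial.eval₂RingHom
    (Polynomial.aeval (jqModC R) : Polynomial R →ₐ[R] LaurentSeries R).toRingHom (jqNModC R N)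

lemma ev2_apply (N : ℕ) [NeZero N] (P : Polynomial (Polynomial R)) :
    ev2 R N P = (P.map (Polynomial.aeval (jqModC R) :
      Polynomial R →ₐ[R] LaurentSeries R).toRingHom).eval (jqNModC R N) :=
  Polynomial.eval₂_eq_eval_map _

variable {R}

lemma keyAux_coeffMap_jqModC (f : R →+* S) : coeffMap f (jqModC R) = jqModC S := map_jqModC f

lemma keyAux_coeffMap_jqNModC (f : R →+* S) (N : ℕ) [NeZero N] :
    coeffMap f (jqNModC R N) = jqNModC S N := by
  rw [jqNModC, coeffMap_qExpand, keyAux_coeffMap_jqModC, jqNModC]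

lemma keyAux_coeffMap_algebraMap (f : R →+* S) (r : R) :
    coeffMap f (algebraMap R (LaurentSeries R) r) = algebraMap S (LaurentSeries S) (f r) := by
  rw [P2MW.S_ModularCurve_coeff_jqModC_neg_one.ModularCurve.CharLRows.algebraMap_laurentSeries_eq_single,
    P2MW.S_ModularCurve_coeff_jqModC_neg_one.ModularCurve.CharLRows.algebraMap_laurentSeries_eq_single]
  exact coeffMap_single f 0 r

lemma coeffMap_aeval_jqModC (f : R →+* S) (a : Polynomial R) :
    coeffMap f (Polynomial.aeval (jqModC R) a) = Polynomial.aeval (jqModC S) (a.map f) := by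
  have h : (coeffMap f).comp
      (Polynomial.aeval (jqModC R) : Polynomial R →ₐ[R] LaurentSeries R).toRingHom =
      ((Polynomial.aeval (jqModC S) : Polynomial S →ₐ[S] LaurentSeries S).toRingHom).comp
        (Polynomial.mapRingHom f) := by
    refine Polynomial.ringHom_ext ?_ ?_
    · intro r
      simp [keyAux_coeffMap_algebraMap]
    · simp [keyAux_coeffMap_jqModC]
  exact congrArg (fun g => g a) h

lemma coeffMap_ev2 (f : R →+* S) (N : ℕ) [NeZero N] (P : Polynomial (Polynomial R)) :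
    coeffMap f (ev2 R N P) = ev2 S N (P.map (Polynomial.mapRingHom f)) := by
  have h : (coeffMap f).comp (ev2 R N) =
      (ev2 S N).comp (Polynomial.mapRingHom (Polynomial.mapRingHom f)) := by
    refine Polynomial.ringHom_ext ?_ ?_
    · intro a
      simp [ev2, coeffMap_aeval_jqModC]
    · simp [ev2, keyAux_coeffMap_jqNModC]
  exact congrArg (fun g => g P) h

end Eval

section Field

variable (N ℓ : ℕ) [NeZero N] [Fact ℓ.Prime]

/-- evaluation of a polynomial in two variables at `(j, j_N)` in the function field -/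
noncomputable def evF : Polynomial (Polynomial (Zl ℓ)) →+* ↥(modularFunctionFieldFull N) :=
  Polynomial.eval₂RingHom (Polynomial.aeval (jFull N) :
    Polynomial (Zl ℓ) →ₐ[Zl ℓ] ↥(modularFunctionFieldFull N)).toRingHom (jNFull N)

lemma evF_apply (P : Polynomial (Polynomial (Zl ℓ))) :
    evF N ℓ P = (P.map (Polynomial.aeval (jFull N) :
      Polynomial (Zl ℓ) →ₐ[Zl ℓ] ↥(modularFunctionFieldFull N)).toRingHom).eval (jNFull N) :=
  Polynomial.eval₂_eq_eval_map _

lemma coe_aeval_jFull (a : Polynomial (Zl ℓ)) :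
    ((Polynomial.aeval (jFull N) a : ↥(modularFunctionFieldFull N)) : LaurentSeries ℚ) =
      coeffMap (GaloisRep.ratLocalizedAt ℓ).subtype (Polynomial.aeval (jqModC (Zl ℓ)) a) := by
  have h : ((modularFunctionFieldFull N).val : ↥(modularFunctionFieldFull N) →+* LaurentSeries ℚ).comp
      (Polynomial.aeval (jFull N) :
        Polynomial (Zl ℓ) →ₐ[Zl ℓ] ↥(modularFunctionFieldFull N)).toRingHom =
      (coeffMap (GaloisRep.ratLocalizedAt ℓ).subtype).comp
        (Polynomial.aeval (jqModC (Zl ℓ)) :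
          Polynomial (Zl ℓ) →ₐ[Zl ℓ] LaurentSeries (Zl ℓ)).toRingHom := by
    refine Polynomial.ringHom_ext ?_ ?_
    · intro r
      simp [keyAux_coeffMap_algebraMap]
      rfl
    · simp [keyAux_coeffMap_jqModC]
      rfl
  exact congrArg (fun g => g a) h

lemma coe_evF (P : Polynomial (Polynomial (Zl ℓ))) :
    ((evF N ℓ P : ↥(modularFunctionFieldFull N)) : LaurentSeries ℚ) =
      coeffMap (GaloisRep.ratLocalizedAt ℓ).subtype (ev2 (Zl ℓ) N P) := by
  have h : ((modularFunctionFieldFull N).val : ↥(modularFunctionFieldFull N) →+* LaurentSeries ℚ).comp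
      (evF N ℓ) = (coeffMap (GaloisRep.ratLocalizedAt ℓ).subtype).comp (ev2 (Zl ℓ) N) := by
    refine Polynomial.ringHom_ext ?_ ?_
    · intro a
      simp [evF, ev2, coe_aeval_jFull]
    · simp [evF, ev2, keyAux_coeffMap_jqNModC]
      rfl
  exact congrArg (fun g => g P) h

lemma aeval_jFull_injective : Function.Injective (Polynomial.aeval (jFull N) :
    Polynomial (Zl ℓ) →ₐ[Zl ℓ] ↥(modularFunctionFieldFull N)) := by
  rw [injective_iff_map_eq_zero]
  intro a ha
  have h1 := coe_aeval_jFull N ℓ a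
  rw [ha, ZeroMemClass.coe_zero] at h1
  have h2 : Polynomial.aeval (jqModC (Zl ℓ)) a = 0 :=
    coeffMap_zl_injective ℓ (by rw [← h1, map_zero])
  exact P2MW.S_ModularCurve_coeff_jqModC_neg_one.ModularCurve.CharLRows.aeval_jqModC_eq_zero _ h2

lemma keyAux_clear (r : Polynomial ℚ) : ∃ (b : ℤ) (r' : Polynomial (Zl ℓ)), b ≠ 0 ∧
    r'.map (algebraMap (Zl ℓ) ℚ) = b • r := by
  obtain ⟨b, hbM, hb⟩ := IsLocalization.integerNormalization_spec (nonZeroDivisors ℤ) r
  refine ⟨b, (IsLocalization.integerNormalization (nonZeroDivisors ℤ) r).map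
    (Int.castRingHom (Zl ℓ)), nonZeroDivisors.ne_zero hbM, ?_⟩
  rw [Polynomial.map_map, ← hb]
  congr 1

lemma keyAux_frac (z : ↥(modularFunctionFieldFull N)) (hz : z ∈ ℚ⟮jFull N⟯) :
    ∃ a s : Polynomial (Zl ℓ), z = Polynomial.aeval (jFull N) a / Polynomial.aeval (jFull N) s := by
  obtain ⟨r, s, hrs⟩ := (IntermediateField.mem_adjoin_simple_iff ℚ z).1 hz
  obtain ⟨b, r', hb, hr'⟩ := keyAux_clear ℓ r
  obtain ⟨c, s', hc, hs'⟩ := keyAux_clear ℓ s
  have h1 : Polynomial.aeval (jFull N) r' = (b : ↥(modularFunctionFieldFull N)) *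
      Polynomial.aeval (jFull N) r := by
    rw [← Polynomial.aeval_map_algebraMap ℚ, hr', map_zsmul, zsmul_eq_mul]
  have h2 : Polynomial.aeval (jFull N) s' = (c : ↥(modularFunctionFieldFull N)) *
      Polynomial.aeval (jFull N) s := by
    rw [← Polynomial.aeval_map_algebraMap ℚ, hs', map_zsmul, zsmul_eq_mul]
  have hb' : (b : ↥(modularFunctionFieldFull N)) ≠ 0 := by exact_mod_cast hb
  have hc' : (c : ↥(modularFunctionFieldFull N)) ≠ 0 := by exact_mod_cast hc
  refine ⟨(c : Polynomial (Zl ℓ)) * r', (b : Polynomial (Zl ℓ)) * s', ?_⟩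
  rw [map_mul, map_mul, map_intCast, map_intCast, h1, h2, hrs]
  by_cases hs0 : Polynomial.aeval (jFull N) s = 0
  · simp [hs0]
  · field_simp

end Field

lemma keyAux_exists_rel {A K F : Type*} [CommRing A] [Field K] [Field F] [Algebra A K]
    [IsFractionRing A K] [Algebra K F] [Algebra A F] [IsScalarTower A K F] [FiniteDimensional K F]
    (n : ℕ) (hn : Module.finrank K F ≤ n) (v : Fin (n + 1) → F) :
    ∃ g : Fin (n + 1) → A, ∑ i, g i • v i = 0 ∧ ∃ i, g i ≠ 0 := by
  have h : ¬ LinearIndependent K v := fun h => by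
    have := h.fintype_card_le_finrank
    simp only [Fintype.card_fin] at this
    omega
  rw [← LinearIndependent.iff_fractionRing A K, Fintype.not_linearIndependent_iff] at h
  exact h

section Rel

variable (N ℓ : ℕ) [NeZero N] [Fact ℓ.Prime]

lemma keyAux_aeval_mem (a : Polynomial (Zl ℓ)) :
    (Polynomial.aeval (jFull N) a : ↥(modularFunctionFieldFull N)) ∈ ℚ⟮jFull N⟯ := by
  rw [← Polynomial.aeval_map_algebraMap ℚ]
  exact IntermediateField.algebra_adjoin_le_adjoin ℚ _
    (Polynomial.aeval_mem_adjoin_singleton ℚ (jFull N))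

lemma keyAux_rel (n : ℕ) (hfin : FiniteDimensional ℚ⟮jFull N⟯ ↥(modularFunctionFieldFull N))
    (hn : Module.finrank ℚ⟮jFull N⟯ ↥(modularFunctionFieldFull N) ≤ n)
    (v : Fin (n + 1) → ↥(modularFunctionFieldFull N)) :
    ∃ g : Fin (n + 1) → Polynomial (Zl ℓ),
      ∑ i, Polynomial.aeval (jFull N) (g i) * v i = 0 ∧ ∃ i, g i ≠ 0 := by
  let φ : Polynomial (Zl ℓ) →+* ↥(modularFunctionFieldFull N) := (Polynomial.aeval (jFull N) :
    Polynomial (Zl ℓ) →ₐ[Zl ℓ] ↥(modularFunctionFieldFull N)).toRingHom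
  let φ0 : Polynomial (Zl ℓ) →+* ↥ℚ⟮jFull N⟯ :=
    φ.codRestrict ℚ⟮jFull N⟯ (keyAux_aeval_mem N ℓ)
  letI : Algebra (Polynomial (Zl ℓ)) ↥ℚ⟮jFull N⟯ := φ0.toAlgebra
  letI : Algebra (Polynomial (Zl ℓ)) ↥(modularFunctionFieldFull N) := φ.toAlgebra
  haveI : IsScalarTower (Polynomial (Zl ℓ)) ↥ℚ⟮jFull N⟯ ↥(modularFunctionFieldFull N) :=
    IsScalarTower.of_algebraMap_eq' rfl
  haveI : FaithfulSMul (Polynomial (Zl ℓ)) ↥ℚ⟮jFull N⟯ := by
    rw [faithfulSMul_iff_algebraMap_injective]
    intro a b hab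
    exact aeval_jFull_injective N ℓ (congrArg Subtype.val hab)
  haveI : IsFractionRing (Polynomial (Zl ℓ)) ↥ℚ⟮jFull N⟯ := by
    refine IsFractionRing.of_field _ _ fun z => ?_
    obtain ⟨a, s, h⟩ := keyAux_frac N ℓ z.1 z.2
    exact ⟨a, s, Subtype.ext h⟩
  obtain ⟨g, hg, hi⟩ := keyAux_exists_rel (A := Polynomial (Zl ℓ)) (K := ↥ℚ⟮jFull N⟯) n hn v
  refine ⟨g, ?_, hi⟩
  rw [← hg]
  exact Finset.sum_congr rfl fun i _ => (Algebra.smul_def _ _).symm

end Rel

/-- extracting the largest power of a prime from a finite family -/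
lemma keyAux_prim {A ι : Type*} [CommRing A] [IsDomain A] [WfDvdMonoid A] (p : A)
    (hp : Irreducible p) (g : ι → A) (hg : ∃ i, g i ≠ 0) :
    ∃ (k : ℕ) (g' : ι → A), (∀ i, g i = p ^ k * g' i) ∧ ∃ i, ¬ p ∣ g' i := by
  obtain ⟨i0, hi0⟩ := hg
  obtain ⟨m, a, ha, hm⟩ := WfDvdMonoid.max_power_factor hi0 hp
  induction m generalizing g with
  | zero => exact ⟨0, g, fun i => by simp, i0, by rw [hm]; simpa using ha⟩
  | succ m ih =>
    by_cases hall : ∀ i, p ∣ g i
    · choose g1 hg1 using hall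
      have h1 : g1 i0 = p ^ m * a := by
        have : p * g1 i0 = p * (p ^ m * a) := by rw [← hg1, hm]; ring
        exact mul_left_cancel₀ hp.ne_zero this
      have h0 : g1 i0 ≠ 0 := by
        intro h
        apply hi0
        rw [hg1, h, mul_zero]
      obtain ⟨k, g', hk, hi⟩ := ih g1 h0 h1
      exact ⟨k + 1, g', fun i => by rw [hg1, hk]; ring, hi⟩
    · push Not at hall
      exact ⟨0, g, fun i => by simp, hall⟩

section Red

variable (ℓ : ℕ) [Fact ℓ.Prime]

lemma map_zlRed_eq_zero_iff (a : Polynomial (Zl ℓ)) :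
    a.map (zlRed ℓ) = 0 ↔ Polynomial.C (ℓ : Zl ℓ) ∣ a := by
  rw [Polynomial.C_dvd_iff_dvd_coeff, Polynomial.ext_iff]
  refine forall_congr' fun i => ?_
  rw [Polynomial.coeff_map, Polynomial.coeff_zero, zlRed_eq_zero_iff]

lemma map_map_zlRed_eq_zero_iff (P : Polynomial (Polynomial (Zl ℓ))) :
    P.map (Polynomial.mapRingHom (zlRed ℓ)) = 0 ↔
      Polynomial.C (Polynomial.C (ℓ : Zl ℓ)) ∣ P := by
  rw [Polynomial.C_dvd_iff_dvd_coeff, Polynomial.ext_iff]
  refine forall_congr' fun i => ?_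
  rw [Polynomial.coeff_map, Polynomial.coeff_zero, Polynomial.coe_mapRingHom,
    map_zlRed_eq_zero_iff]

end Red

section Main

variable (N ℓ : ℕ) [NeZero N] [Fact ℓ.Prime]

theorem key_div_aux (n : ℕ)
    (hirr : ∀ P : Polynomial (Polynomial (ZMod ℓ)), P ≠ 0 → P.natDegree < n →
      ev2 (ZMod ℓ) N P ≠ 0)
    (hfin : FiniteDimensional ℚ⟮jFull N⟯ ↥(modularFunctionFieldFull N))
    (hn : Module.finrank ℚ⟮jFull N⟯ ↥(modularFunctionFieldFull N) ≤ n)
    (x : ↥(modularFunctionFieldFull N)) (y : LaurentSeries (Zl ℓ))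
    (hy : coeffMap (GaloisRep.ratLocalizedAt ℓ).subtype y = (x : LaurentSeries ℚ))
    (hdiv : ∀ n, (ℓ : Zl ℓ) ∣ y.coeff n) :
    ∃ (b : Polynomial (Zl ℓ)) (P : Polynomial (Polynomial (Zl ℓ))),
      ¬ Polynomial.C (ℓ : Zl ℓ) ∣ b ∧
      Polynomial.aeval (jFull N) b * x = (ℓ : ↥(modularFunctionFieldFull N)) * evF N ℓ P := by
  classical
  obtain ⟨g, hg, hg0⟩ := keyAux_rel N ℓ n hfin hn
    (Fin.snoc (fun i : Fin n => jNFull N ^ (i : ℕ)) x)
  have hC : Irreducible (Polynomial.C (ℓ : Zl ℓ)) :=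
    (Polynomial.prime_C_iff.2 (zl_prime ℓ)).irreducible
  obtain ⟨k, g', hk, hi⟩ := keyAux_prim _ hC g hg0
  have hℓF : (ℓ : ↥(modularFunctionFieldFull N)) ≠ 0 := by
    exact_mod_cast (Fact.out : ℓ.Prime).ne_zero
  have hφC : Polynomial.aeval (jFull N) (Polynomial.C (ℓ : Zl ℓ)) =
      (ℓ : ↥(modularFunctionFieldFull N)) := by
    rw [Polynomial.aeval_C, map_natCast]
  -- the primitive relation
  have hrel : ∑ i : Fin n, Polynomial.aeval (jFull N) (g' i.castSucc) * jNFull N ^ (i : ℕ) +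
      Polynomial.aeval (jFull N) (g' (Fin.last n)) * x = 0 := by
    have h1 : (ℓ : ↥(modularFunctionFieldFull N)) ^ k *
        (∑ i : Fin n, Polynomial.aeval (jFull N) (g' i.castSucc) * jNFull N ^ (i : ℕ) +
          Polynomial.aeval (jFull N) (g' (Fin.last n)) * x) = 0 := by
      rw [← hg, Fin.sum_univ_castSucc, mul_add, Finset.mul_sum]
      congr 1
      · refine Finset.sum_congr rfl fun i _ => ?_
        rw [hk, map_mul, map_pow, hφC, Fin.snoc_castSucc, mul_assoc]
      · rw [hk, map_mul, map_pow, hφC, Fin.snoc_last, mul_assoc]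
    exact (mul_eq_zero.1 h1).resolve_left (pow_ne_zero _ hℓF)
  set Pa : Polynomial (Polynomial (Zl ℓ)) := Polynomial.ofFn n (fun i : Fin n => g' i.castSucc)
    with hPa
  have hevPa : evF N ℓ Pa =
      ∑ i : Fin n, Polynomial.aeval (jFull N) (g' i.castSucc) * jNFull N ^ (i : ℕ) := by
    rw [hPa, Polynomial.ofFn_eq_sum_monomial, map_sum]
    refine Finset.sum_congr rfl fun i _ => ?_
    simp [evF]
  rw [← hevPa] at hrel
  -- pass to expansions
  have hexp : ev2 (Zl ℓ) N Pa + Polynomial.aeval (jqModC (Zl ℓ)) (g' (Fin.last n)) * y = 0 := by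
    apply coeffMap_zl_injective ℓ
    rw [map_add, map_mul, map_zero, ← coe_evF, ← coe_aeval_jFull N, hy]
    exact congrArg Subtype.val hrel
  have hred : ev2 (ZMod ℓ) N (Pa.map (Polynomial.mapRingHom (zlRed ℓ))) = 0 := by
    have h1 := congrArg (coeffMap (zlRed ℓ)) hexp
    rwa [map_add, map_mul, map_zero, (coeffMap_zlRed_eq_zero_iff ℓ y).2 hdiv, mul_zero, add_zero,
      coeffMap_ev2] at h1
  have hPa0 : Pa.map (Polynomial.mapRingHom (zlRed ℓ)) = 0 := by
    by_contra h0
    refine hirr _ h0 ?_ hred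
    rw [Polynomial.natDegree_lt_iff_degree_lt h0]
    exact lt_of_le_of_lt Polynomial.degree_map_le (Polynomial.ofFn_degree_lt _)
  rw [map_map_zlRed_eq_zero_iff] at hPa0
  obtain ⟨P1, hP1⟩ := hPa0
  refine ⟨g' (Fin.last n), Polynomial.C (Polynomial.C (-1)) * P1, ?_, ?_⟩
  · intro hlast
    obtain ⟨i, hi⟩ := hi
    apply hi
    induction i using Fin.lastCases with
    | last => exact hlast
    | cast i =>
      have h1 : Pa.coeff (i : ℕ) = g' i.castSucc := by
        rw [hPa, Polynomial.ofFn_coeff_eq_val_of_lt _ i.2]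
      rw [← h1, hP1, Polynomial.coeff_C_mul]
      exact dvd_mul_right _ _
  · have h1 : evF N ℓ Pa = (ℓ : ↥(modularFunctionFieldFull N)) * evF N ℓ P1 := by
      rw [hP1, map_mul]
      congr 1
      simp [evF]
    have h2 : evF N ℓ (Polynomial.C (Polynomial.C (-1)) * P1) = - evF N ℓ P1 := by
      rw [map_mul]
      simp [evF]
    rw [h2, mul_neg, ← h1]
    exact eq_neg_of_add_eq_zero_right hrel

end Main

end Fermat.Agent.S28
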