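import Mathlib

/-!
# S28 (UFD): `p z` and `b z` integral, `p` prime, `p ∤ b`  ⇒  `z` integral
-/

set_option autoImplicit false

namespace Fermat.Agent.S28

open Polynomial

/-- the minimal polynomial of `u z` over a field is the scaled minimal polynomial of `z`. -/
theorem ufd_minpoly_mul {K F : Type*} [Field K] [Field F] [Algebra K F] (u : K) (hu : u ≠ 0) (z : F)
    (hz : IsIntegral K z) :
    minpoly K (algebraMap K F u * z) = (minpoly K z).scaleRoots u := by
  have hz' : IsIntegral K (algebraMap K F u * z) := isIntegral_algebraMap.mul hz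
  have h1 : minpoly K (algebraMap K F u * z) ∣ (minpoly K z).scaleRoots u :=
    minpoly.dvd _ _ (scaleRoots_aeval_eq_zero (minpoly.aeval K z))
  have h2 : minpoly K z ∣ (minpoly K (algebraMap K F u * z)).scaleRoots u⁻¹ := by
    refine minpoly.dvd _ _ ?_
    have := scaleRoots_aeval_eq_zero (r := u⁻¹) (minpoly.aeval K (algebraMap K F u * z))
    rwa [← mul_assoc, ← map_mul, inv_mul_cancel₀ hu, map_one, one_mul] at this
  have hm1 : ((minpoly K z).scaleRoots u).Monic := (monic_scaleRoots_iff u).mpr (minpoly.monic hz)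
  have hm2 : ((minpoly K (algebraMap K F u * z)).scaleRoots u⁻¹).Monic :=
    (monic_scaleRoots_iff _).mpr (minpoly.monic hz')
  have hdeg : ((minpoly K z).scaleRoots u).natDegree ≤
      (minpoly K (algebraMap K F u * z)).natDegree := by
    rw [natDegree_scaleRoots]
    have := natDegree_le_of_dvd h2 hm2.ne_zero
    rwa [natDegree_scaleRoots] at this
  exact (eq_of_monic_of_dvd_of_natDegree_le (minpoly.monic hz') hm1 h1 hdeg).symm

theorem coprime_integral {A F : Type*} [CommRing A] [IsDomain A] [IsIntegrallyClosed A] [Field F]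
    [Algebra A F] [FaithfulSMul A F] (p b : A) (hp : Prime p) (hb : ¬ p ∣ b) (z : F)
    (h1 : IsIntegral A (algebraMap A F p * z)) (h2 : IsIntegral A (algebraMap A F b * z)) :
    IsIntegral A z := by
  classical
  let K := FractionRing A
  letI : Algebra K F := FractionRing.liftAlgebra A F
  haveI : IsScalarTower A K F := FractionRing.isScalarTower_liftAlgebra A F
  have hinj : Function.Injective (algebraMap A K) := IsFractionRing.injective A K
  have hp0 : p ≠ 0 := hp.ne_zero
  have hb0 : b ≠ 0 := fun h => hb (h ▸ dvd_zero p)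
  have hpK : algebraMap A K p ≠ 0 := fun h => hp0 (hinj (by rw [h, map_zero]))
  have hbK : algebraMap A K b ≠ 0 := fun h => hb0 (hinj (by rw [h, map_zero]))
  -- `z` is integral over `K`
  have hzK : IsIntegral K z := by
    have h : IsIntegral K (algebraMap A F p * z) := h1.tower_top
    have h' : IsIntegral K (algebraMap K F (algebraMap A K p)⁻¹ * (algebraMap A F p * z)) :=
      isIntegral_algebraMap.mul h
    rwa [IsScalarTower.algebraMap_apply A K F, ← mul_assoc, ← map_mul, inv_mul_cancel₀ hpK, map_one,
      one_mul] at h'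
  set f := minpoly K z with hf
  -- coefficients of the scaled polynomials are in `A`
  have key : ∀ u : A, algebraMap A K u ≠ 0 → IsIntegral A (algebraMap A F u * z) →
      ∀ i, ∃ a : A, algebraMap A K a = f.coeff i * algebraMap A K u ^ (f.natDegree - i) := by
    intro u hu hint i
    have e1 := minpoly.isIntegrallyClosed_eq_field_fractions' K hint
    rw [IsScalarTower.algebraMap_apply A K F, ufd_minpoly_mul _ hu z hzK] at e1
    refine ⟨(minpoly A (algebraMap K F (algebraMap A K u) * z)).coeff i, ?_⟩
    rw [← coeff_map, ← e1, coeff_scaleRoots]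
  have hcoeff : ∀ i, ∃ a : A, algebraMap A K a = f.coeff i := by
    intro i
    obtain ⟨a₁, ha₁⟩ := key p hpK h1 i
    obtain ⟨a₂, ha₂⟩ := key b hbK h2 i
    set k := f.natDegree - i
    have e : a₁ * b ^ k = a₂ * p ^ k := by
      apply hinj
      rw [map_mul, map_mul, map_pow, map_pow, ha₁, ha₂]
      ring
    have hbk : ¬ p ∣ b ^ k := fun h => hb (hp.dvd_of_dvd_pow h)
    have hdvd : p ^ k ∣ a₁ := by
      refine hp.pow_dvd_of_dvd_mul_right k hbk ?_
      rw [e]; exact dvd_mul_left _ _
    obtain ⟨c, hc⟩ := hdvd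
    refine ⟨c, ?_⟩
    have : algebraMap A K c * algebraMap A K p ^ k = f.coeff i * algebraMap A K p ^ k := by
      rw [← ha₁, hc, map_mul, map_pow]; ring
    exact mul_right_cancel₀ (pow_ne_zero k hpK) this
  have hlifts : f ∈ Polynomial.lifts (algebraMap A K) :=
    (Polynomial.lifts_iff_coeff_lifts f).mpr fun i => hcoeff i
  obtain ⟨q, hq, -, hqm⟩ := Polynomial.lifts_and_natDegree_eq_and_monic hlifts (minpoly.monic hzK)
  refine ⟨q, hqm, ?_⟩
  have := minpoly.aeval K z
  rw [← hf, ← hq, aeval_def, eval₂_map, ← IsScalarTower.algebraMap_eq] at this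
  exact this

end Fermat.Agent.S28
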