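import Mathlib
import Fermat.Agent.S28.KeyAux
import Fermat.Agent.S28.UFD

/-!
# S28 (Igusa): elements of the charts whose expansion vanishes mod `ℓ` are divisible by `ℓ`
(with `key_div` and `exists_modPoly` as hypotheses)
-/

set_option autoImplicit false
set_option linter.unusedSectionVars false
set_option linter.style.haveILetI false

namespace Fermat.Agent.S28

open UpperHalfPlane ModularForm ModularCurve ModularCurve.IgusaScheme HahnSeries CongruenceSubgroup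
open Fermat.Agent.X0 Fermat.Agent.S24 IntermediateField
open AlgebraicGeometry CategoryTheory CategoryTheory.Limits
open scoped MatrixGroups Manifold Real TensorProduct

variable (N ℓ : ℕ) [NeZero N] [Fact ℓ.Prime]

/-- integrality over `ℤ_(ℓ)[t]` in terms of the polynomial ring -/
lemma chartsAux_mem_iff (t z : ↥(modularFunctionFieldFull N)) :
    z ∈ chartAlg N ℓ {t} ↔ ((Polynomial.aeval t :
      Polynomial (Zl ℓ) →ₐ[Zl ℓ] ↥(modularFunctionFieldFull N)).toRingHom).IsIntegralElem z := by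
  rw [mem_chartAlg_iff]
  have hmem : ∀ a : Polynomial (Zl ℓ), (Polynomial.aeval t :
      Polynomial (Zl ℓ) →ₐ[Zl ℓ] ↥(modularFunctionFieldFull N)).toRingHom a ∈
        Algebra.adjoin (Zl ℓ) {t} := fun a => Polynomial.aeval_mem_adjoin_singleton _ _
  let g : Polynomial (Zl ℓ) →+* ↥(Algebra.adjoin (Zl ℓ) ({t} : Set ↥(modularFunctionFieldFull N))) :=
    RingHom.codRestrict _ _ hmem
  have hg : Function.Surjective g := by
    rintro ⟨w, hw⟩
    rw [Algebra.adjoin_singleton_eq_range_aeval] at hw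
    obtain ⟨a, ha⟩ := hw
    exact ⟨a, Subtype.ext ha⟩
  constructor
  · rintro ⟨p, hp, hpz⟩
    obtain ⟨q, hq, -, hqm⟩ := Polynomial.lifts_and_natDegree_eq_and_monic
      (f := g) (p := p) (by
        rw [Polynomial.lifts_iff_coeff_lifts]
        intro n
        exact hg _) hp
    refine ⟨q, hqm, ?_⟩
    rw [← hpz, ← hq, Polynomial.eval₂_map]
    rfl
  · rintro ⟨q, hq, hqz⟩
    refine ⟨q.map g, hq.map g, ?_⟩
    rw [Polynomial.eval₂_map, ← hqz]
    rfl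

lemma chartsAux_coprime (t : ↥(modularFunctionFieldFull N))
    (ht : Function.Injective (Polynomial.aeval t :
      Polynomial (Zl ℓ) →ₐ[Zl ℓ] ↥(modularFunctionFieldFull N)))
    (b : Polynomial (Zl ℓ)) (hb : ¬ Polynomial.C (ℓ : Zl ℓ) ∣ b) (z : ↥(modularFunctionFieldFull N))
    (h1 : (ℓ : ↥(modularFunctionFieldFull N)) * z ∈ chartAlg N ℓ {t})
    (h2 : Polynomial.aeval t b * z ∈ chartAlg N ℓ {t}) : z ∈ chartAlg N ℓ {t} := by
  rw [chartsAux_mem_iff] at h1 h2 ⊢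
  letI : Algebra (Polynomial (Zl ℓ)) ↥(modularFunctionFieldFull N) := ((Polynomial.aeval t :
      Polynomial (Zl ℓ) →ₐ[Zl ℓ] ↥(modularFunctionFieldFull N)).toRingHom).toAlgebra
  haveI : FaithfulSMul (Polynomial (Zl ℓ)) ↥(modularFunctionFieldFull N) := by
    rw [faithfulSMul_iff_algebraMap_injective]
    exact ht
  refine coprime_integral (A := Polynomial (Zl ℓ)) (Polynomial.C (ℓ : Zl ℓ)) b
    (Polynomial.prime_C_iff.2 (zl_prime ℓ)) hb z ?_ h2
  have : algebraMap (Polynomial (Zl ℓ)) ↥(modularFunctionFieldFull N) (Polynomial.C (ℓ : Zl ℓ)) =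
      (ℓ : ↥(modularFunctionFieldFull N)) := by
    show Polynomial.aeval t (Polynomial.C (ℓ : Zl ℓ)) = _
    rw [Polynomial.aeval_C, map_natCast]
  rw [this]
  exact h1

/-- `j_N` is integral over `ℤ_(ℓ)[j]` -/
lemma chartsAux_jN_mem
    (hmod : ∃ Φ : Polynomial (Polynomial ℤ), Φ.Monic ∧ ev2 ℤ N Φ = 0) :
    jNFull N ∈ chartAlg N ℓ {jFull N} := by
  obtain ⟨Φ, hΦ, h0⟩ := hmod
  rw [chartsAux_mem_iff]
  refine ⟨Φ.map (Polynomial.mapRingHom (Int.castRingHom (Zl ℓ))), hΦ.map _, ?_⟩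
  have h1 : evF N ℓ (Φ.map (Polynomial.mapRingHom (Int.castRingHom (Zl ℓ)))) = 0 := by
    apply Subtype.ext
    rw [coe_evF, ← coeffMap_ev2, h0, map_zero, map_zero]
    rfl
  exact h1

lemma chartsAux_evF_mem
    (hmod : ∃ Φ : Polynomial (Polynomial ℤ), Φ.Monic ∧ ev2 ℤ N Φ = 0)
    (P : Polynomial (Polynomial (Zl ℓ))) : evF N ℓ P ∈ chartAlg N ℓ {jFull N} := by
  have h : evF N ℓ P = ∑ i ∈ Finset.range (P.natDegree + 1),
      Polynomial.aeval (jFull N) (P.coeff i) * jNFull N ^ i := Polynomial.eval₂_eq_sum_range _ _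
  rw [h]
  refine Subalgebra.sum_mem _ fun i _ => Subalgebra.mul_mem _ ?_
    (Subalgebra.pow_mem _ (chartsAux_jN_mem N ℓ hmod) i)
  exact adjoin_le_chartAlg N ℓ _ (Polynomial.aeval_mem_adjoin_singleton _ _)

/-- the statement of `key_div` -/
def KeyDiv : Prop :=
  ∀ (x : ↥(modularFunctionFieldFull N)) (y : LaurentSeries (Zl ℓ)),
    coeffMap (GaloisRep.ratLocalizedAt ℓ).subtype y = (x : LaurentSeries ℚ) →
    (∀ n, (ℓ : Zl ℓ) ∣ y.coeff n) →
    ∃ (b : Polynomial (Zl ℓ)) (P : Polynomial (Polynomial (Zl ℓ))),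
      ¬ Polynomial.C (ℓ : Zl ℓ) ∣ b ∧
      Polynomial.aeval (jFull N) b * x = (ℓ : ↥(modularFunctionFieldFull N)) * evF N ℓ P

lemma chartsAux_natCast_ne_zero : (ℓ : ↥(modularFunctionFieldFull N)) ≠ 0 := by
  exact_mod_cast (Fact.out : ℓ.Prime).ne_zero

/-- the finite chart, in terms of elements of the function field -/
lemma chartsAux_fin (hkey : KeyDiv N ℓ)
    (hmod : ∃ Φ : Polynomial (Polynomial ℤ), Φ.Monic ∧ ev2 ℤ N Φ = 0)
    (x : ↥(modularFunctionFieldFull N)) (hx : x ∈ chartAlg N ℓ {jFull N})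
    (y : LaurentSeries (Zl ℓ))
    (hy : coeffMap (GaloisRep.ratLocalizedAt ℓ).subtype y = (x : LaurentSeries ℚ))
    (hdiv : ∀ n, (ℓ : Zl ℓ) ∣ y.coeff n) :
    (ℓ : ↥(modularFunctionFieldFull N))⁻¹ * x ∈ chartAlg N ℓ {jFull N} := by
  obtain ⟨b, P, hb, hbP⟩ := hkey x y hy hdiv
  have hℓ := chartsAux_natCast_ne_zero N ℓ
  refine chartsAux_coprime N ℓ (jFull N) (aeval_jFull_injective N ℓ) b hb _ ?_ ?_
  · rwa [mul_inv_cancel_left₀ hℓ]
  · have : Polynomial.aeval (jFull N) b * ((ℓ : ↥(modularFunctionFieldFull N))⁻¹ * x) =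
        evF N ℓ P := by
      rw [mul_left_comm, hbP, inv_mul_cancel_left₀ hℓ]
    rw [this]
    exact chartsAux_evF_mem N ℓ hmod P

/-- the middle chart -/
lemma chartsAux_mid (hkey : KeyDiv N ℓ)
    (hmod : ∃ Φ : Polynomial (Polynomial ℤ), Φ.Monic ∧ ev2 ℤ N Φ = 0)
    (x : ↥(modularFunctionFieldFull N)) (hx : x ∈ chartAlg N ℓ {jFull N, (jFull N)⁻¹})
    (y : LaurentSeries (Zl ℓ))
    (hy : coeffMap (GaloisRep.ratLocalizedAt ℓ).subtype y = (x : LaurentSeries ℚ))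
    (hdiv : ∀ n, (ℓ : Zl ℓ) ∣ y.coeff n) :
    (ℓ : ↥(modularFunctionFieldFull N))⁻¹ * x ∈ chartAlg N ℓ {jFull N, (jFull N)⁻¹} := by
  have hj0 := jFull_ne_zero N
  obtain ⟨n, hn⟩ := exists_pow_mul_mem_chartAlg (N := N) (ℓ := ℓ) (S := {jFull N}) (s := jFull N)
    rfl hj0 (x := x) (by rwa [Set.pair_comm] at hx)
  have h1 := chartsAux_fin N ℓ hkey hmod (jFull N ^ n * x) hn (jqModC (Zl ℓ) ^ n * y) (by
      rw [map_mul, map_pow, hy, keyAux_coeffMap_jqModC]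
      rfl) (by
      rw [← coeffMap_zlRed_eq_zero_iff, map_mul, (coeffMap_zlRed_eq_zero_iff ℓ y).2 hdiv, mul_zero])
  have h2 : (ℓ : ↥(modularFunctionFieldFull N))⁻¹ * x =
      (jFull N)⁻¹ ^ n * ((ℓ : ↥(modularFunctionFieldFull N))⁻¹ * (jFull N ^ n * x)) := by
    rw [inv_pow]
    field_simp
  rw [h2]
  exact Subalgebra.mul_mem _ (Subalgebra.pow_mem _ (subset_chartAlg N ℓ _ (by simp)) n)
    (chartAlg_mono N ℓ (sFin_subset N) h1)

lemma aeval_jFull_inv_injective : Function.Injective (Polynomial.aeval (jFull N)⁻¹ :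
    Polynomial (Zl ℓ) →ₐ[Zl ℓ] ↥(modularFunctionFieldFull N)) := by
  rw [← transcendental_iff_injective, Transcendental, IsAlgebraic.inv_iff, ← Transcendental,
    transcendental_iff_injective]
  exact aeval_jFull_injective N ℓ

/-- the chart at infinity -/
lemma chartsAux_inf (hkey : KeyDiv N ℓ)
    (hmod : ∃ Φ : Polynomial (Polynomial ℤ), Φ.Monic ∧ ev2 ℤ N Φ = 0)
    (x : ↥(modularFunctionFieldFull N)) (hx : x ∈ chartAlg N ℓ {(jFull N)⁻¹})
    (y : LaurentSeries (Zl ℓ))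
    (hy : coeffMap (GaloisRep.ratLocalizedAt ℓ).subtype y = (x : LaurentSeries ℚ))
    (hdiv : ∀ n, (ℓ : Zl ℓ) ∣ y.coeff n) :
    (ℓ : ↥(modularFunctionFieldFull N))⁻¹ * x ∈ chartAlg N ℓ {(jFull N)⁻¹} := by
  have hj0 := jFull_ne_zero N
  have hℓ := chartsAux_natCast_ne_zero N ℓ
  have h1 := chartsAux_mid N ℓ hkey hmod x (chartAlg_mono N ℓ (sInf_subset N) hx) y hy hdiv
  obtain ⟨m, hm⟩ := exists_pow_mul_mem_chartAlg (N := N) (ℓ := ℓ) (S := {(jFull N)⁻¹})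
    (s := (jFull N)⁻¹) rfl (inv_ne_zero hj0) (x := (ℓ : ↥(modularFunctionFieldFull N))⁻¹ * x)
    (by rwa [inv_inv])
  refine chartsAux_coprime N ℓ (jFull N)⁻¹ (aeval_jFull_inv_injective N ℓ) (Polynomial.X ^ m) ?_ _
    ?_ ?_
  · intro h
    rw [Polynomial.C_dvd_iff_dvd_coeff] at h
    have h2 := h m
    rw [Polynomial.coeff_X_pow_self] at h2
    exact (zl_prime ℓ).not_isUnit (isUnit_of_dvd_one h2)
  · rwa [mul_inv_cancel_left₀ hℓ]
  · rwa [map_pow, Polynomial.aeval_X]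

lemma chartsAux_div (S : Set ↥(modularFunctionFieldFull N)) (x : chartAlg N ℓ S)
    (h : (ℓ : ↥(modularFunctionFieldFull N))⁻¹ * (x : ↥(modularFunctionFieldFull N)) ∈
      chartAlg N ℓ S) :
    ∃ x' : chartAlg N ℓ S, x = (ℓ : chartAlg N ℓ S) * x' := by
  refine ⟨⟨_, h⟩, Subtype.ext ?_⟩
  have h1 : (((ℓ : chartAlg N ℓ S)) : ↥(modularFunctionFieldFull N)) =
      (ℓ : ↥(modularFunctionFieldFull N)) := map_natCast (chartAlg N ℓ S).val ℓ
  rw [Subalgebra.coe_mul, h1]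
  exact (mul_inv_cancel_left₀ (chartsAux_natCast_ne_zero N ℓ) _).symm

theorem chartFin_div_aux (hkey : KeyDiv N ℓ)
    (hmod : ∃ Φ : Polynomial (Polynomial ℤ), Φ.Monic ∧ ev2 ℤ N Φ = 0) (x : chartAlgFin N ℓ)
    (y : LaurentSeries (Zl ℓ))
    (hy : coeffMap (GaloisRep.ratLocalizedAt ℓ).subtype y =
      ((x : ↥(modularFunctionFieldFull N)) : LaurentSeries ℚ))
    (hdiv : ∀ n, (ℓ : Zl ℓ) ∣ y.coeff n) :
    ∃ x' : chartAlgFin N ℓ, x = (ℓ : chartAlgFin N ℓ) * x' :=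
  chartsAux_div N ℓ _ x (chartsAux_fin N ℓ hkey hmod x x.2 y hy hdiv)

theorem chartInf_div_aux (hkey : KeyDiv N ℓ)
    (hmod : ∃ Φ : Polynomial (Polynomial ℤ), Φ.Monic ∧ ev2 ℤ N Φ = 0) (x : chartAlgInf N ℓ)
    (y : LaurentSeries (Zl ℓ))
    (hy : coeffMap (GaloisRep.ratLocalizedAt ℓ).subtype y =
      ((x : ↥(modularFunctionFieldFull N)) : LaurentSeries ℚ))
    (hdiv : ∀ n, (ℓ : Zl ℓ) ∣ y.coeff n) :
    ∃ x' : chartAlgInf N ℓ, x = (ℓ : chartAlgInf N ℓ) * x' :=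
  chartsAux_div N ℓ _ x (chartsAux_inf N ℓ hkey hmod x x.2 y hy hdiv)

theorem chartMid_div_aux (hkey : KeyDiv N ℓ)
    (hmod : ∃ Φ : Polynomial (Polynomial ℤ), Φ.Monic ∧ ev2 ℤ N Φ = 0) (x : chartAlgMid N ℓ)
    (y : LaurentSeries (Zl ℓ))
    (hy : coeffMap (GaloisRep.ratLocalizedAt ℓ).subtype y =
      ((x : ↥(modularFunctionFieldFull N)) : LaurentSeries ℚ))
    (hdiv : ∀ n, (ℓ : Zl ℓ) ∣ y.coeff n) :
    ∃ x' : chartAlgMid N ℓ, x = (ℓ : chartAlgMid N ℓ) * x' :=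
  chartsAux_div N ℓ _ x (chartsAux_mid N ℓ hkey hmod x x.2 y hy hdiv)

end Fermat.Agent.S28
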