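import Mathlib
import Fermat.Agent.S28.Defs

/-!
# S28 (W10): elements of the charts have `ℓ`-integral `q`-expansions
-/

set_option autoImplicit false

namespace Fermat.Agent.S28

open ModularCurve ModularCurve.IgusaScheme HahnSeries

/-- Laurent series over `ℚ` with `ℓ`-integral coefficients -/
noncomputable def closedRL (ℓ : ℕ) : Subring (LaurentSeries ℚ) :=
  (coeffMap (GaloisRep.ratLocalizedAt ℓ).subtype).range

theorem closed_mem_RL_iff (ℓ : ℕ) (f : LaurentSeries ℚ) :
    f ∈ closedRL ℓ ↔ ∀ n, f.coeff n ∈ GaloisRep.ratLocalizedAt ℓ := by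
  constructor
  · rintro ⟨g, rfl⟩ n
    exact (g.coeff n).2
  · intro h
    refine ⟨⟨fun n => ⟨f.coeff n, h n⟩, f.isPWO_support.mono fun n hn => ?_⟩, ?_⟩
    · simp only [Function.mem_support, ne_eq, HahnSeries.mem_support] at hn ⊢
      intro h0
      exact hn (Subtype.ext h0)
    · ext n
      rfl

theorem closed_coeffMap_injective (ℓ : ℕ) :
    Function.Injective (coeffMap (GaloisRep.ratLocalizedAt ℓ).subtype) := by
  intro f g h
  ext n
  have := congrArg (fun s => s.coeff n) h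
  exact this

theorem closed_mem_iff_padic (ℓ : ℕ) [Fact ℓ.Prime] {a : ℚ} (_ha : a ≠ 0) :
    a ∈ GaloisRep.ratLocalizedAt ℓ ↔ 0 ≤ padicValRat ℓ a := by
  have hℓ : ℓ.Prime := Fact.out
  change a.den.Coprime ℓ ↔ _
  rw [padicValRat]
  constructor
  · intro h
    have h1 : padicValNat ℓ a.den = 0 := by
      apply padicValNat.eq_zero_of_not_dvd
      intro hd
      exact (Nat.Prime.coprime_iff_not_dvd hℓ).mp h.symm hd
    rw [h1]
    simp
  · intro h
    by_contra hc
    have hd : ℓ ∣ a.den := by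
      by_contra hd
      exact hc ((Nat.Prime.coprime_iff_not_dvd hℓ).mpr hd).symm
    have h1 : 1 ≤ padicValNat ℓ a.den :=
      one_le_padicValNat_of_dvd a.den_ne_zero hd
    have h2 : padicValInt ℓ a.num = 0 := by
      apply padicValInt.eq_zero_of_not_dvd
      intro hn
      have h3 : ℓ ∣ a.num.natAbs := Int.natCast_dvd.mp hn
      have h4 := Nat.dvd_gcd h3 hd
      rw [a.reduced] at h4
      exact hℓ.one_lt.ne' (Nat.dvd_one.mp h4)
    rw [h2] at h
    omega

theorem closed_val (ℓ : ℕ) [Fact ℓ.Prime] (α c₀ : ℚ) (hα : α ∉ GaloisRep.ratLocalizedAt ℓ)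
    (hc : c₀ ≠ 0) (h : ∀ k : ℕ, c₀ * α ^ k ∈ GaloisRep.ratLocalizedAt ℓ) : False := by
  have hα0 : α ≠ 0 := fun h0 => hα (h0 ▸ Subring.zero_mem _)
  have h1 : padicValRat ℓ α < 0 := by
    rw [closed_mem_iff_padic ℓ hα0] at hα
    omega
  have h2 : ∀ k : ℕ, 0 ≤ padicValRat ℓ c₀ + k * padicValRat ℓ α := by
    intro k
    have := (closed_mem_iff_padic ℓ (mul_ne_zero hc (pow_ne_zero k hα0))).mp (h k)
    rwa [padicValRat.mul hc (pow_ne_zero k hα0), padicValRat.pow α] at this
  have h3 := h2 ((padicValRat ℓ c₀).toNat + 1)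
  have h4 : padicValRat ℓ c₀ ≤ (padicValRat ℓ c₀).toNat := Int.self_le_toNat _
  push_cast at h3
  nlinarith

theorem closed_leadingCoeff_pow (x : LaurentSeries ℚ) (k : ℕ) :
    (x ^ k).leadingCoeff = x.leadingCoeff ^ k := by
  induction k with
  | zero => simp
  | succ k ih => rw [pow_succ, leadingCoeff_mul, ih, pow_succ]

theorem laurent_closed (ℓ : ℕ) [Fact ℓ.Prime] (x c : LaurentSeries ℚ) (hc : c ≠ 0)
    (h : ∀ k : ℕ, ∀ n, (c * x ^ k).coeff n ∈ GaloisRep.ratLocalizedAt ℓ) :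
    ∀ n, x.coeff n ∈ GaloisRep.ratLocalizedAt ℓ := by
  by_contra hcon
  push Not at hcon
  let B : Set ℤ := {n | x.coeff n ∉ GaloisRep.ratLocalizedAt ℓ}
  have hB : B ⊆ x.support := by
    intro n hn
    rw [HahnSeries.mem_support]
    intro h0
    exact hn (h0 ▸ Subring.zero_mem _)
  have hBwf : B.IsWF := x.isWF_support.mono hB
  have hBne : B.Nonempty := hcon
  let n₀ := hBwf.min hBne
  have hn₀ : x.coeff n₀ ∉ GaloisRep.ratLocalizedAt ℓ := hBwf.min_mem hBne
  have hlt : ∀ n, n < n₀ → x.coeff n ∈ GaloisRep.ratLocalizedAt ℓ := by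
    intro n hn
    by_contra hn'
    exact hBwf.not_lt_min hBne hn' hn
  let x₀ := truncLT n₀ x
  have hx₀ : x₀ ∈ closedRL ℓ := by
    rw [closed_mem_RL_iff]
    intro n
    rw [HahnSeries.coeff_truncLT]
    split_ifs with hn
    · exact hlt n hn
    · exact Subring.zero_mem _
  let x₁ := x - x₀
  have hx₁c : ∀ n, x₁.coeff n = if n < n₀ then 0 else x.coeff n := by
    intro n
    change x.coeff n - (truncLT n₀ x).coeff n = _
    rw [HahnSeries.coeff_truncLT]
    split_ifs <;> simp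
  have hα0 : x.coeff n₀ ≠ 0 := fun h0 => hn₀ (h0 ▸ Subring.zero_mem _)
  have hx₁0 : x₁ ≠ 0 := by
    intro h0
    have := hx₁c n₀
    rw [h0] at this
    simp at this
    exact hα0 this.symm
  have hord : x₁.order = n₀ := by
    apply le_antisymm
    · apply order_le_of_coeff_ne_zero
      rw [hx₁c]
      simpa using hα0
    · by_contra hlt'
      push Not at hlt'
      have h1 := hx₁c x₁.order
      rw [if_pos hlt'] at h1
      exact hx₁0 (coeff_order_eq_zero.mp h1)
  have hlead : x₁.leadingCoeff = x.coeff n₀ := by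
    rw [leadingCoeff_eq, hord, hx₁c]
    simp
  have hmem : ∀ k : ℕ, c * x₁ ^ k ∈ closedRL ℓ := by
    intro k
    have e : c * x₁ ^ k = ∑ m ∈ Finset.range (k + 1), (c * x ^ m) * (-x₀) ^ (k - m) * (k.choose m) := by
      change c * (x - x₀) ^ k = _
      rw [sub_eq_add_neg, add_pow, Finset.mul_sum]
      refine Finset.sum_congr rfl fun m _ => ?_
      ring
    rw [e]
    refine Subring.sum_mem _ fun m _ => ?_
    refine Subring.mul_mem _ (Subring.mul_mem _ ?_ (Subring.pow_mem _ (Subring.neg_mem _ hx₀) _))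
      (natCast_mem _ _)
    rw [closed_mem_RL_iff]
    exact h m
  refine closed_val ℓ (x.coeff n₀) c.leadingCoeff hn₀ (leadingCoeff_ne_zero.mpr hc) fun k => ?_
  have h1 := (closed_mem_RL_iff ℓ _).mp (hmem k) (c * x₁ ^ k).order
  rwa [← leadingCoeff_eq, leadingCoeff_mul, closed_leadingCoeff_pow, hlead] at h1

theorem closed_jq_mem (ℓ : ℕ) : jq ∈ closedRL ℓ :=
  ⟨jqModC _, map_jqModC (GaloisRep.ratLocalizedAt ℓ).subtype⟩

theorem closed_jq_inv_mem (ℓ : ℕ) : jq⁻¹ ∈ closedRL ℓ := by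
  let R := ↥(GaloisRep.ratLocalizedAt ℓ)
  let u : PowerSeries R := jNum.map (Int.castRingHom R)
  have hu : PowerSeries.constantCoeff u = ((1 : Rˣ) : R) := by
    rw [← PowerSeries.coeff_zero_eq_constantCoeff_apply, PowerSeries.coeff_map,
      PowerSeries.coeff_zero_eq_constantCoeff_apply, constantCoeff_jNum]
    simp
  have huu : u * u.invOfUnit 1 = 1 := PowerSeries.mul_invOfUnit u 1 hu
  let g : LaurentSeries R := HahnSeries.single (1 : ℤ) 1 * HahnSeries.ofPowerSeries ℤ R (u.invOfUnit 1)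
  have hg : jqModC R * g = 1 := by
    change HahnSeries.single (-1 : ℤ) 1 * HahnSeries.ofPowerSeries ℤ R u *
      (HahnSeries.single (1 : ℤ) 1 * HahnSeries.ofPowerSeries ℤ R (u.invOfUnit 1)) = 1
    have e : ∀ a b c d : LaurentSeries R, a * b * (c * d) = (a * c) * (b * d) := by
      intro a b c d; ring
    have h1 : HahnSeries.single (-1 : ℤ) (1 : R) * HahnSeries.single (1 : ℤ) 1 = 1 := by
      rw [HahnSeries.single_mul_single]
      simp
    have h2 : HahnSeries.ofPowerSeries ℤ R u * HahnSeries.ofPowerSeries ℤ R (u.invOfUnit 1) = 1 := by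
      rw [← map_mul, huu, map_one]
    rw [e, h1, h2, one_mul]
  refine ⟨g, ?_⟩
  have h1 := congrArg (coeffMap (GaloisRep.ratLocalizedAt ℓ).subtype) hg
  rw [map_mul, map_one] at h1
  have h2 : coeffMap (GaloisRep.ratLocalizedAt ℓ).subtype (jqModC R) = jq :=
    map_jqModC (GaloisRep.ratLocalizedAt ℓ).subtype
  rw [h2] at h1
  exact (inv_eq_of_mul_eq_one_right h1).symm

theorem closed_qExpand_mem (ℓ d : ℕ) [NeZero d] {f : LaurentSeries ℚ} (hf : f ∈ closedRL ℓ) :
    qExpand ℚ d f ∈ closedRL ℓ := by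
  rw [closed_mem_RL_iff] at hf ⊢
  intro n
  by_cases hn : (d : ℤ) ∣ n
  · obtain ⟨m, rfl⟩ := hn
    rw [qExpand_coeff_mul]
    exact hf m
  · rw [qExpand_coeff_of_not_dvd d f hn]
    exact Subring.zero_mem _

theorem closed_algebraMap_mem (ℓ : ℕ) {c : ℚ} (hc : c ∈ GaloisRep.ratLocalizedAt ℓ) :
    algebraMap ℚ (LaurentSeries ℚ) c ∈ closedRL ℓ := by
  rw [closed_mem_RL_iff, algebraMap_apply_eq_single]
  intro n
  rw [HahnSeries.coeff_single]
  split_ifs
  · exact hc
  · exact Subring.zero_mem _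

theorem closed_exists_denom (N ℓ : ℕ) [NeZero N] (x : LaurentSeries ℚ)
    (hx : x ∈ modularFunctionFieldFull N) :
    ∃ b ∈ closedRL ℓ, b ≠ 0 ∧ b * x ∈ closedRL ℓ := by
  unfold modularFunctionFieldFull at hx
  induction hx using IntermediateField.adjoin_induction with
  | mem y hy =>
    obtain ⟨d, hne, hd, rfl⟩ := hy
    exact ⟨1, Subring.one_mem _, one_ne_zero, by
      rw [one_mul]; exact closed_qExpand_mem ℓ d (closed_jq_mem ℓ)⟩
  | algebraMap c =>
    refine ⟨(c.den : LaurentSeries ℚ), natCast_mem _ _, ?_, ?_⟩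
    · rw [← map_natCast (algebraMap ℚ (LaurentSeries ℚ)), Ne,
        map_eq_zero_iff _ (algebraMap ℚ (LaurentSeries ℚ)).injective]
      exact_mod_cast c.den_ne_zero
    · have e : (c.den : LaurentSeries ℚ) * algebraMap ℚ (LaurentSeries ℚ) c =
          (c.num : LaurentSeries ℚ) := by
        rw [← map_natCast (algebraMap ℚ (LaurentSeries ℚ)), ← map_mul,
          ← map_intCast (algebraMap ℚ (LaurentSeries ℚ))]
        congr 1
        rw [mul_comm]
        exact Rat.mul_den_eq_num c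
      rw [e]
      exact intCast_mem _ _
  | add y z _ _ hy hz =>
    obtain ⟨b, hb, hb0, hby⟩ := hy
    obtain ⟨b', hb', hb0', hbz⟩ := hz
    refine ⟨b * b', Subring.mul_mem _ hb hb', mul_ne_zero hb0 hb0', ?_⟩
    have e : b * b' * (y + z) = b' * (b * y) + b * (b' * z) := by ring
    rw [e]
    exact Subring.add_mem _ (Subring.mul_mem _ hb' hby) (Subring.mul_mem _ hb hbz)
  | inv y _ hy =>
    obtain ⟨b, hb, hb0, hby⟩ := hy
    rcases eq_or_ne y 0 with rfl | hy0
    · exact ⟨1, Subring.one_mem _, one_ne_zero, by simp⟩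
    · refine ⟨b * y, hby, mul_ne_zero hb0 hy0, ?_⟩
      rw [mul_assoc, mul_inv_cancel₀ hy0, mul_one]
      exact hb
  | mul y z _ _ hy hz =>
    obtain ⟨b, hb, hb0, hby⟩ := hy
    obtain ⟨b', hb', hb0', hbz⟩ := hz
    refine ⟨b * b', Subring.mul_mem _ hb hb', mul_ne_zero hb0 hb0', ?_⟩
    have e : b * b' * (y * z) = (b * y) * (b' * z) := by ring
    rw [e]
    exact Subring.mul_mem _ hby hbz

/-- an element of `ℚ((q))` with a denominator, integral over `ℤ_(ℓ)((q))`, lies in it -/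
theorem closed_of_isIntegral (ℓ : ℕ) [Fact ℓ.Prime] (x b : LaurentSeries ℚ) (hb : b ∈ closedRL ℓ)
    (hb0 : b ≠ 0) (hbx : b * x ∈ closedRL ℓ) (hx : IsIntegral (closedRL ℓ) x) :
    x ∈ closedRL ℓ := by
  obtain ⟨p, hp, hroot⟩ := hx
  have hroot' : Polynomial.aeval x p = 0 := hroot
  rw [closed_mem_RL_iff]
  refine laurent_closed ℓ x (b ^ p.natDegree) (pow_ne_zero _ hb0) fun k => ?_
  rw [← closed_mem_RL_iff]
  rcases eq_or_ne p 1 with rfl | hp1
  · simp at hroot'
  have h1 : x ^ k = Polynomial.aeval x (Polynomial.X ^ k %ₘ p) := by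
    rw [Polynomial.aeval_modByMonic_eq_self_of_root hroot']
    simp
  have h2 := Polynomial.natDegree_modByMonic_lt (Polynomial.X ^ k) hp hp1
  rw [h1, Polynomial.aeval_eq_sum_range' h2, Finset.mul_sum]
  refine Subring.sum_mem _ fun i hi => ?_
  rw [Finset.mem_range] at hi
  have e : b ^ p.natDegree * ((Polynomial.X ^ k %ₘ p).coeff i • x ^ i) =
      ((Polynomial.X ^ k %ₘ p).coeff i : LaurentSeries ℚ) *
        (b ^ (p.natDegree - i) * (b * x) ^ i) := by
    rw [Subring.smul_def, smul_eq_mul, mul_pow]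
    have : b ^ p.natDegree = b ^ (p.natDegree - i) * b ^ i := by
      rw [← _root_.pow_add, Nat.sub_add_cancel hi.le]
    rw [this]
    ring
  rw [e]
  exact Subring.mul_mem _ (Subtype.mem _)
    (Subring.mul_mem _ (Subring.pow_mem _ hb _) (Subring.pow_mem _ hbx _))

/-- two ring homomorphisms from `ℤ_(ℓ)` to `ℚ((q))` agree -/
theorem closed_ringHom_eq (ℓ : ℕ) (ψ ψ' : Zl ℓ →+* LaurentSeries ℚ) (a : Zl ℓ) : ψ a = ψ' a := by
  have h1 : ((a : ℚ).den : Zl ℓ) * a = ((a : ℚ).num : Zl ℓ) := by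
    apply Subtype.ext
    push_cast
    rw [mul_comm]
    exact Rat.mul_den_eq_num _
  have h2 := congrArg ψ h1
  have h3 := congrArg ψ' h1
  rw [map_mul, map_natCast, map_intCast] at h2 h3
  have h0 : (((a : ℚ).den : ℕ) : LaurentSeries ℚ) ≠ 0 := by
    rw [← map_natCast (algebraMap ℚ (LaurentSeries ℚ)), Ne,
      map_eq_zero_iff _ (algebraMap ℚ (LaurentSeries ℚ)).injective]
    exact_mod_cast (a : ℚ).den_ne_zero
  exact mul_left_cancel₀ h0 (h2.trans h3.symm)

theorem closed_coe_algebraMap (N ℓ : ℕ) [NeZero N] [Fact ℓ.Prime] (a : Zl ℓ) :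
    ((algebraMap (Zl ℓ) ↥(modularFunctionFieldFull N) a : ↥(modularFunctionFieldFull N)) :
      LaurentSeries ℚ) = algebraMap ℚ (LaurentSeries ℚ) (a : ℚ) :=
  closed_ringHom_eq ℓ
    ((SubringClass.subtype (modularFunctionFieldFull N)).comp
      (algebraMap (Zl ℓ) ↥(modularFunctionFieldFull N)))
    ((algebraMap ℚ (LaurentSeries ℚ)).comp (GaloisRep.ratLocalizedAt ℓ).subtype) a

theorem closed_adjoin_mem (N ℓ : ℕ) [NeZero N] [Fact ℓ.Prime]
    (S : Set ↥(modularFunctionFieldFull N)) (hS : S ⊆ {jFull N, (jFull N)⁻¹})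
    (y : ↥(modularFunctionFieldFull N)) (hy : y ∈ Algebra.adjoin (Zl ℓ) S) :
    (y : LaurentSeries ℚ) ∈ closedRL ℓ := by
  induction hy using Algebra.adjoin_induction with
  | mem y hy =>
    rcases hS hy with rfl | rfl
    · exact closed_jq_mem ℓ
    · exact closed_jq_inv_mem ℓ
  | algebraMap a =>
    rw [closed_coe_algebraMap]
    exact closed_algebraMap_mem ℓ a.2
  | add y z _ _ hy hz => exact Subring.add_mem _ hy hz
  | mul y z _ _ hy hz => exact Subring.mul_mem _ hy hz

theorem closed_chart_mem (N ℓ : ℕ) [NeZero N] [Fact ℓ.Prime]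
    (S : Set ↥(modularFunctionFieldFull N)) (hS : S ⊆ {jFull N, (jFull N)⁻¹})
    (x : ↥(modularFunctionFieldFull N)) (hx : x ∈ chartAlg N ℓ S) :
    (x : LaurentSeries ℚ) ∈ closedRL ℓ := by
  obtain ⟨b, hb, hb0, hbx⟩ := closed_exists_denom N ℓ x x.2
  refine closed_of_isIntegral ℓ x b hb hb0 hbx ?_
  have hx' : IsIntegral (Algebra.adjoin (Zl ℓ) S) x := hx
  let φ : Algebra.adjoin (Zl ℓ) S →+* closedRL ℓ :=
    ((SubringClass.subtype (modularFunctionFieldFull N)).comp
      (SubringClass.subtype (Algebra.adjoin (Zl ℓ) S))).codRestrict (closedRL ℓ)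
      (fun y => closed_adjoin_mem N ℓ S hS y y.2)
  exact hx'.map_of_comp_eq φ (SubringClass.subtype (modularFunctionFieldFull N)) (by ext; rfl)

theorem exists_chartExp (N ℓ : ℕ) [NeZero N] [Fact ℓ.Prime]
    (S : Set ↥(modularFunctionFieldFull N)) (hS : S ⊆ {jFull N, (jFull N)⁻¹}) :
    ∃ ρ : chartAlg N ℓ S →ₐ[Zl ℓ] LaurentSeries (Zl ℓ),
      ∀ x, coeffMap (GaloisRep.ratLocalizedAt ℓ).subtype (ρ x) =
        ((x : ↥(modularFunctionFieldFull N)) : LaurentSeries ℚ) := by
  have hmem : ∀ x : chartAlg N ℓ S, ∃ g : LaurentSeries (Zl ℓ),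
      coeffMap (GaloisRep.ratLocalizedAt ℓ).subtype g =
        ((x : ↥(modularFunctionFieldFull N)) : LaurentSeries ℚ) :=
    fun x => closed_chart_mem N ℓ S hS x x.2
  choose ρ hρ using hmem
  have hinj := closed_coeffMap_injective ℓ
  refine ⟨{ toFun := ρ
            map_one' := hinj (by rw [hρ, map_one]; rfl)
            map_mul' := fun x y => hinj (by rw [hρ, map_mul, hρ, hρ]; rfl)
            map_zero' := hinj (by rw [hρ, map_zero]; rfl)
            map_add' := fun x y => hinj (by rw [hρ, map_add, hρ, hρ]; rfl)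
            commutes' := fun a => hinj (by
              rw [hρ]
              exact closed_ringHom_eq ℓ
                ((SubringClass.subtype (modularFunctionFieldFull N)).comp
                  ((SubringClass.subtype (chartAlg N ℓ S)).comp
                    (algebraMap (Zl ℓ) ↥(chartAlg N ℓ S))))
                ((coeffMap (GaloisRep.ratLocalizedAt ℓ).subtype).comp
                  (algebraMap (Zl ℓ) (LaurentSeries (Zl ℓ)))) a) }, hρ⟩

end Fermat.Agent.S28
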