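import Mathlib
import Fermat.Agent.S28.Defs
import Fermat.Agent.S24.Degree

/-!
# S28 (W9): the degree of the function field of `X₀(N)` over `ℚ(j)` is at most `ψ(N)`
-/

set_option autoImplicit false
set_option maxHeartbeats 1000000

namespace Fermat.Agent.S28

open UpperHalfPlane ModularForm ModularCurve ModularCurve.IgusaScheme HahnSeries CongruenceSubgroup
open Fermat.Agent.X0 Fermat.Agent.S24 IntermediateField
open scoped MatrixGroups Manifold

variable (N : ℕ) [NeZero N]

/-- the generators `j(q^d)` of the function field over `ℚ` -/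
noncomputable def degQGen (d : Dv N) : ↥(modularFunctionFieldFull N) :=
  ⟨qExpand ℚ d.1 jq, jqd_mem_full N d.2⟩

/-- polynomials in the generators -/
noncomputable def degQPi : MvPolynomial (Dv N) ℚ →ₐ[ℚ] ↥(modularFunctionFieldFull N) :=
  MvPolynomial.aeval (degQGen N)

/-- the tautological embedding in `ℂ((q))` -/
noncomputable def degQS0 : ↥(modularFunctionFieldFull N) →+* LaurentSeries ℂ :=
  (coeffMap (algebraMap ℚ ℂ)).comp (algebraMap ↥(modularFunctionFieldFull N) (LaurentSeries ℚ))

theorem degQ_iotaC_comp : iotaC.comp (algebraMap ℚ Kb) = algebraMap ℚ ℂ :=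
  RingHom.ext fun r => by simp

omit [NeZero N] in
theorem degQ_coe_algebraMap (a : ℚ) :
    ((algebraMap ℚ ↥(modularFunctionFieldFull N) a : ↥(modularFunctionFieldFull N)) :
      LaurentSeries ℚ) = algebraMap ℚ (LaurentSeries ℚ) a :=
  RingHom.congr_fun (Subsingleton.elim
    ((algebraMap ↥(modularFunctionFieldFull N) (LaurentSeries ℚ)).comp
      (algebraMap ℚ ↥(modularFunctionFieldFull N))) (algebraMap ℚ (LaurentSeries ℚ))) a

omit [NeZero N] in
theorem degQ_tower : @IsScalarTower ℚ ↥(modularFunctionFieldFull N) (LaurentSeries ℚ)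
    Algebra.toSMul Algebra.toSMul Algebra.toSMul :=
  IsScalarTower.of_algebraMap_eq' (Subsingleton.elim _ _)

theorem degQS0_pi (P : MvPolynomial (Dv N) ℚ) :
    degQS0 N (degQPi N P) = degS0 N (piN N (MvPolynomial.map (algebraMap ℚ Kb) P)) := by
  induction P using MvPolynomial.induction_on with
  | C a =>
    have h1 : degQS0 N (degQPi N (MvPolynomial.C a)) = HahnSeries.single 0 (algebraMap ℚ ℂ a) := by
      change coeffMap (algebraMap ℚ ℂ)
        ((degQPi N (MvPolynomial.C a) : ↥(modularFunctionFieldFull N)) : LaurentSeries ℚ) = _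
      have : ((degQPi N (MvPolynomial.C a) : ↥(modularFunctionFieldFull N)) : LaurentSeries ℚ) =
          algebraMap ℚ (LaurentSeries ℚ) a := by
        simp only [degQPi, MvPolynomial.aeval_C]
        exact degQ_coe_algebraMap N a
      rw [this, algebraMap_laurentSeries_eq_single, coeffMap_single]
    have h2 : degS0 N (piN N (MvPolynomial.map (algebraMap ℚ Kb) (MvPolynomial.C a))) =
        HahnSeries.single 0 (iotaC (algebraMap ℚ Kb a)) := by
      rw [MvPolynomial.map_C]
      change coeffMap iotaC (piL N (MvPolynomial.C _)) = _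
      rw [piL_C, algebraMap_laurentSeries_eq_single, coeffMap_single]
    rw [h1, h2, ← degQ_iotaC_comp]
    rfl
  | add p q hp hq => simp only [map_add, hp, hq]
  | mul_X p d hp =>
    simp only [map_mul, hp]
    congr 1
    have h1 : degQS0 N (degQPi N (MvPolynomial.X d)) =
        coeffMap (algebraMap ℚ ℂ) (qExpand ℚ d.1 jq) := by
      change coeffMap (algebraMap ℚ ℂ)
        ((degQPi N (MvPolynomial.X d) : ↥(modularFunctionFieldFull N)) : LaurentSeries ℚ) = _
      simp only [degQPi, MvPolynomial.aeval_X]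
      rfl
    have h2 : degS0 N (piN N (MvPolynomial.map (algebraMap ℚ Kb) (MvPolynomial.X d))) =
        coeffMap iotaC (coeffEmb Kb (qExpand ℚ d.1 jq)) := by
      rw [MvPolynomial.map_X]
      change coeffMap iotaC (piL N (MvPolynomial.X d)) = _
      rw [piL_X]
    rw [h1, h2, coeffEmb, coeffMap_coeffMap, degQ_iotaC_comp]

theorem degQPi_X_one : degQPi N (MvPolynomial.X ⟨1, one_dvd N⟩) = jFull N := by
  apply Subtype.ext
  simp only [degQPi, MvPolynomial.aeval_X]
  change qExpand ℚ 1 jq = jq
  rw [qExpand_one_apply]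

theorem degQS0_jFull : degQS0 N (jFull N) = degS0 N (jBar N) := by
  rw [← degQPi_X_one, degQS0_pi, MvPolynomial.map_X, piN_X_one]

theorem degQ_frac (f : ↥(modularFunctionFieldFull N)) :
    ∃ P Q : MvPolynomial (Dv N) ℚ, degQPi N Q ≠ 0 ∧ f * degQPi N Q = degQPi N P := by
  obtain ⟨f, hf⟩ := f
  have hz' : f ∈ Subfield.closure
      (Set.range (algebraMap ℚ (LaurentSeries ℚ)) ∪ divisorExpansions N) := hf
  suffices H : ∃ P Q : MvPolynomial (Dv N) ℚ,
      ((degQPi N Q : ↥(modularFunctionFieldFull N)) : LaurentSeries ℚ) ≠ 0 ∧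
      f * ((degQPi N Q : ↥(modularFunctionFieldFull N)) : LaurentSeries ℚ) =
        ((degQPi N P : ↥(modularFunctionFieldFull N)) : LaurentSeries ℚ) by
    obtain ⟨P, Q, hQ, h⟩ := H
    exact ⟨P, Q, fun h0 => hQ (by rw [h0]; rfl), Subtype.ext h⟩
  clear hf
  have hpi : ∀ P : MvPolynomial (Dv N) ℚ, ∃ P' Q : MvPolynomial (Dv N) ℚ,
      ((degQPi N Q : ↥(modularFunctionFieldFull N)) : LaurentSeries ℚ) ≠ 0 ∧
      ((degQPi N P : ↥(modularFunctionFieldFull N)) : LaurentSeries ℚ) *
        ((degQPi N Q : ↥(modularFunctionFieldFull N)) : LaurentSeries ℚ) =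
        ((degQPi N P' : ↥(modularFunctionFieldFull N)) : LaurentSeries ℚ) := fun P =>
    ⟨P, 1, by rw [map_one]; exact one_ne_zero, by rw [map_one]; exact mul_one _⟩
  induction hz' using Subfield.closure_induction with
  | mem y hy =>
    rcases hy with ⟨r, rfl⟩ | ⟨d, hne, hd, rfl⟩
    · have e : algebraMap ℚ (LaurentSeries ℚ) r =
          ((degQPi N (MvPolynomial.C r) : ↥(modularFunctionFieldFull N)) : LaurentSeries ℚ) := by
        simp only [degQPi, MvPolynomial.aeval_C]
        exact (degQ_coe_algebraMap N r).symm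
      rw [e]
      exact hpi _
    · have e : qExpand ℚ d jq =
          ((degQPi N (MvPolynomial.X ⟨d, hd⟩) : ↥(modularFunctionFieldFull N)) :
            LaurentSeries ℚ) := by
        simp only [degQPi, MvPolynomial.aeval_X]
        rfl
      rw [e]
      exact hpi _
  | one =>
    have := hpi 1
    rwa [map_one] at this
  | add x y _ _ hx hy =>
    obtain ⟨P, Q, hQ, h⟩ := hx
    obtain ⟨P', Q', hQ', h'⟩ := hy
    refine ⟨P * Q' + P' * Q, Q * Q', ?_, ?_⟩
    · rw [map_mul]; exact mul_ne_zero hQ hQ'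
    · simp only [map_mul, map_add, MulMemClass.coe_mul, AddMemClass.coe_add]
      rw [← h, ← h']
      ring
  | neg x _ hx =>
    obtain ⟨P, Q, hQ, h⟩ := hx
    refine ⟨-P, Q, hQ, ?_⟩
    simp only [map_neg, NegMemClass.coe_neg]
    rw [← h]; ring
  | inv x _ hx =>
    by_cases hx0 : x = 0
    · rw [hx0, inv_zero]
      have := hpi 0
      rwa [map_zero] at this
    · obtain ⟨P, Q, hQ, h⟩ := hx
      refine ⟨Q, P, by rw [← h]; exact mul_ne_zero hx0 hQ, ?_⟩
      rw [← h, ← mul_assoc, inv_mul_cancel₀ hx0, one_mul]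
  | mul x y _ _ hx hy =>
    obtain ⟨P, Q, hQ, h⟩ := hx
    obtain ⟨P', Q', hQ', h'⟩ := hy
    refine ⟨P * P', Q * Q', ?_, ?_⟩
    · rw [map_mul]; exact mul_ne_zero hQ hQ'
    · simp only [map_mul, MulMemClass.coe_mul]
      rw [← h, ← h']
      ring

theorem degQ_jFull_transcendental : Transcendental ℚ (jFull N) := by
  have := degQ_tower N
  rw [transcendental_iff]
  intro p hp
  by_contra hp0
  apply (jBar_transcendental N)
  refine ⟨p.map (algebraMap ℚ Kb), ?_, ?_⟩
  · rwa [Ne, Polynomial.map_eq_zero]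
  · apply Subtype.ext
    have h1 : Polynomial.aeval jq p = 0 := by
      have := congrArg (algebraMap ↥(modularFunctionFieldFull N) (LaurentSeries ℚ)) hp
      rw [map_zero, ← Polynomial.aeval_algebraMap_apply] at this
      exact this
    have h2 : ((Polynomial.aeval (jBar N) (p.map (algebraMap ℚ Kb)) : FN N) : LaurentSeries Kb) =
        Polynomial.aeval (coeffEmb Kb jq) (p.map (algebraMap ℚ Kb)) := by
      have := Polynomial.aeval_algebraMap_apply (LaurentSeries Kb) (jBar N)
        (p.map (algebraMap ℚ Kb))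
      exact this.symm
    rw [h2]
    have h3 : Polynomial.aeval (coeffEmb Kb jq) (p.map (algebraMap ℚ Kb)) =
        coeffEmb Kb (Polynomial.aeval jq p) := by
      rw [Polynomial.aeval_def, Polynomial.eval₂_map, Polynomial.aeval_def, Polynomial.hom_eval₂]
      congr 1
      apply RingHom.ext
      intro r
      simp only [RingHom.comp_apply]
      rw [algebraMap_laurentSeries_eq_single, algebraMap_laurentSeries_eq_single, coeffEmb,
        coeffMap_single]
    rw [h3, h1, map_zero]
    rfl

omit [NeZero N] in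
theorem degQ_LD {α : Type*} (v : α → ↥(modularFunctionFieldFull N))
    (h : LinearIndependent ℚ v) :
    @LinearIndependent α ℂ (LaurentSeries ℂ) (fun a => degQS0 N (v a)) _ _ Algebra.toModule := by
  have := degQ_tower N
  have h1 : LinearIndependent ℚ
      (fun a (j : ℤ) => ((v a : ↥(modularFunctionFieldFull N)) : LaurentSeries ℚ).coeff j) := by
    rw [linearIndependent_iff'] at h ⊢
    intro s g hg
    apply h s g
    apply (algebraMap ↥(modularFunctionFieldFull N) (LaurentSeries ℚ)).injective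
    rw [map_sum, map_zero]
    ext j
    have h3 := congrFun hg j
    rw [HahnSeries.coeff_sum, HahnSeries.coeff_zero]
    simp only [Finset.sum_apply, Pi.smul_apply, smul_eq_mul, Pi.zero_apply] at h3
    rw [← h3]
    refine Finset.sum_congr rfl fun a _ => ?_
    rw [Algebra.smul_def, map_mul, ← IsScalarTower.algebraMap_apply, deg_coeff_smul]
    rfl
  have h2 := deg_linDisj (algebraMap ℚ ℂ) _ h1
  rw [linearIndependent_iff'] at h2
  let _ : Module ℂ (LaurentSeries ℂ) := Algebra.toModule
  rw [linearIndependent_iff']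
  intro s g hg
  apply h2 s g
  funext j
  have h3 := congrArg (fun f : LaurentSeries ℂ => f.coeff j) hg
  simp only [HahnSeries.coeff_sum, HahnSeries.coeff_zero] at h3
  simp only [Finset.sum_apply, Pi.smul_apply, smul_eq_mul, Pi.zero_apply]
  rw [← h3]
  refine Finset.sum_congr rfl fun a _ => ?_
  rw [Algebra.smul_def, deg_coeff_smul]
  rfl

theorem finrank_FQ_le (N : ℕ) [NeZero N] :
    FiniteDimensional ℚ⟮jFull N⟯ ↥(modularFunctionFieldFull N) ∧
      Module.finrank ℚ⟮jFull N⟯ ↥(modularFunctionFieldFull N) ≤ Nat.card (Cos N) := by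
  rw [Nat.card_eq_fintype_card]
  apply deg_upper (jFull N) (degQPi N).range ⟨_, degQPi_X_one N⟩
  · intro f
    obtain ⟨P, Q, hQ, h⟩ := degQ_frac N f
    exact ⟨_, ⟨P, rfl⟩, _, ⟨Q, rfl⟩, hQ, h⟩
  · rintro θ ⟨P, rfl⟩
    obtain ⟨Q, hQ1, hQ2⟩ := deg_rel N (MvPolynomial.map (algebraMap ℚ Kb) P)
    refine deg_alg (C := ℂ) (jFull N) _ (degQ_jFull_transcendental N) (degQS0 N)
      (fun n v hv => degQ_LD N v hv) _ Q hQ1 ?_
    rw [degQS0_jFull]
    have := degQS0_pi N P
    simp only [AlgHom.toRingHom_eq_coe, RingHom.coe_coe]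
    rw [this]
    exact hQ2

end Fermat.Agent.S28
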