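import Mathlib
import Fermat.Agent.S28.KeyAux
import Fermat.Agent.S28.DegQ
import Fermat.Agent.S28.Data
import Fermat.Agent.S28.IrrCore

/-!
# S28 (W11): the key divisibility lemma
-/

set_option autoImplicit false

namespace Fermat.Agent.S28

open UpperHalfPlane ModularForm ModularCurve ModularCurve.IgusaScheme HahnSeries CongruenceSubgroup
open Fermat.Agent.X0 Fermat.Agent.S24 IntermediateField
open AlgebraicGeometry CategoryTheory CategoryTheory.Limits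
open scoped MatrixGroups Manifold Real TensorProduct

/-- `Φ_N` is irreducible mod `ℓ` (same statement as `irr_Fl`) -/
theorem key_irr_Fl (N ℓ : ℕ) [NeZero N] [Fact ℓ.Prime] (hℓN : ¬ ℓ ∣ N)
    (P : Polynomial (Polynomial (ZMod ℓ))) (hP : P ≠ 0) (hdeg : P.natDegree < Nat.card (Cos N)) :
    (P.map (Polynomial.aeval (jqModC (ZMod ℓ)) :
      Polynomial (ZMod ℓ) →ₐ[ZMod ℓ] LaurentSeries (ZMod ℓ)).toRingHom).eval
        (jqNModC (ZMod ℓ) N) ≠ 0 := by
  obtain ⟨k, _, _, x, h, hx, hh0, hh, hx1, htr⟩ := exists_data N ℓ hℓN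
  exact irrCore (ZMod.castHom (dvd_refl ℓ) k) N x h hx hh0 hh hx1 htr P hP hdeg

theorem key_div (N ℓ : ℕ) [NeZero N] [Fact ℓ.Prime] (hℓN : ¬ ℓ ∣ N)
    (x : ↥(modularFunctionFieldFull N)) (y : LaurentSeries (Zl ℓ))
    (hy : coeffMap (GaloisRep.ratLocalizedAt ℓ).subtype y = (x : LaurentSeries ℚ))
    (hdiv : ∀ n, (ℓ : Zl ℓ) ∣ y.coeff n) :
    ∃ (b : Polynomial (Zl ℓ)) (P : Polynomial (Polynomial (Zl ℓ))),
      ¬ Polynomial.C (ℓ : Zl ℓ) ∣ b ∧
      Polynomial.aeval (jFull N) b * x = (ℓ : ↥(modularFunctionFieldFull N)) *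
        (P.map (Polynomial.aeval (jFull N) :
          Polynomial (Zl ℓ) →ₐ[Zl ℓ] ↥(modularFunctionFieldFull N)).toRingHom).eval (jNFull N) := by
  obtain ⟨hfin, hn⟩ := finrank_FQ_le N
  obtain ⟨b, P, hb, h⟩ := key_div_aux N ℓ (Nat.card (Cos N))
    (fun P hP hdeg => by rw [ev2_apply]; exact key_irr_Fl N ℓ hℓN P hP hdeg) hfin hn x y hy hdiv
  exact ⟨b, P, hb, by rw [h, evF_apply]⟩

end Fermat.Agent.S28
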