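import Mathlib
import Fermat.Agent.S28.Defs

/-!
# S28: `j(q^N)` is integral over `ℤ[j]` (algebraic core)
-/

set_option autoImplicit false

namespace Fermat.Agent.S28

open ModularCurve Polynomial

section abstract

variable {R₀ R L : Type*} [CommRing R₀] [CommRing R] [CommRing L] [Algebra R₀ R] [Algebra R L]
  [Algebra R₀ L] [IsScalarTower R₀ R L] [Algebra.IsIntegral R₀ R]

/-- polynomials in `J` with coefficients integral over `R₀` are integral over `R₀[J]` -/
lemma modPoly_isIntegral_aeval (J : L) (p : Polynomial R) :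
    IsIntegral ↥((Polynomial.aeval J : Polynomial R₀ →ₐ[R₀] L).range)
      (Polynomial.aeval J p) := by
  set A₀ := (Polynomial.aeval J : Polynomial R₀ →ₐ[R₀] L).range with hA₀
  have hJ : IsIntegral ↥A₀ J := by
    have hmem : J ∈ A₀ := ⟨Polynomial.X, by simp⟩
    exact isIntegral_algebraMap (x := (⟨J, hmem⟩ : ↥A₀))
  rw [Polynomial.aeval_eq_sum_range]
  refine IsIntegral.sum _ fun i _ => ?_
  rw [Algebra.smul_def]
  refine IsIntegral.mul ?_ (hJ.pow i)
  have h1 : IsIntegral R₀ (p.coeff i) := Algebra.IsIntegral.isIntegral _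
  have h2 : IsIntegral R₀ (algebraMap R L (p.coeff i)) := h1.algebraMap
  exact h2.tower_top

theorem modPoly_abstract (J : L) (P : Polynomial L) (hPmonic : P.Monic)
    (hS : ∀ i : ℕ, ∃ p : Polynomial R, P.coeff i = Polynomial.aeval J p) (x : L)
    (hProot : P.eval x = 0) :
    ∃ Φ : Polynomial (Polynomial R₀), Φ.Monic ∧
      Φ.eval₂ (Polynomial.aeval J : Polynomial R₀ →ₐ[R₀] L).toRingHom x = 0 := by
  classical
  set A₀ := (Polynomial.aeval J : Polynomial R₀ →ₐ[R₀] L).range with hA₀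
  have h1 : IsIntegral ↥(integralClosure ↥A₀ L) x := by
    have hlifts : P ∈ Polynomial.lifts (algebraMap ↥(integralClosure ↥A₀ L) L) :=
      (Polynomial.lifts_iff_coeff_lifts P).mpr fun i => by
        obtain ⟨p, hp⟩ := hS i
        exact ⟨⟨P.coeff i, by rw [hp]; exact modPoly_isIntegral_aeval J p⟩, rfl⟩
    obtain ⟨P', hP'P, -, hP'monic⟩ := Polynomial.lifts_and_natDegree_eq_and_monic hlifts hPmonic
    exact ⟨P', hP'monic, by rw [Polynomial.eval₂_eq_eval_map, hP'P, hProot]⟩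
  have h2 : IsIntegral ↥A₀ x := isIntegral_trans _ h1
  obtain ⟨Ψ, hΨmonic, hΨroot⟩ := h2
  set f : Polynomial R₀ →+* ↥A₀ :=
    ((Polynomial.aeval J : Polynomial R₀ →ₐ[R₀] L).rangeRestrict).toRingHom with hf
  have hfsurj : Function.Surjective f :=
    (Polynomial.aeval J : Polynomial R₀ →ₐ[R₀] L).rangeRestrict_surjective
  have hlifts : Ψ ∈ Polynomial.lifts f :=
    (Polynomial.lifts_iff_coeff_lifts Ψ).mpr fun i => hfsurj _
  obtain ⟨Φ, hΦΨ, -, hΦmonic⟩ := Polynomial.lifts_and_natDegree_eq_and_monic hlifts hΨmonic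
  refine ⟨Φ, hΦmonic, ?_⟩
  rw [← hΨroot, ← hΦΨ, Polynomial.eval₂_map]
  rfl

end abstract

/-- the injective ring homomorphism `ℤ((q)) → Zb((t))`, `q ↦ t^N` -/
noncomputable def modPolyIota (N : ℕ) [NeZero N] : LaurentSeries ℤ →+* LaurentSeries Zb :=
  (qExpand Zb N).comp (coeffMap (Int.castRingHom Zb))

lemma modPolyIota_injective (N : ℕ) [NeZero N] : Function.Injective (modPolyIota N) := by
  refine (qExpand_injective N).comp ?_
  intro x y h
  ext n
  have := congrArg (fun s => s.coeff n) h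
  simpa using this

lemma modPolyIota_j (N : ℕ) [NeZero N] : modPolyIota N (jqModC ℤ) = JJ Zb N := by
  rw [modPolyIota, RingHom.comp_apply, coeffMap_jqModC, JJ]

lemma modPolyIota_jN (N : ℕ) [NeZero N] :
    modPolyIota N (jqNModC ℤ N) = qExpand Zb N (JJ Zb N) := by
  rw [modPolyIota, RingHom.comp_apply, coeffMap_jqNModC, JJ, jqNModC]

theorem modPoly_core (N : ℕ) [NeZero N] {ι : Type*} [Fintype ι] (x : ι → LaurentSeries Zb)
    (c₀ : ι) (hx0 : x c₀ = qExpand Zb N (JJ Zb N))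
    (hS : ∀ i : ℕ, ∃ p : Polynomial Zb,
      (∏ c, (Polynomial.X - Polynomial.C (x c))).coeff i = Polynomial.aeval (JJ Zb N) p) :
    ∃ Φ : Polynomial (Polynomial ℤ), Φ.Monic ∧
      (Φ.map (Polynomial.aeval (jqModC ℤ) : Polynomial ℤ →ₐ[ℤ] LaurentSeries ℤ).toRingHom).eval
        (jqNModC ℤ N) = 0 := by
  classical
  haveI : @IsScalarTower ℤ Zb (LaurentSeries Zb) Algebra.toSMul Algebra.toSMul Algebra.toSMul :=
    IsScalarTower.of_algebraMap_eq' (RingHom.ext_int _ _)
  have hPmonic : (∏ c, (Polynomial.X - Polynomial.C (x c))).Monic :=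
    Polynomial.monic_prod_of_monic _ _ fun c _ => Polynomial.monic_X_sub_C _
  have hProot : (∏ c, (Polynomial.X - Polynomial.C (x c))).eval (x c₀) = 0 := by
    rw [Polynomial.eval_prod]
    exact Finset.prod_eq_zero (Finset.mem_univ c₀) (by simp)
  obtain ⟨Φ, hΦmonic, hΦ⟩ := modPoly_abstract (R₀ := ℤ) (R := Zb) (JJ Zb N) _ hPmonic hS _ hProot
  refine ⟨Φ, hΦmonic, modPolyIota_injective N ?_⟩
  rw [map_zero, ← Polynomial.eval₂_eq_eval_map, Polynomial.hom_eval₂, modPolyIota_jN, ← hx0,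
    ← hΦ]
  congr 1
  apply Polynomial.ringHom_ext
  · intro a
    simp
  · simp [modPolyIota_j]

end Fermat.Agent.S28
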