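import Mathlib
import Fermat.Agent.S28.ModPolyCore
import Fermat.Agent.S24.RelInf
import Fermat.Agent.S24.JExp
import Fermat.Agent.S24.Mat
import Fermat.Agent.S24.Ev
import Fermat.Agent.S24.Sym0

/-!
# S28: `j(q^N)` is integral over `ℤ[j]`, from the symmetric function theorem
-/

set_option autoImplicit false

namespace Fermat.Agent.S28

open UpperHalfPlane ModularForm ModularCurve HahnSeries CongruenceSubgroup
open Fermat.Agent.X0 Fermat.Agent.S24
open scoped MatrixGroups Manifold Real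

lemma modPoly_iotaZ_injective : Function.Injective iotaZ := by
  intro x y h
  ext n
  have := congrArg (fun s => s.coeff n) h
  simpa [iotaZ] using this

lemma modPoly_relInf_top (N : ℕ) [NeZero N] :
    RelInf (N : ℝ) (jdFun N) (iotaZ (qExpand Zb N (JJ Zb N))) := by
  have h := relInf_period N (relInf_jdFun N)
  have e : qExpand ℂ N (coeffMap iotaC (coeffEmb Kb (qExpand ℚ N jq))) =
      iotaZ (qExpand Zb N (JJ Zb N)) := by
    rw [iotaZ, JJ, coeffMap_qExpand, coeffMap_qExpand, coeffMap_jqModC, coeffEmb, coeffMap_qExpand,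
      coeffMap_qExpand, ← jqModC_rat, coeffMap_jqModC, coeffMap_jqModC]
  rwa [e] at h

theorem modPoly_of (N : ℕ) [NeZero N]
    (hx : ∀ g : SL(2, ℤ), ∃ x : LaurentSeries Zb,
      RelInf (N : ℝ) (fun z => jdFun N (g • z)) (iotaZ x))
    (hsym : ∀ (θ : ℍ → ℂ) (_ : ∀ γ ∈ Gamma0 N, ∀ z, θ (γ • z) = θ z)
      (_ : MDiff θ) (x : Cos N → LaurentSeries Zb)
      (_ : ∀ c, RelInf (N : ℝ) (conjF N θ c) (iotaZ (x c))) (i : ℕ),
      ∃ p : Polynomial Zb, (∏ c, (Polynomial.X - Polynomial.C (x c))).coeff i =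
        Polynomial.aeval (JJ Zb N) p) :
    ∃ Φ : Polynomial (Polynomial ℤ), Φ.Monic ∧
      (Φ.map (Polynomial.aeval (jqModC ℤ) : Polynomial ℤ →ₐ[ℤ] LaurentSeries ℤ).toRingHom).eval
        (jqNModC ℤ N) = 0 := by
  have hN : (0 : ℝ) < N := by exact_mod_cast Nat.pos_of_ne_zero (NeZero.ne N)
  have hθ : ∀ γ ∈ Gamma0 N, ∀ z, jdFun N (γ • z) = jdFun N z :=
    fun γ hγ z => jdFun_smul_of_mem_Gamma0 N N dvd_rfl γ hγ z
  choose x hxx using fun c : Cos N => hx (Quotient.out c : SL(2, ℤ))⁻¹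
  have hrel : ∀ c, RelInf (N : ℝ) (conjF N (jdFun N) c) (iotaZ (x c)) := fun c => hxx c
  refine modPoly_core N x (QuotientGroup.mk 1) ?_ (hsym (jdFun N) hθ (jdFun_mdiff N) x hrel)
  apply modPoly_iotaZ_injective
  have h1 := hrel (QuotientGroup.mk 1)
  have e : conjF N (jdFun N) (QuotientGroup.mk 1) = jdFun N := by
    ext z
    rw [conjF_mk N _ hθ, inv_one, one_smul]
  rw [e] at h1
  exact (expRel_relInf (N : ℝ) hN).unique_right h1 (modPoly_relInf_top N)

end Fermat.Agent.S28
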