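import Mathlib
import Fermat.Prelude.Def_ModularCurve_IgusaScheme

/-!
# S28, module (III): the scheme-theoretic wrapper

If the three chart algebras stay domains after `⊗ K`, the base change of the Igusa scheme is
integral.
-/

set_option autoImplicit false
open AlgebraicGeometry CategoryTheory CategoryTheory.Limits ModularCurve ModularCurve.IgusaScheme
open scoped TensorProduct
noncomputable section

namespace Fermat.Agent.S28

/-- A space covered by irreducible open sets which meet pairwise is irreducible. -/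
theorem sch_irreducibleSpace {X : Type*} [TopologicalSpace X] {ι : Type*} [Nonempty ι]
    (U : ι → Set X) (hirr : ∀ i, IsIrreducible (U i)) (hopen : ∀ i, IsOpen (U i))
    (hcov : ∀ x, ∃ i, x ∈ U i) (hint : ∀ i j, (U i ∩ U j).Nonempty) : IrreducibleSpace X := by
  have hpre : IsPreirreducible (Set.univ : Set X) := by
    rintro A B hA hB ⟨a, -, haA⟩ ⟨b, -, hbB⟩
    obtain ⟨i, hi⟩ := hcov a
    obtain ⟨j, hj⟩ := hcov b
    obtain ⟨c, hci, hcA, hcj⟩ := (hirr i).2 A (U j) hA (hopen j) ⟨a, hi, haA⟩ (hint i j)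
    obtain ⟨d, -, hdA, hdB⟩ := (hirr j).2 A B hA hB ⟨c, hcj, hcA⟩ ⟨b, hj, hbB⟩
    exact ⟨d, trivial, hdA, hdB⟩
  obtain ⟨i⟩ := ‹Nonempty ι›
  obtain ⟨x, -⟩ := (hirr i).1
  exact { isPreirreducible_univ := hpre, toNonempty := ⟨x⟩ }

variable (N : ℕ) [NeZero N] (ℓ : ℕ) [Fact ℓ.Prime] (K : Type) [Field K]
  [Algebra ↥(GaloisRep.ratLocalizedAt ℓ) K]

/-- the standard three-member open cover of the Igusa scheme -/
abbrev schCover : (ModularCurve.IgusaScheme N ℓ).OpenCover :=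
  Scheme.IsLocallyDirected.openCover (span (fFin N ℓ) (fInf N ℓ))

theorem schCover_f_zero : (schCover N ℓ).f WalkingSpan.zero = fFin N ℓ ≫ ιFin N ℓ :=
  (colimit.w (span (fFin N ℓ) (fInf N ℓ)) WalkingSpan.Hom.fst).symm

theorem schCover_f_zero' : (schCover N ℓ).f WalkingSpan.zero = fInf N ℓ ≫ ιInf N ℓ :=
  (colimit.w (span (fFin N ℓ) (fInf N ℓ)) WalkingSpan.Hom.snd).symm

omit [Fact ℓ.Prime] in
theorem sch_isIntegral_pullback (R : Type) [CommRing R]
    [Algebra ↥(GaloisRep.ratLocalizedAt ℓ) R]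
    (h : IsDomain (R ⊗[↥(GaloisRep.ratLocalizedAt ℓ)] K))
    (f : Spec (CommRingCat.of R) ⟶ Spec (CommRingCat.of ↥(GaloisRep.ratLocalizedAt ℓ)))
    (hf : f = Spec.map (CommRingCat.ofHom (algebraMap ↥(GaloisRep.ratLocalizedAt ℓ) R))) :
    IsIntegral ↑(pullback f
      (Spec.map (CommRingCat.ofHom (algebraMap ↥(GaloisRep.ratLocalizedAt ℓ) K)))) := by
  subst hf
  exact IsIntegral.of_isIso (pullbackSpecIso ↥(GaloisRep.ratLocalizedAt ℓ) R K).inv

theorem schCover_comp_igusaTo_zero : (schCover N ℓ).f WalkingSpan.zero ≫ igusaTo N ℓ =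
    Spec.map (CommRingCat.ofHom (algebraMap ↥(GaloisRep.ratLocalizedAt ℓ) (chartAlgMid N ℓ))) := by
  have h : (schCover N ℓ).f WalkingSpan.zero ≫ igusaTo N ℓ =
      (fFin N ℓ ≫ ιFin N ℓ) ≫ igusaTo N ℓ := congrArg (· ≫ igusaTo N ℓ) (schCover_f_zero N ℓ)
  refine h.trans ?_
  rw [Category.assoc, ιFin_igusaTo, ← Spec.map_comp, ← CommRingCat.ofHom_comp]
  congr 2

/-- **Module (III) of S28.** -/
theorem igusa_isIntegral
    (hFin : IsDomain (↥(chartAlgFin N ℓ) ⊗[↥(GaloisRep.ratLocalizedAt ℓ)] K))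
    (hInf : IsDomain (↥(chartAlgInf N ℓ) ⊗[↥(GaloisRep.ratLocalizedAt ℓ)] K))
    (hMid : IsDomain (↥(chartAlgMid N ℓ) ⊗[↥(GaloisRep.ratLocalizedAt ℓ)] K)) :
    IsIntegral ↑(pullback (igusaTo N ℓ)
      (Spec.map (CommRingCat.ofHom (algebraMap ↥(GaloisRep.ratLocalizedAt ℓ) K)))) := by
  set g := Spec.map (CommRingCat.ofHom (algebraMap ↥(GaloisRep.ratLocalizedAt ℓ) K)) with hg
  let 𝒱 := Scheme.Pullback.openCoverOfLeft (schCover N ℓ) (igusaTo N ℓ) g
  let z : 𝒱.I₀ := WalkingSpan.zero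
  have hI : ∀ i : 𝒱.I₀, IsIntegral (𝒱.X i) := by
    intro i
    rcases i with (_ | _ | _)
    · exact sch_isIntegral_pullback ℓ K _ hMid _ (schCover_comp_igusaTo_zero N ℓ)
    · exact sch_isIntegral_pullback ℓ K _ hFin _ (ιFin_igusaTo N ℓ)
    · exact sch_isIntegral_pullback ℓ K _ hInf _ (ιInf_igusaTo N ℓ)
  have hred : IsReduced ↑(pullback (igusaTo N ℓ) g) := by
    have : ∀ i : 𝒱.I₀, IsReduced (𝒱.X i) := fun i => by
      have := hI i
      infer_instance
    exact IsReduced.of_openCover _ 𝒱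
  have hrange : ∀ i : 𝒱.I₀, Set.range (𝒱.f i) =
      pullback.fst (igusaTo N ℓ) g ⁻¹' Set.range ((schCover N ℓ).f i) := by
    intro i
    have := Scheme.Pullback.range_map ((schCover N ℓ).f i ≫ igusaTo N ℓ) g (igusaTo N ℓ) g
      ((schCover N ℓ).f i) (𝟙 _) (𝟙 _) (by simp) (by simp)
    refine this.trans ?_
    simp
  have hsub : ∀ i : 𝒱.I₀, Set.range (𝒱.f z) ⊆ Set.range (𝒱.f i) := by
    intro i
    rw [hrange, hrange]
    apply Set.preimage_mono
    rcases i with (_ | _ | _)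
    · exact subset_rfl
    · rintro _ ⟨y, rfl⟩
      refine ⟨(fFin N ℓ) y, ?_⟩
      exact (congrArg (fun φ : XMid N ℓ ⟶ ModularCurve.IgusaScheme N ℓ => φ y)
        (schCover_f_zero N ℓ)).symm
    · rintro _ ⟨y, rfl⟩
      refine ⟨(fInf N ℓ) y, ?_⟩
      exact (congrArg (fun φ : XMid N ℓ ⟶ ModularCurve.IgusaScheme N ℓ => φ y)
        (schCover_f_zero' N ℓ)).symm
  have hirr : IrreducibleSpace ↑(pullback (igusaTo N ℓ) g) := by
    have : Nonempty 𝒱.I₀ := ⟨z⟩
    refine sch_irreducibleSpace (ι := 𝒱.I₀) (fun i => Set.range (𝒱.f i)) (fun i => ?_)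
      (fun i => (𝒱.f i).isOpenEmbedding.isOpen_range) (fun x => ?_) (fun i j => ?_)
    · have := hI i
      have := (IrreducibleSpace.isIrreducible_univ (𝒱.X i)).image (𝒱.f i)
        (𝒱.f i).continuous.continuousOn
      rwa [Set.image_univ] at this
    · obtain ⟨i, y, hy⟩ := 𝒱.exists_eq x
      exact ⟨i, y, hy⟩
    · have := hI z
      obtain ⟨y⟩ : Nonempty (𝒱.X z) := inferInstance
      exact ⟨_, hsub i ⟨y, rfl⟩, hsub j ⟨y, rfl⟩⟩
  exact isIntegral_of_irreducibleSpace_of_isReduced _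

end Fermat.Agent.S28

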