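import Fermat.Agent.S28.Defs

/-!
# S28 (Tensor): `R ⊗ K` is a domain, from the q-expansion principle for `R`
-/

set_option autoImplicit false

noncomputable section

open scoped TensorProduct

namespace Fermat.Agent.S28

section Abstract

variable {A K R Ω ι : Type*} [CommRing A] [Field K] [Algebra A K] [CommRing R] [Algebra A R]
  [CommRing Ω] [Algebra K Ω] [Algebra A Ω] [IsScalarTower A K Ω]

/-- the image of `A` in `K`, as a subfield (when it is one). -/
def tensor_rangeSubfield (hA : ∀ a : A, algebraMap A K a ≠ 0 → ∃ b : A, algebraMap A K a * algebraMap A K b = 1) :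
    Subfield K :=
  { (algebraMap A K).range with
    inv_mem' := by
      rintro _ ⟨a, rfl⟩
      by_cases h : algebraMap A K a = 0
      · rw [h, inv_zero]; exact ⟨0, map_zero _⟩
      · obtain ⟨b, hb⟩ := hA a h
        exact ⟨b, (eq_inv_of_mul_eq_one_right hb)⟩ }

theorem tensor_mem_rangeSubfield
    (hA : ∀ a : A, algebraMap A K a ≠ 0 → ∃ b : A, algebraMap A K a * algebraMap A K b = 1) (x : K) :
    x ∈ tensor_rangeSubfield hA ↔ ∃ a : A, algebraMap A K a = x := Iff.rfl

/-- the map `(r_i) ↦ ∑ r_i ⊗ b_i`. -/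
def tensorSum {κ : Type*} (b : κ → K) : (κ →₀ R) →+ R ⊗[A] K :=
  Finsupp.liftAddHom fun i => ((TensorProduct.mk A R K).flip (b i)).toAddMonoidHom

theorem tensorSum_single {κ : Type*} (b : κ → K) (i : κ) (r : R) :
    tensorSum (A := A) b (Finsupp.single i r) = r ⊗ₜ[A] b i := by
  simp [tensorSum]

theorem tensorSum_apply {κ : Type*} (b : κ → K) (r : κ →₀ R) :
    tensorSum (A := A) b r = r.sum fun i ri => ri ⊗ₜ[A] b i := by
  simp only [tensorSum, Finsupp.liftAddHom_apply]
  rfl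

/-- every tensor is a combination of `r ⊗ b i` for a basis `b` of `K` over the image of `A`. -/
theorem tensor_exists_basis
    (hA : ∀ a : A, algebraMap A K a ≠ 0 → ∃ b : A, algebraMap A K a * algebraMap A K b = 1)
    {κ : Type*} (b : Module.Basis κ (tensor_rangeSubfield hA) K) (x : R ⊗[A] K) :
    ∃ r : κ →₀ R, x = tensorSum (A := A) b r := by
  classical
  induction x using TensorProduct.induction_on with
  | zero => exact ⟨0, by simp⟩
  | tmul r c =>
    choose f hf using fun i => (tensor_mem_rangeSubfield hA _).mp (b.repr c i).2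
    refine ⟨∑ i ∈ (b.repr c).support, Finsupp.single i (f i • r), ?_⟩
    rw [map_sum]
    simp only [tensorSum_single]
    have hc : c = ∑ i ∈ (b.repr c).support, f i • b i := by
      conv_lhs => rw [← b.linearCombination_repr c, Finsupp.linearCombination_apply, Finsupp.sum]
      refine Finset.sum_congr rfl fun i _ => ?_
      rw [Algebra.smul_def (f i), hf i]
      rfl
    conv_lhs => rw [hc, TensorProduct.tmul_sum]
    refine Finset.sum_congr rfl fun i _ => ?_
    rw [TensorProduct.tmul_smul, TensorProduct.smul_tmul']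
  | add x y hx hy =>
    obtain ⟨r, rfl⟩ := hx
    obtain ⟨s, rfl⟩ := hy
    exact ⟨r + s, (map_add _ _ _).symm⟩

/-- **Abstract form.**  `ρ : R → Ω` an `A`-algebra map, `coeff n : Ω → K` jointly injective
`K`-linear functionals such that `coeff n (ρ r)` lies in the image of `A`, and `ρ r = 0` only for
`r ∈ (ker (A → K)) R`.  Then `R ⊗[A] K → Ω` is injective. -/
theorem tensor_productMap_injective
    (hA : ∀ a : A, algebraMap A K a ≠ 0 → ∃ b : A, algebraMap A K a * algebraMap A K b = 1)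
    (ρ : R →ₐ[A] Ω) (coeff : ι → Ω →+ K)
    (hlin : ∀ n c x, coeff n (algebraMap K Ω c * x) = c * coeff n x)
    (hcoeff : ∀ x : Ω, (∀ n, coeff n x = 0) → x = 0)
    (h1 : ∀ r n, ∃ a : A, algebraMap A K a = coeff n (ρ r))
    (h2 : ∀ r, ρ r = 0 → ∃ (a : A) (g : R), algebraMap A K a = 0 ∧ r = a • g) :
    Function.Injective
      (Algebra.TensorProduct.productMap ρ ((Algebra.ofId K Ω).restrictScalars A)) := by
  classical
  rw [injective_iff_map_eq_zero]
  intro x hx
  set b := Module.Basis.ofVectorSpace (tensor_rangeSubfield hA) K with hb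
  obtain ⟨r, rfl⟩ := tensor_exists_basis hA b x
  rw [tensorSum_apply, Finsupp.sum, map_sum] at hx
  simp only [Algebra.TensorProduct.productMap_apply_tmul, AlgHom.restrictScalars_apply,
    Algebra.ofId_apply] at hx
  -- every `ρ (r i)` vanishes
  have hr : ∀ i ∈ r.support, ρ (r i) = 0 := by
    intro i hi
    apply hcoeff
    intro n
    have hn := congrArg (coeff n) hx
    rw [map_sum, map_zero] at hn
    have hn' : ∑ j ∈ r.support,
        (⟨coeff n (ρ (r j)), h1 (r j) n⟩ : tensor_rangeSubfield hA) • b j = 0 := by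
      rw [← hn]
      refine Finset.sum_congr rfl fun j _ => ?_
      rw [mul_comm, hlin, mul_comm]
      rfl
    have := (linearIndependent_iff'.mp b.linearIndependent) r.support _ hn' i hi
    exact congrArg Subtype.val this
  rw [tensorSum_apply, Finsupp.sum]
  refine Finset.sum_eq_zero fun i hi => ?_
  obtain ⟨a, g, ha, hg⟩ := h2 (r i) (hr i hi)
  rw [hg, TensorProduct.smul_tmul, Algebra.smul_def, ha, zero_mul, TensorProduct.tmul_zero]

theorem tensor_isDomain_of_productMap [IsDomain Ω]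
    (hA : ∀ a : A, algebraMap A K a ≠ 0 → ∃ b : A, algebraMap A K a * algebraMap A K b = 1)
    (ρ : R →ₐ[A] Ω) (coeff : ι → Ω →+ K)
    (hlin : ∀ n c x, coeff n (algebraMap K Ω c * x) = c * coeff n x)
    (hcoeff : ∀ x : Ω, (∀ n, coeff n x = 0) → x = 0)
    (h1 : ∀ r n, ∃ a : A, algebraMap A K a = coeff n (ρ r))
    (h2 : ∀ r, ρ r = 0 → ∃ (a : A) (g : R), algebraMap A K a = 0 ∧ r = a • g) :
    IsDomain (R ⊗[A] K) :=
  (tensor_productMap_injective hA ρ coeff hlin hcoeff h1 h2).isDomain _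

end Abstract

section Abstract'

variable {A K R Ω ι : Type*} [CommRing A] [Field K] [Algebra A K] [CommRing R] [Algebra A R]
  [CommRing Ω] [Algebra K Ω]

theorem tensor_isDomain_of_ringHom [IsDomain Ω]
    (hA : ∀ a : A, algebraMap A K a ≠ 0 → ∃ b : A, algebraMap A K a * algebraMap A K b = 1)
    (ρ : R →+* Ω) (hρ : ∀ a : A, ρ (algebraMap A R a) = algebraMap K Ω (algebraMap A K a))
    (coeff : ι → Ω →+ K) (hlin : ∀ n c x, coeff n (algebraMap K Ω c * x) = c * coeff n x)
    (hcoeff : ∀ x : Ω, (∀ n, coeff n x = 0) → x = 0)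
    (h1 : ∀ r n, ∃ a : A, algebraMap A K a = coeff n (ρ r))
    (h2 : ∀ r, ρ r = 0 → ∃ (a : A) (g : R), algebraMap A K a = 0 ∧ r = a • g) :
    IsDomain (R ⊗[A] K) := by
  letI : Algebra A Ω := ((algebraMap K Ω).comp (algebraMap A K)).toAlgebra
  haveI : IsScalarTower A K Ω := IsScalarTower.of_algebraMap_eq' rfl
  exact tensor_isDomain_of_productMap hA ({ ρ with commutes' := hρ } : R →ₐ[A] Ω) coeff hlin hcoeff h1 h2

end Abstract'

section Zl

variable (ℓ : ℕ) [Fact ℓ.Prime]


theorem tensor_mem_zl_iff (q : ℚ) : q ∈ GaloisRep.ratLocalizedAt ℓ ↔ q.den.Coprime ℓ := Iff.rfl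

/-- an element of `ℤ_(ℓ)` is a unit or divisible by `ℓ`. -/
theorem tensor_zl_isUnit_or_dvd (a : (Zl ℓ)) : IsUnit a ∨ ∃ a' : (Zl ℓ), a = (ℓ : (Zl ℓ)) * a' := by
  have hℓ : ℓ.Prime := Fact.out
  obtain ⟨q, hq⟩ := a
  by_cases hd : (ℓ : ℤ) ∣ q.num
  · right
    obtain ⟨k, hk⟩ := hd
    have hden : ((q.den : ℚ)⁻¹) ∈ GaloisRep.ratLocalizedAt ℓ := by
      rw [tensor_mem_zl_iff, Rat.inv_natCast_den_of_pos q.den_pos]
      exact hq
    refine ⟨⟨(k : ℚ) * (q.den : ℚ)⁻¹, mul_mem (intCast_mem _ k) hden⟩, Subtype.ext ?_⟩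
    push_cast
    conv_lhs => rw [← Rat.num_div_den q, hk]
    push_cast
    ring
  · left
    have hq0 : q ≠ 0 := by
      rintro rfl
      exact hd (by simp)
    have hinv : q⁻¹ ∈ GaloisRep.ratLocalizedAt ℓ := by
      rw [tensor_mem_zl_iff, Rat.den_inv_of_ne_zero hq0]
      rw [Nat.coprime_comm, hℓ.coprime_iff_not_dvd]
      intro h
      exact hd (Int.natCast_dvd.mpr h)
    exact IsUnit.of_mul_eq_one ⟨q⁻¹, hinv⟩ (Subtype.ext (mul_inv_cancel₀ hq0))

variable {ℓ} in
theorem tensor_zl_algebraMap_natCast {K : Type*} [Field K] [CharP K ℓ] [Algebra (Zl ℓ) K] :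
    algebraMap (Zl ℓ) K (ℓ : (Zl ℓ)) = 0 := by
  rw [map_natCast]; exact CharP.cast_eq_zero K ℓ

variable {ℓ} in
theorem tensor_zl_range_field {K : Type*} [Field K] [Algebra (Zl ℓ) K] (a : (Zl ℓ))
    (ha : algebraMap (Zl ℓ) K a ≠ 0) [CharP K ℓ] :
    ∃ b : (Zl ℓ), algebraMap (Zl ℓ) K a * algebraMap (Zl ℓ) K b = 1 := by
  rcases tensor_zl_isUnit_or_dvd ℓ a with hu | ⟨a', rfl⟩
  · obtain ⟨b, hb⟩ := hu.exists_right_inv
    exact ⟨b, by rw [← map_mul, hb, map_one]⟩
  · exact absurd (by rw [map_mul, tensor_zl_algebraMap_natCast, zero_mul]) ha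

variable {ℓ} in
theorem tensor_zl_dvd_of_algebraMap_eq_zero {K : Type*} [Field K] [Algebra (Zl ℓ) K] (a : (Zl ℓ))
    (ha : algebraMap (Zl ℓ) K a = 0) : ∃ a' : (Zl ℓ), a = (ℓ : (Zl ℓ)) * a' := by
  rcases tensor_zl_isUnit_or_dvd ℓ a with hu | h
  · exact absurd ha (hu.map (algebraMap (Zl ℓ) K)).ne_zero
  · exact h

theorem tensor_algebraMap_eq_single {R : Type*} [CommRing R] (c : R) :
    algebraMap R (LaurentSeries R) c = HahnSeries.single 0 c := by
  have h1 : algebraMap R (PowerSeries R) c = PowerSeries.C c := by simp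
  rw [HahnSeries.algebraMap_apply', h1, HahnSeries.ofPowerSeries_C]
  rfl

/-- **(W13)** the q-expansion principle for `B` implies that `B ⊗ K` is a domain for every field
`K` of characteristic `ℓ`. -/
theorem tensor_isDomain (ℓ : ℕ) [Fact ℓ.Prime] (K : Type) [Field K] [CharP K ℓ]
    [Algebra (Zl ℓ) K] (B : Type) [CommRing B] [Algebra (Zl ℓ) B]
    (ρ : B →ₐ[Zl ℓ] LaurentSeries (Zl ℓ))
    (hker : ∀ x : B, (∀ n, (ℓ : Zl ℓ) ∣ (ρ x).coeff n) → ∃ x', x = (ℓ : B) * x') :
    IsDomain (B ⊗[Zl ℓ] K) := by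
  let ρ' : B →+* LaurentSeries K := (ModularCurve.coeffMap (algebraMap (Zl ℓ) K)).comp ρ.toRingHom
  have hρ' : ∀ (f : B) (n : ℤ), (ρ' f).coeff n = algebraMap (Zl ℓ) K ((ρ f).coeff n) :=
    fun _ _ => rfl
  refine tensor_isDomain_of_ringHom (ι := ℤ) (fun a ha => tensor_zl_range_field a ha) ρ' ?_
    (fun n => HahnSeries.coeff.addMonoidHom n) ?_ ?_ ?_ ?_
  · intro a
    change ModularCurve.coeffMap (algebraMap (Zl ℓ) K) (ρ (algebraMap (Zl ℓ) B a)) = _
    rw [ρ.commutes, tensor_algebraMap_eq_single, ModularCurve.coeffMap_single,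
      tensor_algebraMap_eq_single]
  · intro n c x
    rw [tensor_algebraMap_eq_single]
    exact HahnSeries.coeff_single_zero_mul
  · intro x hx
    ext n
    exact hx n
  · intro r n
    exact ⟨(ρ r).coeff n, (hρ' r n).symm⟩
  · intro r hr
    have hdiv : ∀ n : ℤ, (ℓ : Zl ℓ) ∣ (ρ r).coeff n := by
      intro n
      have h0 : algebraMap (Zl ℓ) K ((ρ r).coeff n) = 0 := by
        rw [← hρ', hr]; rfl
      obtain ⟨a', ha'⟩ := tensor_zl_dvd_of_algebraMap_eq_zero _ h0
      exact ⟨a', ha'⟩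
    obtain ⟨g, hg⟩ := hker r hdiv
    refine ⟨(ℓ : Zl ℓ), g, tensor_zl_algebraMap_natCast, ?_⟩
    rw [hg, Algebra.smul_def, map_natCast]

end Zl

end Fermat.Agent.S28
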