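import Mathlib
import Fermat.Agent.S28.Defs
import Fermat.Agent.S28.ZlBasic
import Fermat.Agent.S28.UFD

/-!
# S28 (W12): divisibility by `ℓ` in the chart algebras (core, with `key_div` and `exists_modPoly`
as hypotheses)
-/

set_option autoImplicit false

namespace Fermat.Agent.S28

open ModularCurve ModularCurve.IgusaScheme HahnSeries Polynomial

/-! ### abstract part -/

section abstract

variable {R F : Type*} [CommRing R] [Field F] [Algebra R F]

/-- `R[X] → R[s]` -/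
noncomputable def chartsHom (s : F) : R[X] →+* Algebra.adjoin R {s} :=
  (aeval (⟨s, Algebra.subset_adjoin rfl⟩ : Algebra.adjoin R {s}) :
    R[X] →ₐ[R] Algebra.adjoin R {s}).toRingHom

lemma charts_coe_hom (s : F) (p : R[X]) : ((chartsHom s p : Algebra.adjoin R {s}) : F) = aeval s p := by
  have := Polynomial.aeval_algebraMap_apply F (⟨s, Algebra.subset_adjoin rfl⟩ : Algebra.adjoin R {s}) p
  exact this.symm

lemma charts_hom_bijective (s : F) (hs : Transcendental R s) :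
    Function.Bijective (chartsHom (R := R) s) := by
  constructor
  · intro p q h
    have h1 := congrArg (Subtype.val) h
    rw [charts_coe_hom, charts_coe_hom] at h1
    exact (transcendental_iff_injective.1 hs) h1
  · rintro ⟨x, hx⟩
    have hx' := hx
    rw [Algebra.adjoin_singleton_eq_range_aeval] at hx'
    obtain ⟨p, hp⟩ := hx'
    refine ⟨p, Subtype.ext ?_⟩
    rw [charts_coe_hom]
    exact hp

theorem charts_core [IsIntegrallyClosed R[X]] (s : F) (hs : Transcendental R s) (p : R)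
    (hp : Prime p) (b : R[X]) (hb : ¬ C p ∣ b) (z : F)
    (h1 : IsIntegral (Algebra.adjoin R {s}) (algebraMap R F p * z))
    (h2 : IsIntegral (Algebra.adjoin R {s}) (aeval s b * z)) :
    IsIntegral (Algebra.adjoin R {s}) z := by
  let e : R[X] ≃+* Algebra.adjoin R {s} := RingEquiv.ofBijective _ (charts_hom_bijective s hs)
  have he : ∀ q, ((e q : Algebra.adjoin R {s}) : F) = aeval s q := charts_coe_hom s
  have i1 : IsIntegrallyClosed (Algebra.adjoin R {s}) := IsIntegrallyClosed.of_equiv e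
  have i2 : FaithfulSMul (Algebra.adjoin R {s}) F :=
    (faithfulSMul_iff_algebraMap_injective _ _).2 Subtype.val_injective
  refine coprime_integral (e (C p)) (e b) ((MulEquiv.prime_iff e).2 (prime_C_iff.2 hp)) ?_ z ?_ ?_
  · intro h
    exact hb ((map_dvd_iff e).1 h)
  · have : algebraMap (Algebra.adjoin R {s}) F (e (C p)) = algebraMap R F p := by
      change ((e (C p) : Algebra.adjoin R {s}) : F) = _
      rw [he, aeval_C]
    rw [this]
    exact h1
  · have : algebraMap (Algebra.adjoin R {s}) F (e b) = aeval s b := he b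
    rw [this]
    exact h2

lemma charts_not_dvd_reverse (p : R) (b : R[X]) (hb : ¬ C p ∣ b) (e : ℕ) :
    ¬ C p ∣ X ^ e * b.reverse := by
  intro h
  apply hb
  rw [C_dvd_iff_dvd_coeff] at h ⊢
  intro i
  by_cases hi : i ≤ b.natDegree
  · have h1 := h (revAt b.natDegree i + e)
    rw [coeff_X_pow_mul, coeff_reverse, revAt_invol] at h1
    exact h1
  · rw [coeff_eq_zero_of_natDegree_lt (not_le.1 hi)]
    exact dvd_zero _

lemma charts_aeval_reverse (s : F) (hs : s ≠ 0) (b : R[X]) :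
    aeval s⁻¹ b.reverse = s⁻¹ ^ b.natDegree * aeval s b := by
  have : Invertible s := invertibleOfNonzero hs
  have h := eval₂_reverse_mul_pow (algebraMap R F) s b
  rw [invOf_eq_inv] at h
  rw [aeval_def, aeval_def, ← h, inv_pow]
  field_simp

end abstract

/-! ### the function field -/

lemma charts_jq_transcendental : Transcendental ℚ jq := by
  rw [transcendental_iff]
  intro p hp
  by_contra hp0
  rw [aeval_def, eval₂_eq_sum_range] at hp
  have h2 := congrArg (fun s : LaurentSeries ℚ => s.coeff (-(p.natDegree : ℤ))) hp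
  simp only [HahnSeries.coeff_sum, HahnSeries.coeff_zero] at h2
  have hsm : ∀ (a : ℚ) (x : LaurentSeries ℚ) (k : ℤ),
      (algebraMap ℚ (LaurentSeries ℚ) a * x).coeff k = a * x.coeff k := by
    intro a x k
    rw [algebraMap_apply_eq_single, HahnSeries.coeff_single_mul, sub_zero]
  rw [Finset.sum_range_succ, Finset.sum_eq_zero, zero_add] at h2
  · rw [hsm, coeff_jq_pow_self, mul_one] at h2
    exact hp0 (leadingCoeff_eq_zero.1 h2)
  · intro i hi
    rw [hsm, coeff_jq_pow_of_lt, mul_zero]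
    have := Finset.mem_range.1 hi
    omega

section concrete

variable (N ℓ : ℕ) [NeZero N] [Fact ℓ.Prime]

lemma charts_jFull_transcendental : Transcendental (Zl ℓ) (jFull N) := by
  rw [transcendental_iff]
  intro p hp
  have h1 := congrArg (algebraMap ↥(modularFunctionFieldFull N) (LaurentSeries ℚ)) hp
  rw [aeval_def, hom_eval₂, map_zero] at h1
  have e : (algebraMap ↥(modularFunctionFieldFull N) (LaurentSeries ℚ)).comp
      (algebraMap (Zl ℓ) ↥(modularFunctionFieldFull N)) =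
      (algebraMap ℚ (LaurentSeries ℚ)).comp (algebraMap (Zl ℓ) ℚ) := by
    rw [IsScalarTower.algebraMap_eq (Zl ℓ) ℚ ↥(modularFunctionFieldFull N), ← RingHom.comp_assoc]
    congr 1
    exact RingHom.ext_rat _ _
  rw [e, ← eval₂_map] at h1
  have h2 := (transcendental_iff.1 charts_jq_transcendental) _ h1
  exact Polynomial.map_injective _ (FaithfulSMul.algebraMap_injective (Zl ℓ) ℚ)
    (h2.trans (Polynomial.map_zero _).symm)

lemma charts_jFull_inv_transcendental : Transcendental (Zl ℓ) (jFull N)⁻¹ := by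
  intro h
  have := h.inv
  rw [inv_inv] at this
  exact charts_jFull_transcendental N ℓ this

/-- the statement of `exists_modPoly` -/
def ModPolyStmt : Prop := ∃ Φ : Polynomial (Polynomial ℤ), Φ.Monic ∧
    (Φ.map (Polynomial.aeval (jqModC ℤ) : Polynomial ℤ →ₐ[ℤ] LaurentSeries ℤ).toRingHom).eval
      (jqNModC ℤ N) = 0

/-- the statement of `key_div` -/
def KeyDivStmt : Prop := ∀ (x : ↥(modularFunctionFieldFull N)) (y : LaurentSeries (Zl ℓ))
    (_ : coeffMap (GaloisRep.ratLocalizedAt ℓ).subtype y = (x : LaurentSeries ℚ))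
    (_ : ∀ n, (ℓ : Zl ℓ) ∣ y.coeff n),
    ∃ (b : Polynomial (Zl ℓ)) (P : Polynomial (Polynomial (Zl ℓ))),
      ¬ Polynomial.C (ℓ : Zl ℓ) ∣ b ∧
      Polynomial.aeval (jFull N) b * x = (ℓ : ↥(modularFunctionFieldFull N)) *
        (P.map (Polynomial.aeval (jFull N) :
          Polynomial (Zl ℓ) →ₐ[Zl ℓ] ↥(modularFunctionFieldFull N)).toRingHom).eval (jNFull N)

lemma charts_jN_mem (hmod : ModPolyStmt N) : jNFull N ∈ chartAlgFin N ℓ := by
  obtain ⟨Φ, hΦ, h0⟩ := hmod
  rw [mem_chartAlg_iff]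
  let g : ℤ[X] →+* Algebra.adjoin (Zl ℓ) {jFull N} :=
    (aeval (⟨jFull N, Algebra.subset_adjoin rfl⟩ : Algebra.adjoin (Zl ℓ) {jFull N}) :
      ℤ[X] →ₐ[ℤ] Algebra.adjoin (Zl ℓ) {jFull N}).toRingHom
  refine ⟨Φ.map g, hΦ.map g, ?_⟩
  rw [eval₂_map]
  apply FaithfulSMul.algebraMap_injective ↥(modularFunctionFieldFull N) (LaurentSeries ℚ)
  rw [hom_eval₂, map_zero]
  have h1 := congrArg (coeffMap (Int.castRingHom ℚ)) h0
  rw [eval_map, hom_eval₂, map_zero, coeffMap_jqNModC] at h1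
  rw [← h1]
  congr 1
  apply Polynomial.ringHom_ext'
  · exact RingHom.ext_int _ _
  · simp only [RingHom.comp_apply]
    have e1 : g X = ⟨jFull N, Algebra.subset_adjoin rfl⟩ := by
      simp [g]
    have e2 : (aeval (jqModC ℤ) : ℤ[X] →ₐ[ℤ] LaurentSeries ℤ).toRingHom X = jqModC ℤ := by
      simp
    rw [e1, e2, coeffMap_jqModC]
    rfl

omit [NeZero N] in
lemma charts_natCast_ne_zero : (ℓ : ↥(modularFunctionFieldFull N)) ≠ 0 :=
  Nat.cast_ne_zero.2 (Fact.out : ℓ.Prime).ne_zero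

omit [NeZero N] [Fact ℓ.Prime] in
lemma charts_coe_natCast (S : Subalgebra (Zl ℓ) ↥(modularFunctionFieldFull N)) (n : ℕ) :
    (((n : S) : S) : ↥(modularFunctionFieldFull N)) = (n : ↥(modularFunctionFieldFull N)) :=
  map_natCast S.val n

lemma charts_exists_b (hkey : KeyDivStmt N ℓ) (hmod : ModPolyStmt N)
    (x : ↥(modularFunctionFieldFull N)) (y : LaurentSeries (Zl ℓ))
    (hy : coeffMap (GaloisRep.ratLocalizedAt ℓ).subtype y = (x : LaurentSeries ℚ))
    (hdiv : ∀ n, (ℓ : Zl ℓ) ∣ y.coeff n) :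
    ∃ b : (Zl ℓ)[X], ¬ C (ℓ : Zl ℓ) ∣ b ∧
      aeval (jFull N) b * ((ℓ : ↥(modularFunctionFieldFull N))⁻¹ * x) ∈ chartAlgFin N ℓ := by
  obtain ⟨b, P, hb, h⟩ := hkey x y hy hdiv
  refine ⟨b, hb, ?_⟩
  have hl := charts_natCast_ne_zero N ℓ
  have e : aeval (jFull N) b * ((ℓ : ↥(modularFunctionFieldFull N))⁻¹ * x) =
      (P.map (Polynomial.aeval (jFull N) :
        Polynomial (Zl ℓ) →ₐ[Zl ℓ] ↥(modularFunctionFieldFull N)).toRingHom).eval (jNFull N) := by
    rw [mul_left_comm, h, inv_mul_cancel_left₀ hl]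
  rw [e, eval_map, eval₂_eq_sum_range]
  refine Subalgebra.sum_mem _ fun i _ => ?_
  exact mul_mem (adjoin_le_chartAlg N ℓ _ (aeval_mem_adjoin_singleton _ _))
    (pow_mem (charts_jN_mem N ℓ hmod) i)

theorem chartFin_div_of (hkey : KeyDivStmt N ℓ) (hmod : ModPolyStmt N) (x : chartAlgFin N ℓ)
    (y : LaurentSeries (Zl ℓ))
    (hy : coeffMap (GaloisRep.ratLocalizedAt ℓ).subtype y =
      ((x : ↥(modularFunctionFieldFull N)) : LaurentSeries ℚ))
    (hdiv : ∀ n, (ℓ : Zl ℓ) ∣ y.coeff n) :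
    ∃ x' : chartAlgFin N ℓ, x = (ℓ : chartAlgFin N ℓ) * x' := by
  obtain ⟨b, hb, h2⟩ := charts_exists_b N ℓ hkey hmod x y hy hdiv
  have hl := charts_natCast_ne_zero N ℓ
  have hz : IsIntegral (Algebra.adjoin (Zl ℓ) {jFull N})
      ((ℓ : ↥(modularFunctionFieldFull N))⁻¹ * (x : ↥(modularFunctionFieldFull N))) := by
    refine charts_core (jFull N) (charts_jFull_transcendental N ℓ) (ℓ : Zl ℓ) (zl_prime ℓ) b hb _
      ?_ h2
    rw [map_natCast, mul_inv_cancel_left₀ hl]
    exact x.2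
  refine ⟨⟨_, hz⟩, Subtype.ext ?_⟩
  rw [Subalgebra.coe_mul, charts_coe_natCast, mul_inv_cancel_left₀ hl]

theorem chartInf_div_of (hkey : KeyDivStmt N ℓ) (hmod : ModPolyStmt N) (x : chartAlgInf N ℓ)
    (y : LaurentSeries (Zl ℓ))
    (hy : coeffMap (GaloisRep.ratLocalizedAt ℓ).subtype y =
      ((x : ↥(modularFunctionFieldFull N)) : LaurentSeries ℚ))
    (hdiv : ∀ n, (ℓ : Zl ℓ) ∣ y.coeff n) :
    ∃ x' : chartAlgInf N ℓ, x = (ℓ : chartAlgInf N ℓ) * x' := by
  obtain ⟨b, hb, h2⟩ := charts_exists_b N ℓ hkey hmod x y hy hdiv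
  have hl := charts_natCast_ne_zero N ℓ
  have hmid : aeval (jFull N) b * ((ℓ : ↥(modularFunctionFieldFull N))⁻¹ * x) ∈
      chartAlg N ℓ (insert ((jFull N)⁻¹)⁻¹ {(jFull N)⁻¹}) := by
    rw [inv_inv]
    exact chartAlg_mono N ℓ (sFin_subset N) h2
  obtain ⟨e, he⟩ := exists_pow_mul_mem_chartAlg (Set.mem_singleton _)
    (inv_ne_zero (jFull_ne_zero N)) hmid
  have hw : (jFull N)⁻¹ ∈ chartAlgInf N ℓ := subset_chartAlg N ℓ _ rfl
  have hz : IsIntegral (Algebra.adjoin (Zl ℓ) {(jFull N)⁻¹})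
      ((ℓ : ↥(modularFunctionFieldFull N))⁻¹ * (x : ↥(modularFunctionFieldFull N))) := by
    refine charts_core (jFull N)⁻¹ (charts_jFull_inv_transcendental N ℓ) (ℓ : Zl ℓ) (zl_prime ℓ)
      (X ^ e * b.reverse) (charts_not_dvd_reverse _ b hb e) _ ?_ ?_
    · rw [map_natCast, mul_inv_cancel_left₀ hl]
      exact x.2
    · rw [map_mul, map_pow, aeval_X, charts_aeval_reverse _ (jFull_ne_zero N)]
      have e1 : (jFull N)⁻¹ ^ e * ((jFull N)⁻¹ ^ b.natDegree * aeval (jFull N) b) *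
          ((ℓ : ↥(modularFunctionFieldFull N))⁻¹ * (x : ↥(modularFunctionFieldFull N))) =
          (jFull N)⁻¹ ^ b.natDegree * ((jFull N)⁻¹ ^ e * (aeval (jFull N) b *
            ((ℓ : ↥(modularFunctionFieldFull N))⁻¹ * (x : ↥(modularFunctionFieldFull N))))) := by
        ring
      rw [e1]
      exact mul_mem (pow_mem hw _) he
  refine ⟨⟨_, hz⟩, Subtype.ext ?_⟩
  rw [Subalgebra.coe_mul, charts_coe_natCast, mul_inv_cancel_left₀ hl]

theorem chartMid_div_of (hkey : KeyDivStmt N ℓ) (hmod : ModPolyStmt N) (x : chartAlgMid N ℓ)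
    (y : LaurentSeries (Zl ℓ))
    (hy : coeffMap (GaloisRep.ratLocalizedAt ℓ).subtype y =
      ((x : ↥(modularFunctionFieldFull N)) : LaurentSeries ℚ))
    (hdiv : ∀ n, (ℓ : Zl ℓ) ∣ y.coeff n) :
    ∃ x' : chartAlgMid N ℓ, x = (ℓ : chartAlgMid N ℓ) * x' := by
  have hx : (x : ↥(modularFunctionFieldFull N)) ∈ chartAlg N ℓ (insert (jFull N)⁻¹ {jFull N}) := by
    rw [show insert (jFull N)⁻¹ ({jFull N} : Set ↥(modularFunctionFieldFull N)) =
      {jFull N, (jFull N)⁻¹} from Set.pair_comm _ _]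
    exact x.2
  obtain ⟨n, hn⟩ := exists_pow_mul_mem_chartAlg (Set.mem_singleton _) (jFull_ne_zero N) hx
  obtain ⟨x'', hx''⟩ := chartFin_div_of N ℓ hkey hmod ⟨_, hn⟩ (jqModC (Zl ℓ) ^ n * y)
    (by
      rw [map_mul, map_pow, coeffMap_jqModC, hy]
      rfl)
    (by
      rw [← coeffMap_zlRed_eq_zero_iff] at hdiv ⊢
      rw [map_mul, hdiv, mul_zero])
  have hw : (jFull N)⁻¹ ∈ chartAlgMid N ℓ := subset_chartAlg N ℓ _ (by simp)
  have h1 := congrArg Subtype.val hx''
  rw [Subalgebra.coe_mul, charts_coe_natCast] at h1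
  refine ⟨⟨(jFull N)⁻¹ ^ n * x'', mul_mem (pow_mem hw n)
    (chartAlg_mono N ℓ (sFin_subset N) x''.2)⟩, Subtype.ext ?_⟩
  rw [Subalgebra.coe_mul, charts_coe_natCast]
  have hj := jFull_ne_zero N
  change (x : ↥(modularFunctionFieldFull N)) =
    (ℓ : ↥(modularFunctionFieldFull N)) * ((jFull N)⁻¹ ^ n * (x'' : ↥(modularFunctionFieldFull N)))
  rw [mul_left_comm, ← h1, inv_pow, inv_mul_cancel_left₀ (pow_ne_zero n hj)]

end concrete

end Fermat.Agent.S28
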