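import Mathlib
import Fermat.Prelude.Def_ModularCurve_IgusaScheme

/-!
# S28 (III): the scheme-theoretic wrapper
-/

set_option autoImplicit false

open AlgebraicGeometry CategoryTheory CategoryTheory.Limits

namespace Fermat.Agent.S28

theorem glue_irreducibleSpace {Y : Type*} [TopologicalSpace Y] (U V : Set Y) (hU : IsIrreducible U)
    (hV : IsIrreducible V) (hUo : IsOpen U) (hcov : U ∪ V = Set.univ)
    (hmeet : (U ∩ V).Nonempty) : IrreducibleSpace Y := by
  have hVU : V ⊆ closure U := by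
    intro y hy
    rw [mem_closure_iff]
    intro W hW hyW
    obtain ⟨z, -, hz⟩ := hV.2 W U hW hUo ⟨y, hy, hyW⟩ (by rwa [Set.inter_comm] at hmeet)
    exact ⟨z, hz⟩
  have hcl : closure U = Set.univ := by
    rw [Set.eq_univ_iff_forall]
    intro y
    have : y ∈ U ∪ V := hcov ▸ Set.mem_univ y
    rcases this with h | h
    · exact subset_closure h
    · exact hVU h
  rw [irreducibleSpace_def, Set.top_eq_univ, ← hcl]
  exact hU.closure

theorem glue_isIntegral {Y U V : Scheme.{0}} (u : U ⟶ Y) (v : V ⟶ Y) [IsOpenImmersion u]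
    [IsOpenImmersion v] [IsIntegral U] [IsIntegral V]
    (hcov : ∀ y : Y, y ∈ Set.range u.base ∨ y ∈ Set.range v.base)
    (hmeet : ∃ y : Y, y ∈ Set.range u.base ∧ y ∈ Set.range v.base) : IsIntegral Y := by
  have hred : IsReduced Y := by
    have (y : Y) : _root_.IsReduced (Y.presheaf.stalk y) := by
      rcases hcov y with ⟨x, rfl⟩ | ⟨x, rfl⟩
      · exact isReduced_of_injective _ (asIso <| u.stalkMap x).commRingCatIsoToRingEquiv.injective
      · exact isReduced_of_injective _ (asIso <| v.stalkMap x).commRingCatIsoToRingEquiv.injective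
    exact isReduced_of_isReduced_stalk _
  have hirr : IrreducibleSpace Y := by
    refine glue_irreducibleSpace (Set.range u.base) (Set.range v.base) ?_ ?_
      u.isOpenEmbedding.isOpen_range ?_ ?_
    · rw [← Set.image_univ]
      exact (IrreducibleSpace.isIrreducible_univ U).image _ u.continuous.continuousOn
    · rw [← Set.image_univ]
      exact (IrreducibleSpace.isIrreducible_univ V).image _ v.continuous.continuousOn
    · rw [Set.eq_univ_iff_forall]
      exact hcov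
    · exact hmeet
  exact isIntegral_of_irreducibleSpace_of_isReduced Y

open ModularCurve ModularCurve.IgusaScheme TensorProduct

section igusa

variable (N : ℕ) [NeZero N] (ℓ : ℕ) [Fact ℓ.Prime] (K : Type) [Field K]
  [Algebra ↥(GaloisRep.ratLocalizedAt ℓ) K]

/-- the base change morphism -/
noncomputable abbrev gK : Spec (CommRingCat.of K) ⟶ Spec (CommRingCat.of ↥(GaloisRep.ratLocalizedAt ℓ)) :=
  Spec.map (CommRingCat.ofHom (algebraMap ↥(GaloisRep.ratLocalizedAt ℓ) K))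

/-- the piece of the fibre over `b : B ⟶ X` -/
noncomputable abbrev piece {B : Scheme.{0}} (b : B ⟶ ModularCurve.IgusaScheme N ℓ) : Scheme.{0} :=
  pullback (b ≫ igusaTo N ℓ) (gK ℓ K)

noncomputable abbrev pieceMap {B : Scheme.{0}} (b : B ⟶ ModularCurve.IgusaScheme N ℓ) :
    piece N ℓ K b ⟶ pullback (igusaTo N ℓ) (gK ℓ K) :=
  pullback.map (b ≫ igusaTo N ℓ) (gK ℓ K) (igusaTo N ℓ) (gK ℓ K) b (𝟙 _) (𝟙 _) (by simp) (by simp)

lemma range_pieceMap_comp {A B : Scheme.{0}} (a : A ⟶ B) (b : B ⟶ ModularCurve.IgusaScheme N ℓ) :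
    Set.range (pieceMap N ℓ K (a ≫ b)).base ⊆ Set.range (pieceMap N ℓ K b).base := by
  have h : pieceMap N ℓ K (a ≫ b) =
      pullback.map ((a ≫ b) ≫ igusaTo N ℓ) (gK ℓ K) (b ≫ igusaTo N ℓ) (gK ℓ K) a (𝟙 _) (𝟙 _)
        (by simp) (by simp) ≫ pieceMap N ℓ K b := by
    apply pullback.hom_ext <;>
      simp only [pieceMap, pullback.map, Category.assoc, pullback.lift_fst,
        pullback.lift_fst_assoc, pullback.lift_snd, Category.comp_id]
  rw [h]
  rintro _ ⟨x, rfl⟩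
  exact ⟨_, rfl⟩

/-- a piece over an affine chart is the spectrum of a tensor product -/
noncomputable def pieceIso (B : Type) [CommRing B] [Algebra ↥(GaloisRep.ratLocalizedAt ℓ) B]
    (b : Spec (CommRingCat.of B) ⟶ ModularCurve.IgusaScheme N ℓ)
    (hb : b ≫ igusaTo N ℓ =
      Spec.map (CommRingCat.ofHom (algebraMap ↥(GaloisRep.ratLocalizedAt ℓ) B))) :
    piece N ℓ K b ≅ Spec (CommRingCat.of (B ⊗[↥(GaloisRep.ratLocalizedAt ℓ)] K)) :=
  pullback.congrHom hb rfl ≪≫ pullbackSpecIso ↥(GaloisRep.ratLocalizedAt ℓ) B K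

lemma fFin_ιFin_igusaTo : (fFin N ℓ ≫ ιFin N ℓ) ≫ igusaTo N ℓ =
    Spec.map (CommRingCat.ofHom (algebraMap ↥(GaloisRep.ratLocalizedAt ℓ) (chartAlgMid N ℓ))) := by
  rw [Category.assoc, ιFin_igusaTo, ← Spec.map_comp, ← CommRingCat.ofHom_comp]
  congr 2

theorem isIntegral_pullback_of_charts
    (hFin : IsDomain (chartAlgFin N ℓ ⊗[↥(GaloisRep.ratLocalizedAt ℓ)] K))
    (hInf : IsDomain (chartAlgInf N ℓ ⊗[↥(GaloisRep.ratLocalizedAt ℓ)] K))
    (hMid : Nontrivial (chartAlgMid N ℓ ⊗[↥(GaloisRep.ratLocalizedAt ℓ)] K)) :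
    IsIntegral ↑(pullback (igusaTo N ℓ)
      (Spec.map (CommRingCat.ofHom (algebraMap ↥(GaloisRep.ratLocalizedAt ℓ) K)))) := by
  let 𝒰 := Scheme.IsLocallyDirected.openCover (span (fFin N ℓ) (fInf N ℓ))
  let 𝒱 := Scheme.Pullback.openCoverOfLeft 𝒰 (igusaTo N ℓ) (gK ℓ K)
  have hoF : IsOpenImmersion (pieceMap N ℓ K (ιFin N ℓ)) := 𝒱.map_prop WalkingSpan.left
  have hoI : IsOpenImmersion (pieceMap N ℓ K (ιInf N ℓ)) := 𝒱.map_prop WalkingSpan.right
  have hiF : IsIntegral (piece N ℓ K (ιFin N ℓ)) :=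
    IsIntegral.of_isIso (pieceIso N ℓ K (chartAlgFin N ℓ) (ιFin N ℓ) (ιFin_igusaTo N ℓ)).inv
  have hiI : IsIntegral (piece N ℓ K (ιInf N ℓ)) :=
    IsIntegral.of_isIso (pieceIso N ℓ K (chartAlgInf N ℓ) (ιInf N ℓ) (ιInf_igusaTo N ℓ)).inv
  have hw : 𝒰.f none = fFin N ℓ ≫ ιFin N ℓ :=
    (colimit.w (span (fFin N ℓ) (fInf N ℓ)) WalkingSpan.Hom.fst).symm
  refine glue_isIntegral (pieceMap N ℓ K (ιFin N ℓ)) (pieceMap N ℓ K (ιInf N ℓ)) ?_ ?_
  · intro y
    obtain ⟨i, z, hz⟩ := 𝒱.exists_eq y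
    rcases i with (_ | _ | _)
    · left
      apply range_pieceMap_comp N ℓ K (fFin N ℓ) (ιFin N ℓ)
      have h1 := congrArg (fun b => Set.range (pieceMap N ℓ K b).base) hw
      exact h1 ▸ ⟨z, hz⟩
    · exact Or.inl ⟨z, hz⟩
    · exact Or.inr ⟨z, hz⟩
  · have hne : Nonempty (piece N ℓ K (fFin N ℓ ≫ ιFin N ℓ)) := by
      have : Nonempty (Spec (CommRingCat.of (chartAlgMid N ℓ ⊗[↥(GaloisRep.ratLocalizedAt ℓ)] K))) :=
        inferInstanceAs (Nonempty (PrimeSpectrum _))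
      exact this.map (pieceIso N ℓ K (chartAlgMid N ℓ) _ (fFin_ιFin_igusaTo N ℓ)).inv.base
    obtain ⟨z⟩ := hne
    refine ⟨(pieceMap N ℓ K (fFin N ℓ ≫ ιFin N ℓ)).base z,
      range_pieceMap_comp N ℓ K (fFin N ℓ) (ιFin N ℓ) ⟨z, rfl⟩, ?_⟩
    apply range_pieceMap_comp N ℓ K (fInf N ℓ) (ιInf N ℓ)
    have h1 := congrArg (fun b => Set.range (pieceMap N ℓ K b).base) (glue_condition N ℓ)
    exact h1 ▸ ⟨z, rfl⟩

end igusa

end Fermat.Agent.S28
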