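import Mathlib
import Fermat.Agent.S28.IrrCore
import Fermat.Agent.S28.Data

/-!
# S28 (W2): `Φ_N` is irreducible mod `ℓ`
-/

set_option autoImplicit false

namespace Fermat.Agent.S28

open ModularCurve HahnSeries CongruenceSubgroup
open Fermat.Agent.X0 Fermat.Agent.S24
open scoped MatrixGroups

theorem irr_Fl (N ℓ : ℕ) [NeZero N] [Fact ℓ.Prime] (hℓN : ¬ ℓ ∣ N)
    (P : Polynomial (Polynomial (ZMod ℓ))) (hP : P ≠ 0) (hdeg : P.natDegree < Nat.card (Cos N)) :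
    (P.map (Polynomial.aeval (jqModC (ZMod ℓ)) :
      Polynomial (ZMod ℓ) →ₐ[ZMod ℓ] LaurentSeries (ZMod ℓ)).toRingHom).eval
        (jqNModC (ZMod ℓ) N) ≠ 0 := by
  obtain ⟨k, _, _, x, h, hx, hh0, hh, hx1, htr⟩ := exists_data N ℓ hℓN
  exact irrCore (ZMod.castHom (dvd_refl ℓ) k) N x h hx hh0 hh hx1 htr P hP hdeg

end Fermat.Agent.S28
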